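import Mathlib
import Fermat.Agent.RT.Main

/-!
# Unframed sites and the components of mixed type

At an unframed site the coordinates are a Frobenius eigenvalue and the two off-diagonal entries of
inertia; its components are the unramified line and the lines on which the eigenvalue is a given
constant and one of the two entries vanishes.
-/

set_option autoImplicit false

noncomputable section

open IsLocalRing FermatAgent.GaloisBasic

namespace FermatAgent.RT.Raise

variable {𝒪 : Type} [CommRing 𝒪] [IsDomain 𝒪] [IsDiscreteValuationRing 𝒪]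
  [IsAdicComplete (maximalIdeal 𝒪) 𝒪]
variable {ϖ : 𝒪}

/-- The type of a component at an unframed site: unramified, or the eigenvalue pinned with one
of the two entries vanishing. -/
abbrev SiteType : Type := Option Bool

/-- The equations of a type. -/
def typeCond (c : Bool → 𝒪) {A : Type} [CommRing A] [Algebra 𝒪 A] (z : Fin 3 → A) :
    SiteType → Prop
  | none => z 1 = 0 ∧ z 2 = 0
  | some true => z 0 = algebraMap 𝒪 A (c true) ∧ z 2 = 0
  | some false => z 0 = algebraMap 𝒪 A (c false) ∧ z 1 = 0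

variable (hϖ : maximalIdeal 𝒪 = Ideal.span {ϖ}) (c : Bool → 𝒪)
  (hc : ∀ b, c b ∈ maximalIdeal 𝒪)

/-- The coordinate which is free on a type. -/
def freeAx : SiteType → Fin 3
  | none => 0
  | some true => 1
  | some false => 2

/-- The two coordinates which are pinned on a type. -/
def pinAx : SiteType → Fin 2 → Fin 3
  | none => ![1, 2]
  | some true => ![0, 2]
  | some false => ![0, 1]

/-- Their values. -/
def pinVal : SiteType → Fin 2 → 𝒪
  | none => 0
  | some b => ![c b, 0]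

include hc in
omit [IsAdicComplete (maximalIdeal 𝒪) 𝒪] in
lemma pinVal_mem (T : SiteType) (k : Fin 2) : pinVal c T k ∈ maximalIdeal 𝒪 := by
  rcases T with _ | b <;> fin_cases k <;> simp [pinVal, -mem_maximalIdeal, hc]

/-- The coordinates of a type. -/
def typeEquiv (T : SiteType) : Fin 1 ⊕ Fin 2 ≃ Fin 3 :=
  Equiv.ofBijective (Sum.elim (fun _ => freeAx T) (pinAx T))
    (by rcases T with _ | _ | _ <;> decide)

lemma typeFactor_isSol (T : SiteType) {A : Type} [CommRing A] [Algebra 𝒪 A] (z : Fin 3 → A) :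
    IsSol (fun k => MvPolynomial.rename (typeEquiv T)
      ((pinFactor hϖ 1 (Fin 2) (pinVal c T) (pinVal_mem c hc T)).rel k)) z ↔ typeCond c z T := by
  refine (isSol_rename_iff _ _ z).trans ?_
  show (∀ k : Fin 2, MvPolynomial.aeval (fun i => z (typeEquiv T i))
    (MvPolynomial.X (Sum.inr k) - MvPolynomial.C (pinVal c T k)) = 0) ↔ _
  rcases T with _ | _ | _ <;>
    simp [typeEquiv, pinAx, pinVal, typeCond, Fin.forall_fin_two, sub_eq_zero]

section Family

variable {σ ν : Type} (g : ℕ) (res st : σ → Bool) (τ₀ : σ → 𝒪) (cs : ν → Bool → 𝒪)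
  (T : ν → SiteType)

/-- The coordinates: free, framed sites, unframed sites. -/
abbrev bigIdx : Option σ ⊕ ν → Type
  | Sum.inl v => siteIdx g v
  | Sum.inr _ => Fin 3

instance bigIdx_fintype : ∀ w : Option σ ⊕ ν, Fintype (bigIdx g w)
  | Sum.inl v => inferInstanceAs (Fintype (siteIdx g v))
  | Sum.inr _ => inferInstanceAs (Fintype (Fin 3))

/-- All the coordinates. -/
abbrev BigIdx (σ ν : Type) (g : ℕ) : Type := Σ w : Option σ ⊕ ν, bigIdx g w

variable (h2 : IsUnit (2 : 𝒪)) {J : 𝒪} (hJ : J ^ 2 = -1)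
  (hτ₀m : ∀ v, τ₀ v ∈ maximalIdeal 𝒪) (hτ₀ : ∀ v, τ₀ v ≠ 0)
  (hcs : ∀ v b, cs v b ∈ maximalIdeal 𝒪)

/-- The factors of a component, with their coordinates. -/
def bigSite : ∀ w : Option σ ⊕ ν, Σ G : Factor 𝒪 ϖ, G.ι ≃ bigIdx g w
  | Sum.inl v => mixSite g res st τ₀ hϖ h2 hJ hτ₀m hτ₀ v
  | Sum.inr v => ⟨pinFactor hϖ 1 (Fin 2) (pinVal (cs v) (T v)) (pinVal_mem (cs v) (hcs v) (T v)),
      typeEquiv (T v)⟩

/-- The family of a component. -/
abbrev bigFamily (w : Option σ ⊕ ν) : Factor 𝒪 ϖ :=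
  (bigSite hϖ g res st τ₀ cs T h2 hJ hτ₀m hτ₀ hcs w).1.reindex
    (bigSite hϖ g res st τ₀ cs T h2 hJ hτ₀m hτ₀ hcs w).2

/-- The equations of a component. -/
def BigCond {A : Type} [CommRing A] [Algebra 𝒪 A] (z : BigIdx σ ν g → A) : Prop :=
  (∀ v, if st v then stCond (res v) (τ₀ v) (fun i => z ⟨Sum.inl (some v), i⟩)
    else nrCond fun i => z ⟨Sum.inl (some v), i⟩) ∧
  ∀ v, typeCond (cs v) (fun i => z ⟨Sum.inr v, i⟩) (T v)

/-- The relations of a component. -/
def bigRel : (Σ w, (bigFamily hϖ g res st τ₀ cs T h2 hJ hτ₀m hτ₀ hcs w).ρt) →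
    MvPolynomial (BigIdx σ ν g) 𝒪 :=
  Factor.prodRel (bigFamily hϖ g res st τ₀ cs T h2 hJ hτ₀m hτ₀ hcs)

/-- A solution of the system of all sites satisfies the conditions of a component of mixed type. -/
lemma isSol_bigRel_iff {A : Type} [CommRing A] [Algebra 𝒪 A] (z : BigIdx σ ν g → A) :
    IsSol (bigRel hϖ g res st τ₀ cs T h2 hJ hτ₀m hτ₀ hcs) z ↔
      BigCond g res st τ₀ cs T z := by
  refine (Factor.isSol_prodRel_iff (bigFamily hϖ g res st τ₀ cs T h2 hJ hτ₀m hτ₀ hcs) z).trans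
    ⟨fun h => ⟨fun v => ?_, fun v => ?_⟩, fun h w => ?_⟩
  · exact (mixFamily_isSol_some g res st τ₀ hϖ h2 hJ hτ₀m hτ₀ v _).mp (h (Sum.inl (some v)))
  · exact (typeFactor_isSol hϖ (cs v) (hcs v) (T v) _).mp (h (Sum.inr v))
  · rcases w with (_ | v) | v
    · exact mixFamily_isSol_none g res st τ₀ hϖ h2 hJ hτ₀m hτ₀ _
    · exact (mixFamily_isSol_some g res st τ₀ hϖ h2 hJ hτ₀m hτ₀ v _).mpr (h.1 v)
    · exact (typeFactor_isSol hϖ (cs v) (hcs v) (T v) _).mpr (h.2 v)

variable [Fintype σ] [Fintype ν]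

/-- The dimension of a component of mixed type is `g + #ν + 3 #σ`. -/
lemma bigN_eq : Factor.prodN (bigFamily hϖ g res st τ₀ cs T h2 hJ hτ₀m hτ₀ hcs) =
    g + Fintype.card ν + 3 * Fintype.card σ := by
  have h : ∀ w, (bigFamily hϖ g res st τ₀ cs T h2 hJ hτ₀m hτ₀ hcs w).n =
      Sum.elim (fun v : Option σ => v.elim g fun _ => 3) (fun _ => 1) w := by
    rintro (v | v)
    · exact mixFamily_n g res st τ₀ hϖ h2 hJ hτ₀m hτ₀ v
    · rfl
  rw [Factor.prodN, Fintype.card_sigma,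
    Finset.sum_congr rfl fun w _ => (Fintype.card_fin _).trans (h w),
    Fintype.sum_sum_type, Fintype.sum_option]
  simp [mul_comm]
  ring

/-- The component. -/
def bigComp : ComponentData (Factor.prodN (bigFamily hϖ g res st τ₀ cs T h2 hJ hτ₀m hτ₀ hcs))
    (bigRel hϖ g res st τ₀ cs T h2 hJ hτ₀m hτ₀ hcs) :=
  Factor.prodData _ hϖ

lemma bigComp_good (p : Pt (BigIdx σ ν g) 𝒪) :
    (bigComp hϖ g res st τ₀ cs T h2 hJ hτ₀m hτ₀ hcs).good p := by
  intro w
  rcases w with (_ | v) | v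
  · exact mixFamily_good g res st τ₀ hϖ h2 hJ hτ₀m hτ₀ none
      ⟨fun i => p.coords ⟨Sum.inl none, i⟩, fun i => p.mem _⟩
  · exact mixFamily_good g res st τ₀ hϖ h2 hJ hτ₀m hτ₀ (some v)
      ⟨fun i => p.coords ⟨Sum.inl (some v), i⟩, fun i => p.mem _⟩
  · trivial

/-- A point with the equations of a component lies on it. -/
lemma bigComp_le_pt {p : Pt (BigIdx σ ν g) 𝒪} (hp : BigCond g res st τ₀ cs T p.coords) :
    (bigComp hϖ g res st τ₀ cs T h2 hJ hτ₀m hτ₀ hcs).prime ≤ p.prime :=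
  (bigComp hϖ g res st τ₀ cs T h2 hJ hτ₀m hτ₀ hcs).prime_le_pt
    (bigComp_good hϖ g res st τ₀ cs T h2 hJ hτ₀m hτ₀ hcs p)
    ((isSol_bigRel_iff hϖ g res st τ₀ cs T h2 hJ hτ₀m hτ₀ hcs _).mpr hp)

end Family

end FermatAgent.RT.Raise
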