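import Mathlib
import Fermat.Agent.RT.Raise.Sites

/-!
# Unframed sites by coordinates

An unframed site is given by the equations between three coordinates, which force one of the three
types in every local domain.
-/

set_option autoImplicit false

noncomputable section

open IsLocalRing FermatAgent.GaloisBasic

namespace FermatAgent.RT.Raise

variable {𝒪 : Type} [CommRing 𝒪] [IsLocalRing 𝒪]

/-- The constants of the two raised types: zero, and another one. -/
def siteConsts (other : 𝒪) : Bool → 𝒪 := fun b => bif b then 0 else other

/-- An unframed site by the equations of its three coordinates. -/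
structure CoordSite (𝒪 : Type) [CommRing 𝒪] [IsLocalRing 𝒪] where
  /-- the eigenvalue coordinate of the other type -/
  other : 𝒪
  other_mem : other ∈ maximalIdeal 𝒪
  other_ne : other ≠ 0
  /-- the equations of the three coordinates -/
  eqs : Set (MvPowerSeries (Fin 3) 𝒪)
  types : ∀ (B : Type) [CommRing B] [IsDomain B] [IsLocalRing B] [Algebra 𝒪 B]
    (f : MvPowerSeries (Fin 3) 𝒪 →ₐ[𝒪] B) [IsLocalHom (f : MvPowerSeries (Fin 3) 𝒪 →+* B)],
    (∀ e ∈ eqs, f e = 0) →
      ∃ T : SiteType, typeCond (siteConsts other) (fun i => f (MvPowerSeries.X i)) T

namespace CoordSite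

variable (c : CoordSite 𝒪)

/-- The constants of the two types. -/
def consts : Bool → 𝒪 := siteConsts c.other

/-- The constants of the two types lie in the maximal ideal. -/
lemma consts_mem : ∀ b, c.consts b ∈ maximalIdeal 𝒪 := by
  rintro (_ | _)
  · exact c.other_mem
  · exact Ideal.zero_mem _

/-- The constants of the two types differ. -/
lemma consts_ne : c.consts true ≠ c.consts false := fun h => c.other_ne h.symm

/-- The constant of the first type is zero. -/
lemma consts_true : c.consts true = 0 := rfl

end CoordSite

/-- A site whose third coordinate vanishes and whose first two coordinates have product zero. -/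
def CoordSite.ofProduct (other : 𝒪) (h : other ∈ maximalIdeal 𝒪) (h0 : other ≠ 0) :
    CoordSite 𝒪 where
  other := other
  other_mem := h
  other_ne := h0
  eqs := {MvPowerSeries.X 2, MvPowerSeries.X 0 * MvPowerSeries.X 1}
  types B _ _ _ _ f _ hf := by
    have h2 : f (MvPowerSeries.X 2) = 0 := hf _ (Set.mem_insert _ _)
    have h01 := hf _ (Set.mem_insert_of_mem _ (Set.mem_singleton _))
    rw [map_mul] at h01
    rcases mul_eq_zero.mp h01 with h' | h'
    · exact ⟨some true, h'.trans (by simp [siteConsts]), h2⟩
    · exact ⟨none, h', h2⟩

end FermatAgent.RT.Raise
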