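import Mathlib
import Fermat.Agent.RT.Framed
import Fermat.Agent.RT.UnivMap
import Fermat.Agent.RT.Raise.Sites

/-!
# Generation by framed and unframed coordinates

The coordinates at the sites of both kinds and `g + 1` further elements generate the framed ring,
when the tangent bound `g` holds where the unframed coordinates vanish. No site need be framed.
-/

set_option autoImplicit false

noncomputable section

open IsLocalRing FermatAgent.GaloisBasic

namespace FermatAgent.RT.Raise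

variable {𝒪 : Type} [CommRing 𝒪]
variable {G : Type} [Monoid G] {σ : Type}

/-- A representation pushed forward along an algebra map. -/
def pushRep {R R' : Type} [CommRing R] [Algebra 𝒪 R] [CommRing R'] [Algebra 𝒪 R']
    (f : R →ₐ[𝒪] R') (M : G →* Matrix (Fin 2) (Fin 2) R) : G →* Matrix (Fin 2) (Fin 2) R' :=
  (f.mapMatrix : Matrix (Fin 2) (Fin 2) R →ₐ[𝒪]
    Matrix (Fin 2) (Fin 2) R').toRingHom.toMonoidHom.comp M

lemma pushRep_apply {R R' : Type} [CommRing R] [Algebra 𝒪 R] [CommRing R'] [Algebra 𝒪 R']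
    (f : R →ₐ[𝒪] R') (M : G →* Matrix (Fin 2) (Fin 2) R) (x : G) :
    pushRep f M x = (M x).map f := rfl

section Natural

variable {R R' : Type} [CommRing R] [Algebra 𝒪 R] [CommRing R'] [Algebra 𝒪 R']

lemma map_algebraMap_series {ι : Type} (f : R →ₐ[𝒪] R') (a : 𝒪) :
    MvPowerSeries.map (σ := ι) (f : R →+* R') (algebraMap 𝒪 (MvPowerSeries ι R) a) =
      algebraMap 𝒪 (MvPowerSeries ι R') a := by
  rw [MvPowerSeries.algebraMap_apply, MvPowerSeries.algebraMap_apply, MvPowerSeries.map_C,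
    RingHom.coe_coe, AlgHom.commutes]

lemma map_frameVar (f : R →ₐ[𝒪] R') (v : σ) :
    (frameVar (R := R) v).map (MvPowerSeries.map (f : R →+* R')) = frameVar v := by
  ext i j
  simp only [Matrix.map_apply, frameVar, Matrix.of_apply]
  simp

lemma map_frameInv (f : R →ₐ[𝒪] R') (v : σ) :
    (frameInv (R := R) v).map (MvPowerSeries.map (f : R →+* R')) = frameInv v := by
  refine (Matrix.inv_eq_left_inv ?_).symm
  rw [← map_frameVar f v, ← RingHom.mapMatrix_apply, ← RingHom.mapMatrix_apply]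
  conv_lhs => rw [← map_one (MvPowerSeries.map (σ := FrameIdx σ) (f : R →+* R')).mapMatrix]
  rw [← map_add, ← map_mul, frameInv_mul, map_one]

/-- The residual frame commutes with pushing the representation forward. -/
lemma map_baseRep (M : G →* Matrix (Fin 2) (Fin 2) R) (d : σ → FrameSite 𝒪 G) (f : R →ₐ[𝒪] R')
    (v : σ) (x : G) :
    (baseRep M d v x).map f = baseRep (pushRep f M) d v x := by
  have e : ∀ S : Matrix (Fin 2) (Fin 2) 𝒪,
      ((algebraMap 𝒪 R).mapMatrix S).map f = (algebraMap 𝒪 R').mapMatrix S := fun S => by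
    ext i j; simp
  simp only [baseRep, MonoidHom.coe_mk, OneHom.coe_mk, Matrix.map_mul, e, pushRep_apply]

lemma map_framedRep (M : G →* Matrix (Fin 2) (Fin 2) R) (d : σ → FrameSite 𝒪 G)
    (f : R →ₐ[𝒪] R') (v : σ) (x : G) :
    (framedRep M d v x).map (MvPowerSeries.map (f : R →+* R')) =
      framedRep (pushRep f M) d v x := by
  simp only [framedRep, MonoidHom.coe_mk, OneHom.coe_mk, Matrix.map_mul, map_frameInv]
  rw [← map_baseRep M d f v x]
  congr 1
  · congr 1
    ext i j : 1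
    simp
  · rw [Matrix.map_add _ (map_add _), map_frameVar,
      Matrix.map_one _ (map_zero _) (map_one _)]

lemma map_siteCoord (M : G →* Matrix (Fin 2) (Fin 2) R) (d : σ → FrameSite 𝒪 G) (half : 𝒪)
    (f : R →ₐ[𝒪] R') (v : σ) (i : PairIdx) :
    MvPowerSeries.map (f : R →+* R') (siteCoord M d half v i) =
      siteCoord (pushRep f M) d half v i := by
  have h1 : ∀ x a b, MvPowerSeries.map (f : R →+* R') (framedRep M d v x a b) =
      framedRep (pushRep f M) d v x a b := fun x a b =>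
    congrFun (congrFun (map_framedRep M d f v x) a) b
  rcases i with i | i <;> fin_cases i <;>
    simp [siteCoord, matVec, frobDev, inertDev, map_algebraMap_series, h1]

variable [IsLocalRing R] [IsLocalRing R']

lemma residualShape_map {M : G →* Matrix (Fin 2) (Fin 2) R} {d : σ → FrameSite 𝒪 G}
    (h : ResidualShape M d) (f : R →ₐ[𝒪] R') [IsLocalHom (f : R →+* R')] :
    ResidualShape (pushRep f M) d := fun v i j => by
  obtain ⟨h1, h2⟩ := h v i j
  have h1' := map_nonunit (f : R →+* R') _ h1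
  have h2' := map_nonunit (f : R →+* R') _ h2
  rw [← map_baseRep M d f v, ← map_baseRep M d f v, Matrix.map_apply, Matrix.map_apply]
  simp only [RingHom.coe_coe, map_sub, AlgHom.commutes] at h1' h2'
  refine ⟨h1', ?_⟩
  convert h2' using 2
  rw [Matrix.one_apply, Matrix.one_apply, apply_ite f, map_one, map_zero]

lemma framedHyps_map {M : G →* Matrix (Fin 2) (Fin 2) R} {d : σ → FrameSite 𝒪 G} {half ϖ : 𝒪}
    (h : FramedHyps M d half ϖ) (f : R →ₐ[𝒪] R') [IsLocalHom (f : R →+* R')] :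
    FramedHyps (pushRep f M) d half ϖ where
  two_half := h.two_half
  sgn_sq := h.sgn_sq
  residual := residualShape_map h.residual f
  det_frob v := by
    obtain ⟨q, hq, e⟩ := h.det_frob v
    exact ⟨q, hq, by rw [pushRep_apply, ← AlgHom.mapMatrix_apply, ← AlgHom.map_det, e,
      AlgHom.commutes]⟩
  det_inert v := by
    rw [pushRep_apply, ← AlgHom.mapMatrix_apply, ← AlgHom.map_det, h.det_inert v, map_one]
  ϖ_mem := by
    have := map_nonunit (f : R →+* R') _ h.ϖ_mem
    rwa [RingHom.coe_coe, AlgHom.commutes] at this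

end Natural

variable [IsDomain 𝒪] [IsDiscreteValuationRing 𝒪] [IsAdicComplete (maximalIdeal 𝒪) 𝒪] {ϖ : 𝒪}
  [Fintype σ]
variable {R : Type} [CommRing R] [IsLocalRing R] [Algebra 𝒪 R] [IsNoetherianRing R]
  [IsAdicComplete (maximalIdeal R) R]
variable {ν : Type} [Fintype ν] (M : G →* Matrix (Fin 2) (Fin 2) R) (d : σ → FrameSite 𝒪 G)
  (zν : ν → Fin 3 → R) (half : 𝒪)

/-- The bound on tangent vectors which are trivial at all sites, stated on every quotient in
which the unframed coordinates vanish. -/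
def TangentBound (ϖ : 𝒪) (g : ℕ) : Prop :=
  ∀ (R' : Type) [CommRing R'] [IsLocalRing R'] [Algebra 𝒪 R'] (f : R →ₐ[𝒪] R'),
    Function.Surjective f → (∀ v i, f (zν v i) = 0) →
    Module.finrank (ResidueField R') (tanLoc (pushRep f M) d ϖ) +
      ∑ v, Module.finrank (ResidueField R') (siteCent (R := R') d v) ≤ g + 1

section Aux

omit [IsAdicComplete (maximalIdeal R) R] [IsNoetherianRing R] [Fintype ν]

omit [IsAdicComplete (maximalIdeal 𝒪) 𝒪] in
/-- Algebra maps from power series into a complete local ring which are local and agree on the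
variables are equal. -/
lemma algHom_eq_of_X {κ : Type} [Finite κ] {S : Type}
    [CommRing S] [IsLocalRing S] [Algebra 𝒪 S] [IsAdicComplete (maximalIdeal S) S]
    (φ ψ : MvPowerSeries κ 𝒪 →ₐ[𝒪] S)
    (hφ : ∀ b ∈ maximalIdeal (MvPowerSeries κ 𝒪), φ b ∈ maximalIdeal S)
    (hψ : ∀ b ∈ maximalIdeal (MvPowerSeries κ 𝒪), ψ b ∈ maximalIdeal S)
    (hX : ∀ x, φ (MvPowerSeries.X x) = ψ (MvPowerSeries.X x)) : φ = ψ := by
  have := Fintype.ofFinite κ
  have key : ∀ χ : MvPowerSeries κ 𝒪 →ₐ[𝒪] S,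
      (∀ b ∈ maximalIdeal (MvPowerSeries κ 𝒪), χ b ∈ maximalIdeal S) → ∀ n f,
      χ f - χ ((f.truncTotal n : MvPolynomial κ 𝒪) : MvPowerSeries κ 𝒪) ∈ maximalIdeal S ^ n := by
    intro χ hχ n f
    rw [← map_sub]
    refine Ideal.pow_right_mono (Ideal.map_le_iff_le_comap.mpr hχ) n ?_
    rw [← Ideal.map_pow]
    exact Ideal.mem_map_of_mem _ (sub_truncTotal_mem_pow f n)
  have hm : ∀ x, φ (MvPowerSeries.X x) ∈ maximalIdeal S := fun x =>
    hφ _ (by rw [mem_maximalIdeal_iff_constantCoeff]; simp)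
  rw [eq_evalAdic (maximalIdeal S) _ hm (fun _ => rfl) (key φ hφ),
    eq_evalAdic (maximalIdeal S) _ hm (fun x => (hX x).symm) (key ψ hψ)]

omit [IsAdicComplete (maximalIdeal 𝒪) 𝒪] in
/-- Evaluation at elements of the maximal ideal is local. -/
lemma evalAdic_mem {κ : Type} [Finite κ] (hϖ : maximalIdeal 𝒪 = Ideal.span {ϖ}) {S : Type}
    [CommRing S] [IsLocalRing S] [Algebra 𝒪 S] [IsAdicComplete (maximalIdeal S) S]
    (hϖS : algebraMap 𝒪 S ϖ ∈ maximalIdeal S) (z : κ → S) (hz : ∀ x, z x ∈ maximalIdeal S) :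
    ∀ b ∈ maximalIdeal (MvPowerSeries κ 𝒪),
      evalAdic (R := 𝒪) (maximalIdeal S) z hz b ∈ maximalIdeal S := fun b hb => by
  have := Fintype.ofFinite κ
  rw [mem_maximalIdeal_iff_constantCoeff, hϖ] at hb
  obtain ⟨c, hc⟩ := Ideal.mem_span_singleton'.mp hb
  refine (Submodule.sub_mem_iff_left _ ?_).mp
    (evalAdic_sub_constantCoeff_mem (R := 𝒪) (maximalIdeal S) z hz b)
  rw [← hc, map_mul]; exact Ideal.mul_mem_left _ _ hϖS

/-- A map which is onto modulo the ideal of some images of elements of the maximal ideal is onto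
modulo the square of the maximal ideal. -/
lemma exists_sub_mem_sq {P S : Type} [CommRing P] [CommRing S] [IsLocalRing S] {X : Type}
    [Fintype X] (θ : P →+* S) (x : X → P) (hx : ∀ i, θ (x i) ∈ maximalIdeal S)
    (hdec : ∀ y, ∃ b, y - θ b ∈ Ideal.span (Set.range fun i => θ (x i))) (a : S) :
    ∃ b, a - θ b ∈ maximalIdeal S ^ 2 := by
  obtain ⟨b, hc⟩ := hdec a
  obtain ⟨co, hco⟩ := Ideal.mem_span_range_iff_exists_fun.mp hc
  choose bs hbs using fun i => hdec (co i)
  refine ⟨b + ∑ i, bs i * x i, ?_⟩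
  have h : a - θ (b + ∑ i, bs i * x i) = ∑ i, (co i - θ (bs i)) * θ (x i) := by
    rw [map_add, map_sum, ← sub_sub, ← hco, ← Finset.sum_sub_distrib]
    exact Finset.sum_congr rfl fun i _ => by rw [map_mul, sub_mul]
  rw [h, pow_two]
  exact Ideal.sum_mem _ fun i _ => Ideal.mul_mem_mul
    (Ideal.span_le.mpr (by rintro _ ⟨j, rfl⟩; exact hx j) (hbs i)) (hx i)

omit [IsLocalRing R] in
/-- A series with coefficients in a finitely generated ideal. -/
lemma mem_span_C_of_coeff_mem {ι X : Type} [Fintype X] (a : X → R) {y : MvPowerSeries ι R}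
    (h : ∀ e, MvPowerSeries.coeff e y ∈ Ideal.span (Set.range a)) :
    y ∈ Ideal.span (Set.range fun x => MvPowerSeries.C (σ := ι) (a x)) := by
  choose co hco using fun e => Ideal.mem_span_range_iff_exists_fun.mp (h e)
  have hsum : y = ∑ x, (show MvPowerSeries ι R from fun e => co e x) * MvPowerSeries.C (a x) := by
    refine MvPowerSeries.ext fun e => ?_
    rw [map_sum, ← hco e]
    refine Finset.sum_congr rfl fun x _ => ?_
    rw [mul_comm (_ : MvPowerSeries ι R), MvPowerSeries.coeff_C_mul]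
    exact mul_comm _ _
  rw [hsum]
  exact Ideal.sum_mem _ fun x _ => Ideal.mul_mem_left _ _ (Ideal.subset_span ⟨x, rfl⟩)

end Aux

/-- **Generation.** -/
theorem exists_theta (H : FramedHyps M d half ϖ) (hϖ : maximalIdeal 𝒪 = Ideal.span {ϖ})
    (hres0 : Function.Surjective ((residue R).comp (algebraMap 𝒪 R)))
    (hzν : ∀ v i, zν v i ∈ maximalIdeal R) {g : ℕ}
    (hg : TangentBound M d zν ϖ g) :
    ∃ θ : MvPowerSeries (BigIdx σ ν (g + 1)) 𝒪 →ₐ[𝒪] FramedRing R σ, Function.Surjective θ ∧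
      (∀ v i, θ (MvPowerSeries.X ⟨Sum.inl (some v), i⟩) = siteCoord M d half v i) ∧
      ∀ v i, θ (MvPowerSeries.X ⟨Sum.inr v, i⟩) = MvPowerSeries.C (zν v i) := by
  classical
  have := isAdicComplete_mvPowerSeries_of_complete (σ := FrameIdx σ) (A := R)
  set Q : Ideal R := Ideal.span (Set.range fun x : ν × Fin 3 => zν x.1 x.2) with hQ
  have hQm : Q ≤ maximalIdeal R := Ideal.span_le.mpr (by
    rintro _ ⟨x, rfl⟩; exact hzν x.1 x.2)
  have : Nontrivial (R ⧸ Q) := Ideal.Quotient.nontrivial_iff.mpr fun e =>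
    (maximalIdeal.isMaximal R).ne_top (top_unique (e ▸ hQm))
  have : IsLocalRing (R ⧸ Q) :=
    IsLocalRing.of_surjective' (Ideal.Quotient.mk Q) Ideal.Quotient.mk_surjective
  let f : R →ₐ[𝒪] R ⧸ Q := Ideal.Quotient.mkₐ 𝒪 Q
  have : IsLocalHom (f : R →+* R ⧸ Q) :=
    IsLocalHom.of_surjective _ Ideal.Quotient.mk_surjective
  have : IsLocalHom (algebraMap R (R ⧸ Q)) :=
    IsLocalHom.of_surjective _ Ideal.Quotient.mk_surjective
  have : IsAdicComplete (maximalIdeal (R ⧸ Q)) (R ⧸ Q) :=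
    IsLocalRing.isAdicComplete_of_module_finite (𝒪 := R)
  obtain ⟨θ', hθ's, hθ'c⟩ := exists_evalAdic_surjective (g := g + 1) (pushRep f M) d
    half ϖ (framedHyps_map H f) hϖ (residue_surjective_quotient Q hres0)
    (hg _ f Ideal.Quotient.mk_surjective fun v i =>
      Ideal.Quotient.eq_zero_iff_mem.mpr (Ideal.subset_span ⟨(v, i), rfl⟩))
  -- the map to the quotient
  let π : FramedRing R σ →+* FramedRing (R ⧸ Q) σ := MvPowerSeries.map (f : R →+* R ⧸ Q)
  have hπs : Function.Surjective π := fun y => by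
    choose c hc using fun e => Ideal.Quotient.mk_surjective (MvPowerSeries.coeff e y)
    exact ⟨(fun e => c e : FramedRing R σ), MvPowerSeries.ext fun e => hc e⟩
  choose xs hxs using fun j : Fin (g + 1) => hπs (θ' (MvPowerSeries.X ⟨none, j⟩))
  have := isAdicComplete_mvPowerSeries_of_complete (σ := FrameIdx σ) (A := R ⧸ Q)
  have hθ'loc : ∀ b ∈ maximalIdeal (MvPowerSeries (AllIdx σ (g + 1)) 𝒪),
      θ' b ∈ maximalIdeal (FramedRing (R ⧸ Q) σ) := fun b hb => by
    have : IsLocalHom θ'.toRingHom := IsLocalHom.of_surjective _ hθ's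
    exact map_nonunit θ'.toRingHom b hb
  have hθ'm : ∀ x, θ' (MvPowerSeries.X x) ∈ maximalIdeal (FramedRing (R ⧸ Q) σ) := fun x =>
    hθ'loc _ (by rw [mem_maximalIdeal_iff_constantCoeff]; simp)
  have hϖF : algebraMap 𝒪 (FramedRing R σ) ϖ ∈ maximalIdeal (FramedRing R σ) := by
    rw [mem_maximalIdeal_iff_constantCoeff, MvPowerSeries.algebraMap_apply,
      MvPowerSeries.constantCoeff_C]
    exact H.ϖ_mem
  have : IsLocalHom π := IsLocalHom.of_surjective _ hπs
  have hlift : ∀ y, π y ∈ maximalIdeal (FramedRing (R ⧸ Q) σ) →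
      y ∈ maximalIdeal (FramedRing R σ) := fun y hy => by
    by_contra hc
    exact (mem_maximalIdeal _).mp hy ((notMem_maximalIdeal.mp hc).map π)
  let z : BigIdx σ ν (g + 1) → FramedRing R σ
    | ⟨Sum.inl none, j⟩ => xs j
    | ⟨Sum.inl (some v), i⟩ => siteCoord M d half v i
    | ⟨Sum.inr v, i⟩ => MvPowerSeries.C (zν v i)
  have hπz : ∀ x : AllIdx σ (g + 1), π (z ⟨Sum.inl x.1, x.2⟩) = θ' (MvPowerSeries.X x) := by
    rintro ⟨_ | v, i⟩
    · exact hxs i
    · show π (siteCoord M d half v i) = _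
      rw [hθ'c]
      exact map_siteCoord M d half f v i
  have hz : ∀ x, z x ∈ maximalIdeal (FramedRing R σ) := by
    rintro ⟨v | v, i⟩
    · exact hlift _ (hπz ⟨v, i⟩ ▸ hθ'm _)
    · rw [mem_maximalIdeal_iff_constantCoeff]
      show MvPowerSeries.constantCoeff (MvPowerSeries.C (zν v i)) ∈ _
      rw [MvPowerSeries.constantCoeff_C]
      exact hzν v i
  let θ : MvPowerSeries (BigIdx σ ν (g + 1)) 𝒪 →ₐ[𝒪] FramedRing R σ :=
    evalAdic (maximalIdeal (FramedRing R σ)) z hz
  have hθX : ∀ x, θ (MvPowerSeries.X x) = z x := fun x => by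
    simp only [θ, evalAdic_X]
  refine ⟨θ, ?_, fun v i => (hθX ⟨Sum.inl (some v), i⟩).trans (by simp only [z]),
    fun v i => (hθX ⟨Sum.inr v, i⟩).trans (by simp only [z])⟩
  have : IsLocalHom (θ : MvPowerSeries (BigIdx σ ν (g + 1)) 𝒪 →+* FramedRing R σ) :=
    ((IsLocalRing.local_hom_TFAE _).out 0 2).mpr (Ideal.map_le_iff_le_comap.mpr
      (evalAdic_mem hϖ hϖF z hz))
  let j : MvPowerSeries (AllIdx σ (g + 1)) 𝒪 →ₐ[𝒪] MvPowerSeries (BigIdx σ ν (g + 1)) 𝒪 :=
    evalAdic (maximalIdeal _) (fun x => MvPowerSeries.X ⟨Sum.inl x.1, x.2⟩) fun x => by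
      rw [mem_maximalIdeal_iff_constantCoeff]; simp
  have := isAdicComplete_mvPowerSeries_of_complete (σ := FrameIdx σ) (A := R ⧸ Q)
  let πA : FramedRing R σ →ₐ[𝒪] FramedRing (R ⧸ Q) σ :=
    { π with commutes' := fun o => map_algebraMap_series f o }
  have hjm : ∀ b ∈ maximalIdeal (MvPowerSeries (AllIdx σ (g + 1)) 𝒪),
      j b ∈ maximalIdeal (MvPowerSeries (BigIdx σ ν (g + 1)) 𝒪) :=
    evalAdic_mem hϖ (by rw [mem_maximalIdeal_iff_constantCoeff, MvPowerSeries.algebraMap_apply,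
      MvPowerSeries.constantCoeff_C]; exact hϖ ▸ Ideal.subset_span rfl) _ _
  have hθm : ∀ b ∈ maximalIdeal (MvPowerSeries (BigIdx σ ν (g + 1)) 𝒪),
      θ b ∈ maximalIdeal (FramedRing R σ) := evalAdic_mem hϖ hϖF z hz
  have hπm : ∀ y ∈ maximalIdeal (FramedRing R σ), π y ∈ maximalIdeal (FramedRing (R ⧸ Q) σ) :=
    fun y hy => map_nonunit π _ hy
  have hcomp : (πA.comp θ).comp j = θ' := algHom_eq_of_X _ _
    (fun b hb => hπm _ (hθm _ (hjm b hb))) hθ'loc fun x => by
      show π (θ (j (MvPowerSeries.X x))) = _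
      rw [show j (MvPowerSeries.X x) = MvPowerSeries.X ⟨Sum.inl x.1, x.2⟩ from evalAdic_X _ _ _ x,
        hθX]
      exact hπz x
  have hX : ∀ x : ν × Fin 3, θ (MvPowerSeries.X ⟨Sum.inr x.1, x.2⟩) =
      MvPowerSeries.C (zν x.1 x.2) := fun x => (hθX _).trans (by simp only [z])
  refine surjective_of_mod_sq (θ : MvPowerSeries (BigIdx σ ν (g + 1)) 𝒪 →+* FramedRing R σ)
    (exists_sub_mem_sq _ (fun x : ν × Fin 3 => MvPowerSeries.X ⟨Sum.inr x.1, x.2⟩)
      (fun x => hθm _ (by rw [mem_maximalIdeal_iff_constantCoeff]; simp)) fun y => ?_)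
  obtain ⟨b, hb⟩ := hθ's (π y)
  refine ⟨j b, ?_⟩
  have h0 : π (y - θ (j b)) = 0 := by
    rw [map_sub, show π (θ (j b)) = θ' b from AlgHom.congr_fun hcomp b, hb, sub_self]
  have hk : ∀ e, MvPowerSeries.coeff e (y - θ (j b)) ∈ Q := fun e =>
    Ideal.Quotient.eq_zero_iff_mem.mp (congrArg (MvPowerSeries.coeff e) h0 :)
  simp only [RingHom.coe_coe, hX]
  exact mem_span_C_of_coeff_mem _ hk

end FermatAgent.RT.Raise
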