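import Mathlib
import Fermat.Agent.RT.Levels

/-!
# Adjoining the frame variables to the actions of a level

An action over `𝒪⟦y₁,…,y_r⟧ / m^n` of a ring gives one of its power series ring in the frame
variables over `𝒪⟦y₁,…,y_t⟧ / m^n`, compatibly with intertwiners, congruences and augmentations.
-/

set_option autoImplicit false

noncomputable section

open IsLocalRing FermatAgent.GaloisBasic

namespace FermatAgent.RT.Raise

section Extend

variable {𝒪 R B κ : Type} [CommRing 𝒪] [CommRing R] [Algebra 𝒪 R] [CommRing B] [Algebra 𝒪 B]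
  [Finite κ]

/-- Intertwiners extend. -/
lemma extendMat_comm {s s' : ℕ} (ψ : R →ₐ[𝒪] Matrix (Fin s) (Fin s) B)
    (ψ' : R →ₐ[𝒪] Matrix (Fin s') (Fin s') B) (x : κ → B) (I : Ideal B) (hx : ∀ i, x i ∈ I)
    {n : ℕ} (hI : I ^ n = ⊥) {U : Matrix (Fin s') (Fin s) B} (h : ∀ a, U * ψ a = ψ' a * U)
    (f : MvPowerSeries κ R) :
    U * extendMat ψ x I hx hI f = extendMat ψ' x I hx hI f * U := by
  rw [extendMat_truncTotal, extendMat_truncTotal ψ']
  induction f.truncTotal n using MvPolynomial.induction_on with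
  | C a => simp only [MvPolynomial.coe_C, extendMat_C, h]
  | add p q hp hq =>
    simp only [MvPolynomial.coe_add, map_add, Matrix.mul_add, Matrix.add_mul, hp, hq]
  | mul_X p i hp =>
    simp only [MvPolynomial.coe_mul, MvPolynomial.coe_X, map_mul, extendMat_X]
    rw [← Matrix.mul_assoc, hp, Matrix.mul_assoc, Matrix.mul_assoc, Algebra.algebraMap_eq_smul_one,
      Algebra.algebraMap_eq_smul_one, Matrix.mul_smul, Matrix.smul_mul, Matrix.mul_one,
      Matrix.one_mul]

end Extend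

variable {𝒪 : Type} [CommRing 𝒪] [IsDomain 𝒪] [IsDiscreteValuationRing 𝒪]
  [IsAdicComplete (maximalIdeal 𝒪) 𝒪]

/-- The coefficient ring of a level. -/
abbrev LevelBase (𝒪 : Type) [CommRing 𝒪] [IsLocalRing 𝒪] (r n : ℕ) : Type :=
  PatchBase 𝒪 r ⧸ maximalIdeal (PatchBase 𝒪 r) ^ n

variable {r t : ℕ} {κ : Type} [Finite κ] (e : Fin r ⊕ κ ≃ Fin t)

/-- The inclusion of the first variables. -/
def incBase : PatchBase 𝒪 r →ₐ[𝒪] PatchBase 𝒪 t :=
  evalAdic (maximalIdeal (PatchBase 𝒪 t)) (fun j => MvPowerSeries.X (e (Sum.inl j))) fun j => by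
    rw [mem_maximalIdeal_iff_constantCoeff]; simp

omit [Finite κ] in
lemma incBase_mem {f : PatchBase 𝒪 r} (hf : f ∈ maximalIdeal (PatchBase 𝒪 r)) :
    incBase e f ∈ maximalIdeal (PatchBase 𝒪 t) := by
  rw [mem_maximalIdeal_iff_constantCoeff] at hf
  refine (Submodule.sub_mem_iff_left _ ?_).mp (evalAdic_sub_constantCoeff_mem (R := 𝒪) _ _ _ f)
  rw [mem_maximalIdeal_iff_constantCoeff, MvPowerSeries.algebraMap_apply,
    MvPowerSeries.constantCoeff_C]
  exact hf

omit [Finite κ] in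
lemma incBase_map :
    (maximalIdeal (PatchBase 𝒪 r)).map (incBase (𝒪 := 𝒪) e) ≤ maximalIdeal (PatchBase 𝒪 t) :=
  Ideal.map_le_iff_le_comap.mpr fun _ hf => Ideal.mem_comap.mpr (incBase_mem e hf)

/-- The inclusion at a level. -/
def incLevel (n : ℕ) : LevelBase 𝒪 r n →ₐ[𝒪] LevelBase 𝒪 t n :=
  Ideal.quotientMapₐ _ (incBase e) (Ideal.map_le_iff_le_comap.mp (by
    rw [Ideal.map_pow]
    exact Ideal.pow_right_mono (incBase_map e) n))

omit [Finite κ] in
/-- The inclusion of levels sends a variable to its image variable. -/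
lemma incLevel_X (n : ℕ) (j : Fin r) :
    incLevel e n (Ideal.Quotient.mk _ (MvPowerSeries.X j)) =
      Ideal.Quotient.mk (maximalIdeal (PatchBase 𝒪 t) ^ n) (MvPowerSeries.X (e (Sum.inl j))) := by
  simp [incLevel, incBase]

/-- The values of the frame variables. -/
def frameVals (n : ℕ) (x : κ) : LevelBase 𝒪 t n :=
  Ideal.Quotient.mk _ (MvPowerSeries.X (e (Sum.inr x)))

/-- The maximal ideal of a level. -/
abbrev levelIdeal (𝒪 : Type) [CommRing 𝒪] [IsLocalRing 𝒪] (t n : ℕ) : Ideal (LevelBase 𝒪 t n) :=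
  (maximalIdeal (PatchBase 𝒪 t)).map (Ideal.Quotient.mk _)

omit [Finite κ] [IsDomain 𝒪] [IsAdicComplete (maximalIdeal 𝒪) 𝒪] [IsDiscreteValuationRing 𝒪] in
lemma levelIdeal_pow [IsLocalRing 𝒪] (n : ℕ) : levelIdeal 𝒪 t n ^ n = ⊥ := by
  rw [← Ideal.map_pow, Ideal.map_quotient_self]

omit [Finite κ] [IsAdicComplete (maximalIdeal 𝒪) 𝒪] in
lemma frameVals_mem (n : ℕ) (x : κ) : frameVals (𝒪 := 𝒪) e n x ∈ levelIdeal 𝒪 t n :=
  Ideal.mem_map_of_mem _ (by rw [mem_maximalIdeal_iff_constantCoeff]; simp)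

variable {R : Type} [CommRing R] [Algebra 𝒪 R] {s s' : ℕ} {n : ℕ}

/-- The action of the power series ring in the frame variables. -/
def liftAct (ψ : R →ₐ[𝒪] Matrix (Fin s) (Fin s) (LevelBase 𝒪 r n)) :
    MvPowerSeries κ R →ₐ[𝒪] Matrix (Fin s) (Fin s) (LevelBase 𝒪 t n) :=
  extendMat ((incLevel e n).mapMatrix.comp ψ) (frameVals e n) (levelIdeal 𝒪 t n)
    (frameVals_mem e n) (levelIdeal_pow n)

variable (ψ : R →ₐ[𝒪] Matrix (Fin s) (Fin s) (LevelBase 𝒪 r n))

/-- On constants the lifted action is the given one. -/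
lemma liftAct_C (a : R) :
    liftAct e ψ (MvPowerSeries.C a) = (ψ a).map (incLevel e n) := by
  rw [liftAct, extendMat_C]; rfl

/-- A frame variable acts by its scalar variable. -/
lemma liftAct_X (x : κ) :
    liftAct e ψ (MvPowerSeries.X x) = algebraMap _ _
      (Ideal.Quotient.mk (maximalIdeal (PatchBase 𝒪 t) ^ n) (MvPowerSeries.X (e (Sum.inr x)))) := by
  rw [liftAct, extendMat_X]; rfl

/-- A constant acting by zero lifts to one acting by zero. -/
lemma liftAct_C_eq_zero {a : R} (h : ψ a = 0) : liftAct e ψ (MvPowerSeries.C a) = 0 := by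
  rw [liftAct_C, h, Matrix.map_zero _ (map_zero (incLevel e n))]

/-- Intertwiners lift to the frame variables. -/
lemma liftAct_comm (ψ' : R →ₐ[𝒪] Matrix (Fin s') (Fin s') (LevelBase 𝒪 r n))
    {U : Matrix (Fin s') (Fin s) (LevelBase 𝒪 r n)} (h : ∀ a, U * ψ a = ψ' a * U)
    (f : MvPowerSeries κ R) :
    U.map (incLevel e n) * liftAct e ψ f = liftAct e ψ' f * U.map (incLevel e n) :=
  extendMat_comm _ _ _ _ (frameVals_mem e n) (levelIdeal_pow n) (fun a => by
    simp only [AlgHom.comp_apply, AlgHom.mapMatrix_apply]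
    rw [← Matrix.map_mul, ← Matrix.map_mul, h]) f

/-- Congruences lift to the frame variables. -/
lemma liftAct_congr {ϖ : 𝒪} (ψ' : R →ₐ[𝒪] Matrix (Fin s) (Fin s) (LevelBase 𝒪 r n))
    (h : ∀ a i j, ψ a i j - ψ' a i j ∈ Ideal.span {algebraMap 𝒪 (LevelBase 𝒪 r n) ϖ})
    (f : MvPowerSeries κ R) (i j : Fin s) :
    liftAct e ψ f i j - liftAct e ψ' f i j ∈
      Ideal.span {algebraMap 𝒪 (LevelBase 𝒪 t n) ϖ} := by
  let mq := Ideal.Quotient.mk (Ideal.span {algebraMap 𝒪 (LevelBase 𝒪 t n) ϖ})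
  have := map_extendMat_eq ((incLevel e n).mapMatrix.comp ψ) (frameVals e n) (levelIdeal 𝒪 t n)
    (frameVals_mem e n) (levelIdeal_pow n)
    (S := Matrix (Fin s) (Fin s) (LevelBase 𝒪 t n ⧸ Ideal.span {algebraMap 𝒪 (LevelBase 𝒪 t n) ϖ}))
    mq.mapMatrix (ψ' := (incLevel e n).mapMatrix.comp ψ') (fun a => ?_) f
  · exact Ideal.Quotient.eq.mp (congrFun (congrFun this i) j)
  · ext a' b'
    simp only [RingHom.mapMatrix_apply, Matrix.map_apply, AlgHom.comp_apply,
      AlgHom.mapMatrix_apply, mq, Ideal.Quotient.mk_eq_mk_iff_sub_mem, ← map_sub]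
    obtain ⟨c, hc⟩ := Ideal.mem_span_singleton'.mp (h a a' b')
    rw [← hc, map_mul, AlgHom.commutes]
    exact Ideal.mul_mem_left _ _ (Ideal.subset_span rfl)

/-- The augmentation of the lifted action. -/
lemma liftAct_compat (ρ : R → Matrix (Fin s) (Fin s) 𝒪)
    (h : ∀ (x : R) i j (a : PatchBase 𝒪 r),
      Ideal.Quotient.mk (maximalIdeal (PatchBase 𝒪 r) ^ n) a = ψ x i j →
        MvPowerSeries.constantCoeff a - ρ x i j ∈ maximalIdeal 𝒪 ^ n)
    (f : MvPowerSeries κ R) (i j : Fin s) (a : PatchBase 𝒪 t)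
    (ha : Ideal.Quotient.mk (maximalIdeal (PatchBase 𝒪 t) ^ n) a = liftAct e ψ f i j) :
    MvPowerSeries.constantCoeff a - ρ (MvPowerSeries.constantCoeff f) i j ∈ maximalIdeal 𝒪 ^ n := by
  let p : PatchBase 𝒪 t →ₐ[𝒪] 𝒪 := Pt.hom (zeroPt (Fin t))
  have hpc : ∀ b, p b = MvPowerSeries.constantCoeff b := fun b => by
    have hb : b - MvPowerSeries.C (MvPowerSeries.constantCoeff b) ∈
        Ideal.span (Set.range (MvPowerSeries.X : Fin t → PatchBase 𝒪 t)) := by
      rw [mem_span_range_X_iff]; simp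
    have hk : Ideal.span (Set.range (MvPowerSeries.X : Fin t → PatchBase 𝒪 t)) ≤ RingHom.ker p := by
      rw [Ideal.span_le]; rintro _ ⟨k, rfl⟩; simp [p, Pt.hom, zeroPt]
    have h0 := RingHom.mem_ker.mp (hk hb)
    rw [map_sub, show p (MvPowerSeries.C (MvPowerSeries.constantCoeff b)) =
      MvPowerSeries.constantCoeff b by simp [p, Pt.hom], sub_eq_zero] at h0
    exact h0
  let mO := Ideal.Quotient.mk (maximalIdeal 𝒪 ^ n)
  have hpm : maximalIdeal (PatchBase 𝒪 t) ^ n ≤ RingHom.ker (mO.comp p.toRingHom) := by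
    intro b hb
    rw [RingHom.mem_ker, RingHom.comp_apply, Ideal.Quotient.eq_zero_iff_mem,
      AlgHom.toRingHom_eq_coe, RingHom.coe_coe]
    have h1 := pow_le_coeffFiltration n hb 0
    simp only [map_zero, Nat.sub_zero, MvPowerSeries.coeff_zero_eq_constantCoeff_apply] at h1
    rwa [hpc]
  let χ : LevelBase 𝒪 t n →+* 𝒪 ⧸ maximalIdeal 𝒪 ^ n := Ideal.Quotient.lift _ _ hpm
  have hχ : ∀ x', χ (frameVals e n x') = 0 := fun x' => by
    show mO (p (MvPowerSeries.X _)) = 0
    rw [hpc, MvPowerSeries.constantCoeff_X, map_zero]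
  have h2 := congrFun (congrFun (map_extendMat_of_vars ((incLevel e n).mapMatrix.comp ψ)
    (frameVals e n) (levelIdeal 𝒪 t n) (frameVals_mem e n) (levelIdeal_pow n) χ hχ f) i) j
  simp only [Matrix.map_apply, AlgHom.comp_apply, AlgHom.mapMatrix_apply] at h2
  change χ ((liftAct e ψ f) i j) = _ at h2
  rw [← ha] at h2
  obtain ⟨b, hb⟩ := Ideal.Quotient.mk_surjective (ψ (MvPowerSeries.constantCoeff f) i j)
  rw [← hb] at h2
  have hincb : p (incBase e b) = MvPowerSeries.constantCoeff b := by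
    rw [hpc]
    have h4 : incBase e b - algebraMap 𝒪 _ (MvPowerSeries.constantCoeff b) ∈
        Ideal.span (Set.range (MvPowerSeries.X : Fin t → PatchBase 𝒪 t)) := by
      have hb' : b - MvPowerSeries.C (MvPowerSeries.constantCoeff b) ∈
          Ideal.span (Set.range (MvPowerSeries.X : Fin r → PatchBase 𝒪 r)) := by
        rw [mem_span_range_X_iff]; simp
      have := Ideal.mem_map_of_mem (incBase e) hb'
      rw [Ideal.map_span, map_sub] at this
      refine Ideal.span_mono ?_ (by simpa [incBase, MvPowerSeries.algebraMap_apply] using this)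
      rintro _ ⟨_, ⟨k, rfl⟩, rfl⟩
      exact ⟨e (Sum.inl k), by simp⟩
    rw [mem_span_range_X_iff, map_sub, MvPowerSeries.algebraMap_apply,
      MvPowerSeries.constantCoeff_C, sub_eq_zero] at h4
    exact h4
  have h5 : mO (MvPowerSeries.constantCoeff a) = mO (MvPowerSeries.constantCoeff b) := by
    have e1 : χ (Ideal.Quotient.mk _ a) = mO (MvPowerSeries.constantCoeff a) := by
      show mO (p a) = _
      rw [hpc]
    rw [← e1, h2]
    show mO (p (incBase e b)) = _
    rw [hincb]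
  simpa using add_mem (Ideal.Quotient.eq.mp h5) (h _ i j b hb)

end FermatAgent.RT.Raise
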