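import Mathlib
import Fermat.Agent.RT.Patching

/-!
# Limits of rectangular matrices along patching levels

Morphisms between the modules of two families of levels pass to the patched modules, and every
identity between products and sums of such morphisms holds in the limit.
-/

set_option autoImplicit false

noncomputable section

open Filter IsLocalRing

namespace FermatAgent.RT.Raise

variable {𝒪 : Type} [CommRing 𝒪] {P : Type} [CommRing P] [Algebra 𝒪 P]
variable {t : ℕ} [IsDomain 𝒪] [IsDiscreteValuationRing 𝒪] [IsAdicComplete (maximalIdeal 𝒪) 𝒪]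
  [Finite (ResidueField 𝒪)] [IsLocalRing P] {s : ℕ}

/-- The patched action is the limit of the levels. -/
lemma rhoInf_eq_mlim (L : PatchLevels 𝒪 t s P) (x : P) :
    L.rhoInf x = mlim (fun n => L.ρ n x) :=
  rfl

/-- A commutation at every level passes to the limit. -/
lemma mlim_comm {s' : ℕ} (L : PatchLevels 𝒪 t s P) (L' : PatchLevels 𝒪 t s' P)
    {u : MSeq (PatchBase 𝒪 t) s' s} {x : P} (h : ∀ n, u n * L.ρ n x = L'.ρ n x * u n) :
    mlim u * L.rhoInf x = L'.rhoInf x * mlim u := by
  rw [rhoInf_eq_mlim, rhoInf_eq_mlim, ← mlim_mul, ← mlim_mul]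
  exact congrArg mlim (funext h)

end FermatAgent.RT.Raise
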