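import Mathlib
import Fermat.Agent.RT.Raise.Morph

/-!
# Split degeneracy maps and the support of the cokernel

Two families of levels joined by a split injection `J` and a split surjection `Π` whose composite
acts as an element `τ`: the cokernel of `J` is supported at every prime of the support below
which contains `τ`.
-/

set_option autoImplicit false

noncomputable section

open Filter IsLocalRing

namespace FermatAgent.RT.Raise

variable {𝒪 : Type} [CommRing 𝒪] [IsDomain 𝒪] [IsDiscreteValuationRing 𝒪]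
  [IsAdicComplete (maximalIdeal 𝒪) 𝒪] [Finite (ResidueField 𝒪)]
variable {t : ℕ} {P : Type} [CommRing P] [Algebra 𝒪 P] [IsLocalRing P] [IsNoetherianRing P]
  [IsAdicComplete (maximalIdeal P) P] [Finite (ResidueField P)]
variable {s : ℕ}

/-- An element acting as a multiple of another lies in every prime of the support containing
the latter. -/
theorem mem_of_rhoInf_eq_mul (L : PatchLevels 𝒪 t s P) {x : Ideal P} [x.IsPrime]
    (hx : L.kerInf ≤ x) {τ e : P} (hτ : τ ∈ x) {Y : Matrix (Fin s) (Fin s) (PatchBase 𝒪 t)}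
    (he : L.rhoInf e = L.rhoInf τ * Y) : e ∈ x := by
  classical
  let φ : P →+* Module.End (PatchBase 𝒪 t) (Fin s → PatchBase 𝒪 t) :=
    (Matrix.toLinAlgEquiv' (R := PatchBase 𝒪 t) (n := Fin s)).toRingEquiv.toRingHom.comp
      L.rhoInf.toRingHom
  let : Module P (Fin s → PatchBase 𝒪 t) := Module.compHom _ φ
  have hsmul : ∀ (y : P) (v : Fin s → PatchBase 𝒪 t), y • v = (L.rhoInf y).mulVec v :=
    fun y v => rfl
  have : Module.Finite P (Fin s → PatchBase 𝒪 t) := by
    refine ⟨⟨Finset.univ.image fun i => Pi.single i (1 : PatchBase 𝒪 t), ?_⟩⟩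
    rw [eq_top_iff]
    intro v _
    have hv : v = ∑ i, L.ev (v i) • (Pi.single i (1 : PatchBase 𝒪 t) : Fin s → PatchBase 𝒪 t) := by
      funext j
      rw [Finset.sum_apply, Finset.sum_eq_single j]
      · rw [hsmul, L.rhoInf_ev, Matrix.algebraMap_eq_diagonal, Matrix.mulVec_diagonal]
        simp
      · intro i _ hij
        rw [hsmul, L.rhoInf_ev, Matrix.algebraMap_eq_diagonal, Matrix.mulVec_diagonal]
        simp [Ne.symm hij]
      · exact fun h => absurd (Finset.mem_univ j) h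
    rw [hv]
    exact Submodule.sum_mem _ fun i _ => Submodule.smul_mem _ _ (Submodule.subset_span (by simp))
  let f : Module.End P (Fin s → PatchBase 𝒪 t) := algebraMap P _ e
  have hr : LinearMap.range f ≤ Ideal.span {τ} • ⊤ := by
    rintro _ ⟨v, rfl⟩
    have : f v = τ • Y.mulVec v := by
      rw [Module.algebraMap_end_apply, hsmul, hsmul, he, Matrix.mulVec_mulVec]
    rw [this]
    exact Submodule.smul_mem_smul (Ideal.mem_span_singleton_self τ) trivial
  obtain ⟨q, hmon, -, hq, hev⟩ :=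
    LinearMap.exists_monic_and_natDegree_eq_and_coeff_mem_pow_and_aeval_eq_zero P f _ hr
  rw [Polynomial.aeval_algebraMap_apply, Polynomial.coe_aeval_eq_eval] at hev
  have hker : q.eval e ∈ L.kerInf := by
    rw [PatchLevels.kerInf, RingHom.mem_ker]
    refine Matrix.ext_of_mulVec_single fun i => ?_
    rw [← hsmul, Matrix.zero_mulVec]
    have h := LinearMap.congr_fun hev (Pi.single i (1 : PatchBase 𝒪 t))
    rwa [Module.algebraMap_end_apply, LinearMap.zero_apply] at h
  have hle : Ideal.span {τ} ≤ x := (Ideal.span_singleton_le_iff_mem _).mpr hτ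
  have hsum := hx hker
  rw [Polynomial.eval_eq_sum_range, Finset.sum_range_succ, hmon.coeff_natDegree, one_mul] at hsum
  have hlow : ∑ i ∈ Finset.range q.natDegree, q.coeff i * e ^ i ∈ x :=
    Ideal.sum_mem _ fun i hi => Ideal.mul_mem_right _ _ (hle (Ideal.pow_le_self
      (by have := Finset.mem_range.mp hi; omega) (hq i)))
  exact ‹x.IsPrime›.mem_of_pow_mem _ ((Submodule.add_mem_iff_right _ hlow).mp hsum)

/-- Morphisms at every level between three families: a split injection `J` of the first into the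
second with cokernel the third, and a split surjection of the second onto the first. -/
structure LevelSplit {s₁ s₂ sK : ℕ} (L₁ : PatchLevels 𝒪 t s₁ P) (L₂ : PatchLevels 𝒪 t s₂ P)
    (LK : PatchLevels 𝒪 t sK P) (τ : P) where
  /-- the split injection -/
  J : MSeq (PatchBase 𝒪 t) s₂ s₁
  /-- a retraction of `J` -/
  Λ : MSeq (PatchBase 𝒪 t) s₁ s₂
  /-- the split surjection -/
  Tr : MSeq (PatchBase 𝒪 t) s₁ s₂
  /-- a section of `Tr` -/
  Sg : MSeq (PatchBase 𝒪 t) s₂ s₁
  /-- the projection onto the cokernel -/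
  Pr : MSeq (PatchBase 𝒪 t) sK s₂
  /-- a section of `Pr` -/
  Sec : MSeq (PatchBase 𝒪 t) s₂ sK
  Tr_comm : ∀ n x, Tr n * L₂.ρ n x = L₁.ρ n x * Tr n
  Pr_comm : ∀ n x, Pr n * L₂.ρ n x = LK.ρ n x * Pr n
  Tr_Sg : ∀ n, Tr n * Sg n = 1
  Pr_Sec : ∀ n, Pr n * Sec n = 1
  split : ∀ n, J n * Λ n + Sec n * Pr n = 1
  Tr_J : ∀ n, Tr n * J n = L₁.ρ n τ

variable {s₁ s₂ sK : ℕ} {L₁ : PatchLevels 𝒪 t s₁ P} {L₂ : PatchLevels 𝒪 t s₂ P}
  {LK : PatchLevels 𝒪 t sK P} {τ : P}

omit [IsNoetherianRing P] [IsAdicComplete (maximalIdeal P) P] [Finite (ResidueField P)] in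
/-- The kernel above is in the kernel of the cokernel. -/
theorem LevelSplit.kerInf_le (D : LevelSplit L₁ L₂ LK τ) : L₂.kerInf ≤ LK.kerInf := fun e he => by
  rw [PatchLevels.kerInf, RingHom.mem_ker] at he ⊢
  have h1 := mlim_comm L₂ LK (u := D.Pr) (x := e) (fun n => D.Pr_comm n e)
  rw [he, Matrix.mul_zero] at h1
  have h2 := mlim_mul D.Pr D.Sec
  rw [funext D.Pr_Sec, mlim_one] at h2
  have h3 := congrArg (· * mlim D.Sec) h1.symm
  simpa [Matrix.mul_assoc, ← h2] using h3

/-- **The cokernel is supported at every prime of the support below containing `τ`.** -/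
theorem LevelSplit.kerInf_le_prime (D : LevelSplit L₁ L₂ LK τ) {x : Ideal P} [x.IsPrime]
    (hx : L₁.kerInf ≤ x) (hτ : τ ∈ x) : LK.kerInf ≤ x := fun e he => by
  refine mem_of_rhoInf_eq_mul L₁ hx hτ (Y := mlim D.Λ * L₂.rhoInf e * mlim D.Sg) ?_
  have hK : LK.rhoInf e = 0 := he
  have hPr := mlim_comm L₂ LK (u := D.Pr) (x := e) (fun n => D.Pr_comm n e)
  rw [hK, Matrix.zero_mul] at hPr
  have hTr := mlim_comm L₂ L₁ (u := D.Tr) (x := e) (fun n => D.Tr_comm n e)
  have hsplit : mlim D.J * mlim D.Λ + mlim D.Sec * mlim D.Pr = 1 := by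
    rw [← mlim_mul, ← mlim_mul, ← mlim_add, funext D.split, mlim_one]
  have hTS : mlim D.Tr * mlim D.Sg = 1 := by
    rw [← mlim_mul, funext D.Tr_Sg, mlim_one]
  have hTJ : mlim D.Tr * mlim D.J = L₁.rhoInf τ := by
    rw [← mlim_mul, funext D.Tr_J, rhoInf_eq_mlim]
  have h2 : L₂.rhoInf e = mlim D.J * (mlim D.Λ * L₂.rhoInf e) := by
    conv_lhs => rw [← Matrix.one_mul (L₂.rhoInf e), ← hsplit, Matrix.add_mul, Matrix.mul_assoc
      (mlim D.Sec), hPr, Matrix.mul_zero, add_zero, Matrix.mul_assoc]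
  calc L₁.rhoInf e = L₁.rhoInf e * (mlim D.Tr * mlim D.Sg) := by rw [hTS, Matrix.mul_one]
    _ = mlim D.Tr * L₂.rhoInf e * mlim D.Sg := by rw [← Matrix.mul_assoc, hTr]
    _ = mlim D.Tr * (mlim D.J * (mlim D.Λ * L₂.rhoInf e)) * mlim D.Sg := by rw [← h2]
    _ = _ := by rw [← hTJ]; simp only [Matrix.mul_assoc]

end FermatAgent.RT.Raise
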