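import Mathlib
import Fermat.Agent.RT.Raise.LevelLift
import Fermat.Agent.RT.Raise.Pair

/-!
# Patched modules from actions at every level

Surjections from one power series ring onto framed rings of the levels, and actions of the level
rings, give patched levels; morphisms at every level give the split degeneracy data.
-/

set_option autoImplicit false

noncomputable section

open IsLocalRing FermatAgent.GaloisBasic

namespace FermatAgent.RT.Raise

variable {𝒪 : Type} [CommRing 𝒪] [IsDomain 𝒪] [IsDiscreteValuationRing 𝒪]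
  [IsAdicComplete (maximalIdeal 𝒪) 𝒪] [Finite (ResidueField 𝒪)]
variable {P : Type} [CommRing P] [Algebra 𝒪 P] [IsLocalRing P] [IsNoetherianRing P]
  [IsAdicComplete (maximalIdeal P) P] [Finite (ResidueField P)]
variable {κ : Type} [Finite κ] {r t : ℕ} (e : Fin r ⊕ κ ≃ Fin t)
variable {Rn : ℕ → Type} [∀ n, CommRing (Rn n)] [∀ n, Algebra 𝒪 (Rn n)]

/-- The maps of a patching argument: surjections onto the framed rings and preimages of the
parameters and frame variables. -/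
structure ThetaData (𝒪 P : Type) [CommRing 𝒪] [CommRing P] [Algebra 𝒪 P] [IsLocalRing P]
    {κ : Type} {r t : ℕ} (e : Fin r ⊕ κ ≃ Fin t) (Rn : ℕ → Type) [∀ n, CommRing (Rn n)]
    [∀ n, Algebra 𝒪 (Rn n)] where
  /-- the parameters at each level -/
  u : ∀ n, Fin r → Rn n
  /-- the surjections onto the framed rings -/
  θ : ∀ n, P →ₐ[𝒪] MvPowerSeries κ (Rn n)
  surjective : ∀ n, Function.Surjective (θ n)
  /-- preimages of the parameters and frame variables -/
  f : ℕ → Fin t → P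
  f_mem : ∀ n j, f n j ∈ maximalIdeal P
  θ_f : ∀ n j, θ n (f n j) =
    Sum.elim (fun i => MvPowerSeries.C (u n i)) MvPowerSeries.X (e.symm j)

variable {e} (T : ThetaData 𝒪 P e Rn) {s : ℕ}

/-- An action of the level rings in which the parameters act as the variables. -/
def ActsByVars (ψ : ∀ n, Rn n →ₐ[𝒪] Matrix (Fin s) (Fin s) (LevelBase 𝒪 r n)) : Prop :=
  ∀ n j, ψ n (T.u n j) =
    algebraMap _ _ (Ideal.Quotient.mk (maximalIdeal (PatchBase 𝒪 r) ^ n) (MvPowerSeries.X j))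

variable {T}

/-- The patched levels. -/
def patched {ψ : ∀ n, Rn n →ₐ[𝒪] Matrix (Fin s) (Fin s) (LevelBase 𝒪 r n)}
    (hψ : ActsByVars T ψ) : PatchLevels 𝒪 t s P where
  ρ n := (liftAct e (ψ n)).comp (T.θ n)
  f := T.f
  f_mem := T.f_mem
  ρ_f n j := by
    rw [AlgHom.comp_apply, T.θ_f]
    obtain ⟨i, rfl⟩ := e.surjective j
    rw [Equiv.symm_apply_apply]
    rcases i with i | x
    · rw [Sum.elim_inl, liftAct_C, hψ, Matrix.algebraMap_eq_diagonal,
        Matrix.algebraMap_eq_diagonal, Matrix.diagonal_map (map_zero (incLevel e n))]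
      congr 1
      funext k
      simp [incLevel_X]
    · rw [Sum.elim_inr, liftAct_X]

variable {ψ : ∀ n, Rn n →ₐ[𝒪] Matrix (Fin s) (Fin s) (LevelBase 𝒪 r n)} {hψ : ActsByVars T ψ}

omit [IsNoetherianRing P] [IsAdicComplete (maximalIdeal P) P] [Finite (ResidueField P)]
    [Finite (ResidueField 𝒪)] in
lemma patched_apply (n : ℕ) (x : P) : (patched hψ).ρ n x = liftAct e (ψ n) (T.θ n x) := rfl

omit [IsNoetherianRing P] [IsAdicComplete (maximalIdeal P) P] [Finite (ResidueField P)] in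
/-- An element which is killed at every level after constants. -/
lemma mem_kerInf_of_C {x : P}
    (h : ∀ n, ∃ a, T.θ n x = MvPowerSeries.C a ∧ ψ n a = 0) : x ∈ (patched hψ).kerInf :=
  PatchLevels.mem_kerInf_of_forall _ fun n => by
    obtain ⟨a, ha, h0⟩ := h n
    rw [patched_apply, ha, liftAct_C_eq_zero e _ h0]

omit [IsNoetherianRing P] [IsAdicComplete (maximalIdeal P) P] [Finite (ResidueField P)]
    [Finite (ResidueField 𝒪)] in
/-- An element sent to a constant acting by zero acts by zero on the patched level. -/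
lemma patched_eq_zero_of_C {x : P} {n : ℕ} {a : Rn n} (ha : T.θ n x = MvPowerSeries.C a)
    (h0 : ψ n a = 0) : (patched hψ).ρ n x = 0 := by
  rw [patched_apply, ha, liftAct_C_eq_zero e _ h0]

omit [IsNoetherianRing P] [IsAdicComplete (maximalIdeal P) P] [Finite (ResidueField P)]
    [Finite (ResidueField 𝒪)] in
/-- Congruent actions patch to congruent levels. -/
lemma congrMod_patched {ϖ : 𝒪} {ψ' : ∀ n, Rn n →ₐ[𝒪] Matrix (Fin s) (Fin s) (LevelBase 𝒪 r n)}
    {hψ' : ActsByVars T ψ'}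
    (h : ∀ n a i j, ψ n a i j - ψ' n a i j ∈ Ideal.span {algebraMap 𝒪 (LevelBase 𝒪 r n) ϖ}) :
    (patched hψ).CongrMod (patched hψ') ϖ :=
  fun n x i j => liftAct_congr e (ψ n) (ψ' n) (h n) (T.θ n x) i j

variable {R₀ : Type} [CommRing R₀] [Algebra 𝒪 R₀] [IsLocalRing R₀] [IsNoetherianRing R₀]
  [IsAdicComplete (maximalIdeal R₀) R₀] [Finite (ResidueField R₀)]

/-- The map of a level to the base ring. -/
def toBase (T : ThetaData 𝒪 P e Rn) (π : ∀ n, Rn n →ₐ[𝒪] R₀) (n : ℕ) : P →ₐ[𝒪] R₀ :=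
  ((π n).comp ({ MvPowerSeries.constantCoeff (σ := κ) (R := Rn n) with
    commutes' := fun o => by simp [MvPowerSeries.algebraMap_apply] } :
      MvPowerSeries κ (Rn n) →ₐ[𝒪] Rn n)).comp (T.θ n)

omit [IsDomain 𝒪] [IsDiscreteValuationRing 𝒪] [IsAdicComplete (maximalIdeal 𝒪) 𝒪]
    [Finite (ResidueField 𝒪)] [IsNoetherianRing P] [IsAdicComplete (maximalIdeal P) P]
    [Finite (ResidueField P)] [Finite κ] [IsLocalRing R₀] [IsNoetherianRing R₀]
    [IsAdicComplete (maximalIdeal R₀) R₀] [Finite (ResidueField R₀)] in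
/-- The map to the base ring takes the constant term and projects. -/
lemma toBase_apply (π : ∀ n, Rn n →ₐ[𝒪] R₀) (n : ℕ) (x : P) :
    toBase T π n x = π n (MvPowerSeries.constantCoeff (T.θ n x)) := rfl

/-- The base of the patched levels. -/
def patchedBase (π : ∀ n, Rn n →ₐ[𝒪] R₀) (hπs : ∀ n, Function.Surjective (π n))
    (hπu : ∀ n j, π n (T.u n j) = 0) (ρ₀ : R₀ →ₐ[𝒪] Matrix (Fin s) (Fin s) 𝒪)
    (hc : ∀ n (x : Rn n) i j (a : PatchBase 𝒪 r),
      Ideal.Quotient.mk (maximalIdeal (PatchBase 𝒪 r) ^ n) a = ψ n x i j →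
        MvPowerSeries.constantCoeff a - ρ₀ (π n x) i j ∈ maximalIdeal 𝒪 ^ n) :
    PatchBaseData (patched hψ) R₀ where
  ρ₀ := ρ₀
  θ := toBase T π
  θ_surjective n y := by
    obtain ⟨a, rfl⟩ := hπs n y
    obtain ⟨x, hx⟩ := T.surjective n (MvPowerSeries.C a)
    exact ⟨x, by rw [toBase_apply, hx, MvPowerSeries.constantCoeff_C]⟩
  θ_f n j := by
    rw [toBase_apply, show (patched hψ).f n j = T.f n j from rfl, T.θ_f]
    rcases e.symm j with i | x <;> simp [hπu]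
  compat n x i j a ha :=
    liftAct_compat e (ψ n) (fun y => ρ₀ (π n y)) (hc n) (T.θ n x) i j a ha

omit [Finite (ResidueField 𝒪)] [IsLocalRing R₀] [IsNoetherianRing R₀]
    [IsAdicComplete (maximalIdeal R₀) R₀] [Finite (ResidueField R₀)] in
/-- An element which is killed at every level is killed at the base. -/
lemma rho_base_eq_zero {π : ∀ n, Rn n →ₐ[𝒪] R₀} {ρ₀ : R₀ →ₐ[𝒪] Matrix (Fin s) (Fin s) 𝒪}
    (hc : ∀ n (x : Rn n) i j (a : PatchBase 𝒪 r),
      Ideal.Quotient.mk (maximalIdeal (PatchBase 𝒪 r) ^ n) a = ψ n x i j →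
        MvPowerSeries.constantCoeff a - ρ₀ (π n x) i j ∈ maximalIdeal 𝒪 ^ n)
    {y : R₀} (h : ∀ n, ∃ x, π n x = y ∧ ψ n x = 0) : ρ₀ y = 0 := by
  refine Matrix.ext fun i j => eq_of_forall_sub_mem (maximalIdeal 𝒪) fun n => ?_
  obtain ⟨x, hx, h0⟩ := h n
  have h1 := hc n x i j 0 (by rw [map_zero, h0]; rfl)
  rw [map_zero, zero_sub, hx, neg_mem_iff] at h1
  simpa using h1

/-- The degeneracy data in the limit. -/
def patchedSplit {s₁ s₂ sK : ℕ}
    {ψ₁ : ∀ n, Rn n →ₐ[𝒪] Matrix (Fin s₁) (Fin s₁) (LevelBase 𝒪 r n)}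
    {ψ₂ : ∀ n, Rn n →ₐ[𝒪] Matrix (Fin s₂) (Fin s₂) (LevelBase 𝒪 r n)}
    {ψK : ∀ n, Rn n →ₐ[𝒪] Matrix (Fin sK) (Fin sK) (LevelBase 𝒪 r n)}
    {h₁ : ActsByVars T ψ₁} {h₂ : ActsByVars T ψ₂} {hK : ActsByVars T ψK} {τ : P}
    (J : ∀ n, Matrix (Fin s₂) (Fin s₁) (LevelBase 𝒪 r n))
    (Λ : ∀ n, Matrix (Fin s₁) (Fin s₂) (LevelBase 𝒪 r n))
    (Tr : ∀ n, Matrix (Fin s₁) (Fin s₂) (LevelBase 𝒪 r n))
    (Sg : ∀ n, Matrix (Fin s₂) (Fin s₁) (LevelBase 𝒪 r n))
    (Pr : ∀ n, Matrix (Fin sK) (Fin s₂) (LevelBase 𝒪 r n))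
    (Sec : ∀ n, Matrix (Fin s₂) (Fin sK) (LevelBase 𝒪 r n))
    (hTr : ∀ n a, Tr n * ψ₂ n a = ψ₁ n a * Tr n) (hPr : ∀ n a, Pr n * ψ₂ n a = ψK n a * Pr n)
    (hTS : ∀ n, Tr n * Sg n = 1) (hPS : ∀ n, Pr n * Sec n = 1)
    (hsplit : ∀ n, J n * Λ n + Sec n * Pr n = 1)
    (hτ : ∀ n, ∃ a, T.θ n τ = MvPowerSeries.C a ∧ Tr n * J n = ψ₁ n a) :
    LevelSplit (patched h₁) (patched h₂) (patched hK) τ where
  J n := (J n).map (incLevel e n)
  Λ n := (Λ n).map (incLevel e n)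
  Tr n := (Tr n).map (incLevel e n)
  Sg n := (Sg n).map (incLevel e n)
  Pr n := (Pr n).map (incLevel e n)
  Sec n := (Sec n).map (incLevel e n)
  Tr_comm n x := liftAct_comm e (ψ₂ n) (ψ₁ n) (hTr n) (T.θ n x)
  Pr_comm n x := liftAct_comm e (ψ₂ n) (ψK n) (hPr n) (T.θ n x)
  Tr_Sg n := by
    rw [← Matrix.map_mul, hTS, Matrix.map_one _ (map_zero (incLevel e n)) (map_one (incLevel e n))]
  Pr_Sec n := by
    rw [← Matrix.map_mul, hPS, Matrix.map_one _ (map_zero (incLevel e n)) (map_one (incLevel e n))]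
  split n := by
    rw [← Matrix.map_mul, ← Matrix.map_mul, ← Matrix.map_add _ (map_add (incLevel e n)), hsplit,
      Matrix.map_one _ (map_zero (incLevel e n)) (map_one (incLevel e n))]
  Tr_J n := by
    obtain ⟨a, ha, h⟩ := hτ n
    rw [patched_apply, ha, liftAct_C, ← h, Matrix.map_mul]

end FermatAgent.RT.Raise
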