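import Mathlib
import Fermat.Agent.RT.Raise.CoordSite
import Fermat.Agent.RT.Raise.Generation
import Fermat.Agent.RT.Raise.Patched

/-!
# Levels for raising at unframed sites

An auxiliary level of depth `n` carries one ring with a representation and one action for every
set of raised sites, joined by split degeneracy matrices.
-/

set_option autoImplicit false

noncomputable section

open IsLocalRing FermatAgent.GaloisBasic

namespace FermatAgent.RT.Raise

variable {𝒪 : Type} [CommRing 𝒪] [IsDomain 𝒪] [IsDiscreteValuationRing 𝒪]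
variable {G : Type} [Monoid G] {σ : Type} [Fintype σ]
variable {ν : Type} [DecidableEq ν]

/-- An auxiliary level for raising. -/
structure RaiseLevel (ϖ half ζ ζ' : 𝒪) (d : σ → FrameSite 𝒪 G) (q : σ → ℕ)
    (d' : ν → CoordSite 𝒪) (g r : ℕ) {R₀ : Type} [CommRing R₀] [IsLocalRing R₀] [Algebra 𝒪 R₀]
    (M₀ : G →* Matrix (Fin 2) (Fin 2) R₀) (z₀ : ν → Fin 3 → R₀) {rk : Finset ν → ℕ}
    (ρ₀ : ∀ A, R₀ →ₐ[𝒪] Matrix (Fin (rk A)) (Fin (rk A)) 𝒪) {rkK : Finset ν → ν → ℕ}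
    (ρK : ∀ A v, R₀ →ₐ[𝒪] Matrix (Fin (rkK A v)) (Fin (rkK A v)) 𝒪)
    (tau : Finset ν → ν → MvPowerSeries (Fin 3) 𝒪) (n : ℕ) where
  /-- the deformation ring of the level -/
  R : Type
  [instCommRing : CommRing R]
  [instIsLocalRing : IsLocalRing R]
  [instAlgebra : Algebra 𝒪 R]
  [instIsNoetherianRing : IsNoetherianRing R]
  [instIsAdicComplete : IsAdicComplete (maximalIdeal R) R]
  /-- the representation over `R` -/
  M : G →* Matrix (Fin 2) (Fin 2) R
  /-- the map to the base ring -/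
  π : R →ₐ[𝒪] R₀
  π_surjective : Function.Surjective π
  π_M : ∀ x, (M x).map π = M₀ x
  residue_surjective : Function.Surjective ((residue R).comp (algebraMap 𝒪 R))
  det_frob : ∀ v, (M (d v).frob).det = q v
  det_inert : ∀ v, (M (d v).inert).det = 1
  tame : ∀ v, M (d v).frob * M (d v).inert = M (d v).inert ^ q v * M (d v).frob
  /-- the coordinates at the raising sites -/
  z : ν → Fin 3 → R
  z_mem : ∀ v i, z v i ∈ maximalIdeal R
  π_z : ∀ v i, π (z v i) = z₀ v i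
  tangent : TangentBound M d z ϖ g
  /-- the elements acting as the diamond variables -/
  u : Fin r → R
  π_u : ∀ j, π (u j) = 0
  /-- the action for each set of raised sites -/
  ψ : ∀ A, R →ₐ[𝒪] Matrix (Fin (rk A)) (Fin (rk A)) (LevelBase 𝒪 r n)
  /-- the action with twisted types at the framed sites -/
  ψχ : R →ₐ[𝒪] Matrix (Fin (rk ∅)) (Fin (rk ∅)) (LevelBase 𝒪 r n)
  /-- the action on the cokernels -/
  ψK : ∀ A v, v ∉ A → (R →ₐ[𝒪] Matrix (Fin (rkK A v)) (Fin (rkK A v)) (LevelBase 𝒪 r n))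
  ψ_u : ∀ A j, ψ A (u j) =
    algebraMap _ _ (Ideal.Quotient.mk (maximalIdeal (PatchBase 𝒪 r) ^ n) (MvPowerSeries.X j))
  ψχ_u : ∀ j, ψχ (u j) =
    algebraMap _ _ (Ideal.Quotient.mk (maximalIdeal (PatchBase 𝒪 r) ^ n) (MvPowerSeries.X j))
  congr : ∀ x i j, ψ ∅ x i j - ψχ x i j ∈ Ideal.span {algebraMap 𝒪 (LevelBase 𝒪 r n) ϖ}
  compat : ∀ A (x : R) i j (a : PatchBase 𝒪 r),
    Ideal.Quotient.mk (maximalIdeal (PatchBase 𝒪 r) ^ n) a = ψ A x i j →
      MvPowerSeries.constantCoeff a - ρ₀ A (π x) i j ∈ maximalIdeal 𝒪 ^ n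
  compatK : ∀ A v (h : v ∉ A) (x : R) i j (a : PatchBase 𝒪 r),
    Ideal.Quotient.mk (maximalIdeal (PatchBase 𝒪 r) ^ n) a = ψK A v h x i j →
      MvPowerSeries.constantCoeff a - ρK A v (π x) i j ∈ maximalIdeal 𝒪 ^ n
  ψ_trace : ∀ A v, ψ A ((M (d v).inert).trace - 2) = 0
  ψχ_trace : ∀ v, ψχ ((M (d v).inert).trace - algebraMap 𝒪 R (ζ + ζ')) = 0
  ψ_eqs : ∀ A v, ∀ e ∈ (d' v).eqs,
    ψ A (evalAdic (R := 𝒪) (maximalIdeal R) (z v) (z_mem v) e) = 0
  ψ_unram : ∀ v, ψ ∅ (z v 1) = 0 ∧ ψ ∅ (z v 2) = 0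
  ψχ_unram : ∀ v, ψχ (z v 1) = 0 ∧ ψχ (z v 2) = 0
  /-- the degeneracy injections -/
  J : ∀ A v, Matrix (Fin (rk (insert v A))) (Fin (rk A)) (LevelBase 𝒪 r n)
  /-- their retractions -/
  Lam : ∀ A v, Matrix (Fin (rk A)) (Fin (rk (insert v A))) (LevelBase 𝒪 r n)
  /-- the traces -/
  Tr : ∀ A v, Matrix (Fin (rk A)) (Fin (rk (insert v A))) (LevelBase 𝒪 r n)
  /-- sections of the traces -/
  Sg : ∀ A v, Matrix (Fin (rk (insert v A))) (Fin (rk A)) (LevelBase 𝒪 r n)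
  /-- the projections onto the cokernels -/
  Pr : ∀ A v, Matrix (Fin (rkK A v)) (Fin (rk (insert v A))) (LevelBase 𝒪 r n)
  /-- sections of the projections -/
  Sec : ∀ A v, Matrix (Fin (rk (insert v A))) (Fin (rkK A v)) (LevelBase 𝒪 r n)
  Tr_comm : ∀ A v, v ∉ A → ∀ x, Tr A v * ψ (insert v A) x = ψ A x * Tr A v
  Pr_comm : ∀ A v (h : v ∉ A), ∀ x, Pr A v * ψ (insert v A) x = ψK A v h x * Pr A v
  Tr_Sg : ∀ A v, v ∉ A → Tr A v * Sg A v = 1
  Pr_Sec : ∀ A v, v ∉ A → Pr A v * Sec A v = 1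
  split : ∀ A v, v ∉ A → J A v * Lam A v + Sec A v * Pr A v = 1
  Tr_J : ∀ A v, v ∉ A →
    Tr A v * J A v = ψ A (evalAdic (R := 𝒪) (maximalIdeal R) (z v) (z_mem v) (tau A v))

attribute [instance] RaiseLevel.instCommRing RaiseLevel.instIsLocalRing RaiseLevel.instAlgebra
  RaiseLevel.instIsNoetherianRing RaiseLevel.instIsAdicComplete

variable {ϖ half ζ ζ' : 𝒪} {d : σ → FrameSite 𝒪 G} {q : σ → ℕ} {d' : ν → CoordSite 𝒪} {g r : ℕ}
  {R₀ : Type} [CommRing R₀] [IsLocalRing R₀] [Algebra 𝒪 R₀]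
  {M₀ : G →* Matrix (Fin 2) (Fin 2) R₀} {z₀ : ν → Fin 3 → R₀} {rk : Finset ν → ℕ}
  {ρ₀ : ∀ A, R₀ →ₐ[𝒪] Matrix (Fin (rk A)) (Fin (rk A)) 𝒪} {rkK : Finset ν → ν → ℕ}
  {ρK : ∀ A v, R₀ →ₐ[𝒪] Matrix (Fin (rkK A v)) (Fin (rkK A v)) 𝒪}
  {tau : Finset ν → ν → MvPowerSeries (Fin 3) 𝒪} {n : ℕ}

namespace RaiseLevel

variable (D : RaiseLevel ϖ half ζ ζ' d q d' g r M₀ z₀ ρ₀ ρK tau n)

/-- An element of a level ring mapping into the maximal ideal lies in the maximal ideal. -/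
lemma mem_of_π_mem {a : D.R} (ha : D.π a ∈ maximalIdeal R₀) : a ∈ maximalIdeal D.R := by
  by_contra hc
  exact (mem_maximalIdeal _).mp ha ((notMem_maximalIdeal.mp hc).map D.π)

/-- The representation of a level has the residual shape of that of the base at the framed
sites. -/
lemma residualShape (h₀ : ResidualShape M₀ d) : ResidualShape D.M d := by
  have hM : pushRep D.π D.M = M₀ := MonoidHom.ext D.π_M
  intro v i j
  constructor <;> refine D.mem_of_π_mem ?_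
  · rw [map_sub, AlgHom.commutes, show D.π (baseRep D.M d v (d v).frob i j) =
      baseRep M₀ d v (d v).frob i j from (congrFun (congrFun (map_baseRep D.M d D.π v _) i) j).trans
        (by rw [hM])]
    exact (h₀ v i j).1
  · rw [map_sub, show D.π (baseRep D.M d v (d v).inert i j) =
      baseRep M₀ d v (d v).inert i j from
        (congrFun (congrFun (map_baseRep D.M d D.π v _) i) j).trans (by rw [hM]),
      show D.π ((1 : Matrix (Fin 2) (Fin 2) D.R) i j) = (1 : Matrix (Fin 2) (Fin 2) R₀) i j by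
        rw [Matrix.one_apply, Matrix.one_apply, apply_ite D.π, map_one, map_zero]]
    exact (h₀ v i j).2

/-- The cokernel inherits what is killed above. -/
lemma ψK_eq_zero {A : Finset ν} {v : ν} (h : v ∉ A) {x : D.R} (hx : D.ψ (insert v A) x = 0) :
    D.ψK A v h x = 0 := by
  have h1 := D.Pr_comm A v h x
  rw [hx, Matrix.mul_zero] at h1
  calc D.ψK A v h x = D.ψK A v h x * (D.Pr A v * D.Sec A v) := by
        rw [D.Pr_Sec A v h, Matrix.mul_one]
    _ = 0 := by rw [← Matrix.mul_assoc, ← h1, Matrix.zero_mul]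

lemma ψK_u {A : Finset ν} {v : ν} (h : v ∉ A) (j : Fin r) : D.ψK A v h (D.u j) =
    algebraMap _ _ (Ideal.Quotient.mk (maximalIdeal (PatchBase 𝒪 r) ^ n) (MvPowerSeries.X j)) := by
  set c := Ideal.Quotient.mk (maximalIdeal (PatchBase 𝒪 r) ^ n) (MvPowerSeries.X j)
  have h1 := D.Pr_comm A v h (D.u j)
  rw [D.ψ_u] at h1
  calc D.ψK A v h (D.u j) = D.ψK A v h (D.u j) * (D.Pr A v * D.Sec A v) := by
        rw [D.Pr_Sec A v h, Matrix.mul_one]
    _ = D.Pr A v * algebraMap (LevelBase 𝒪 r n)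
          (Matrix (Fin (rk (insert v A))) (Fin (rk (insert v A))) (LevelBase 𝒪 r n)) c *
          D.Sec A v := by rw [← Matrix.mul_assoc, h1]
    _ = algebraMap _ _ c := by
        rw [Algebra.algebraMap_eq_smul_one, Matrix.mul_smul, Matrix.mul_one, Matrix.smul_mul,
          D.Pr_Sec A v h, Algebra.algebraMap_eq_smul_one]

/-- The equations hold on the cokernels. -/
lemma ψK_eqs {A : Finset ν} {v : ν} (h : v ∉ A) (w : ν) {e : MvPowerSeries (Fin 3) 𝒪}
    (he : e ∈ (d' w).eqs) :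
    D.ψK A v h (evalAdic (R := 𝒪) (maximalIdeal D.R) (D.z w) (D.z_mem w) e) = 0 :=
  D.ψK_eq_zero h (D.ψ_eqs _ w e he)

end RaiseLevel

end FermatAgent.RT.Raise
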