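import Mathlib
import Fermat.Agent.RT.Raise.Family

/-!
# Split degeneracy data at a level from the base

Degeneracy maps at a level reducing to split degeneracy maps at the base are split, with the
complementary maps reducing to those of the base.
-/

set_option autoImplicit false

noncomputable section

open IsLocalRing FermatAgent.GaloisBasic

namespace FermatAgent.RT.Raise

variable {𝒪 : Type} [CommRing 𝒪] [IsDomain 𝒪] [IsDiscreteValuationRing 𝒪]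

/-- The augmentation of the coefficient ring of a level. -/
def levelAug (r n : ℕ) : LevelBase 𝒪 r n →ₐ[𝒪] 𝒪 ⧸ maximalIdeal 𝒪 ^ n :=
  Ideal.Quotient.liftₐ (maximalIdeal (PatchBase 𝒪 r) ^ n)
    ((Ideal.Quotient.mkₐ 𝒪 (maximalIdeal 𝒪 ^ n)).comp
      ({ MvPowerSeries.constantCoeff (σ := Fin r) (R := 𝒪) with
        commutes' := fun o => by simp [MvPowerSeries.algebraMap_apply] } :
          PatchBase 𝒪 r →ₐ[𝒪] 𝒪))
    fun b hb => by
      refine Ideal.Quotient.eq_zero_iff_mem.mpr ?_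
      have h1 := pow_le_coeffFiltration n hb 0
      simp only [map_zero, Nat.sub_zero, MvPowerSeries.coeff_zero_eq_constantCoeff_apply] at h1
      exact h1

variable {r n : ℕ}

/-- The augmentation of a level is the constant term. -/
lemma levelAug_mk (a : PatchBase 𝒪 r) :
    levelAug r n (Ideal.Quotient.mk _ a) = Ideal.Quotient.mk _ (MvPowerSeries.constantCoeff a) :=
  rfl

/-- A matrix reduces to a matrix over the base. -/
lemma map_levelAug_iff {a b : Type} (X : Matrix a b (LevelBase 𝒪 r n)) (X₀ : Matrix a b 𝒪) :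
    (∀ i j (x : PatchBase 𝒪 r), Ideal.Quotient.mk (maximalIdeal (PatchBase 𝒪 r) ^ n) x = X i j →
      MvPowerSeries.constantCoeff x - X₀ i j ∈ maximalIdeal 𝒪 ^ n) ↔
    X.map (levelAug r n) = X₀.map (algebraMap 𝒪 (𝒪 ⧸ maximalIdeal 𝒪 ^ n)) := by
  refine ⟨fun h => Matrix.ext fun i j => ?_, fun h i j x hx => ?_⟩
  · obtain ⟨x, hx⟩ := Ideal.Quotient.mk_surjective (X i j)
    rw [Matrix.map_apply, Matrix.map_apply, ← hx, levelAug_mk]
    exact Ideal.Quotient.eq.mpr (h i j x hx)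
  · have := congrFun (congrFun h i) j
    rw [Matrix.map_apply, Matrix.map_apply, ← hx, levelAug_mk] at this
    exact Ideal.Quotient.eq.mp this

lemma isUnit_of_levelAug {x : LevelBase 𝒪 r n} (h : levelAug r n x = 1) : IsUnit x := by
  obtain ⟨a, rfl⟩ := Ideal.Quotient.mk_surjective x
  rw [levelAug_mk, ← map_one (Ideal.Quotient.mk (maximalIdeal 𝒪 ^ n)), Ideal.Quotient.eq] at h
  rcases Nat.eq_zero_or_pos n with rfl | hn
  · have : Subsingleton (LevelBase 𝒪 r 0) :=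
      Ideal.Quotient.subsingleton_iff.mpr (by rw [pow_zero, Ideal.one_eq_top])
    exact isUnit_of_subsingleton _
  · refine IsUnit.map _ (MvPowerSeries.isUnit_iff_constantCoeff.mpr ?_)
    by_contra hu
    exact (maximalIdeal.isMaximal 𝒪).ne_top ((Ideal.eq_top_iff_one _).mpr
      (by simpa using sub_mem ((mem_maximalIdeal _).mpr hu) (Ideal.pow_le_self hn.ne' h)))

/-- The constant matrix. -/
def constMat (r n : ℕ) {a b : Type} (X₀ : Matrix a b 𝒪) : Matrix a b (LevelBase 𝒪 r n) :=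
  X₀.map (algebraMap 𝒪 (LevelBase 𝒪 r n))

lemma constMat_map {a b : Type} (X₀ : Matrix a b 𝒪) :
    (constMat r n X₀).map (levelAug r n) =
      X₀.map (algebraMap 𝒪 (𝒪 ⧸ maximalIdeal 𝒪 ^ n)) :=
  Matrix.ext fun _ _ => (levelAug r n).commutes _

/-- Split degeneracy maps at the base. -/
structure BaseStep {R₀ : Type} [CommRing R₀] [Algebra 𝒪 R₀] {s₁ s₂ : ℕ}
    (ρ₁ : R₀ →ₐ[𝒪] Matrix (Fin s₁) (Fin s₁) 𝒪) (ρ₂ : R₀ →ₐ[𝒪] Matrix (Fin s₂) (Fin s₂) 𝒪)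
    (sK : ℕ) where
  /-- the split injection of the lower module -/
  J : Matrix (Fin s₂) (Fin s₁) 𝒪
  /-- a retraction of `J` -/
  Lam : Matrix (Fin s₁) (Fin s₂) 𝒪
  /-- the trace to the lower module -/
  Tr : Matrix (Fin s₁) (Fin s₂) 𝒪
  /-- a section of `Tr` -/
  Sg : Matrix (Fin s₂) (Fin s₁) 𝒪
  /-- the projection onto the cokernel of `J` -/
  Pr : Matrix (Fin sK) (Fin s₂) 𝒪
  /-- a section of `Pr` -/
  Sec : Matrix (Fin s₂) (Fin sK) 𝒪
  J_comm : ∀ x, J * ρ₁ x = ρ₂ x * J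
  Lam_J : Lam * J = 1
  Lam_Sec : Lam * Sec = 0
  Pr_J : Pr * J = 0
  Pr_Sec : Pr * Sec = 1
  split : J * Lam + Sec * Pr = 1
  Tr_Sg : Tr * Sg = 1

variable {R₀ : Type} [CommRing R₀] [Algebra 𝒪 R₀] {s₁ s₂ sK : ℕ}
  {ρ₁ : R₀ →ₐ[𝒪] Matrix (Fin s₁) (Fin s₁) 𝒪} {ρ₂ : R₀ →ₐ[𝒪] Matrix (Fin s₂) (Fin s₂) 𝒪}

/-- The action on the cokernel. -/
def cokerHom {R B : Type} [CommRing R] [Algebra 𝒪 R] [CommRing B] [Algebra 𝒪 B]
    (φ₁ : R →ₐ[𝒪] Matrix (Fin s₁) (Fin s₁) B) (φ₂ : R →ₐ[𝒪] Matrix (Fin s₂) (Fin s₂) B)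
    (J : Matrix (Fin s₂) (Fin s₁) B) (Lam : Matrix (Fin s₁) (Fin s₂) B)
    (Pr : Matrix (Fin sK) (Fin s₂) B) (Sec : Matrix (Fin s₂) (Fin sK) B)
    (hJ : ∀ x, J * φ₁ x = φ₂ x * J) (hPJ : Pr * J = 0) (hPS : Pr * Sec = 1)
    (hsp : J * Lam + Sec * Pr = 1) : R →ₐ[𝒪] Matrix (Fin sK) (Fin sK) B where
  toFun x := Pr * φ₂ x * Sec
  map_one' := by rw [map_one, Matrix.mul_one, hPS]
  map_zero' := by rw [map_zero, Matrix.mul_zero, Matrix.zero_mul]
  map_add' x y := by rw [map_add, Matrix.mul_add, Matrix.add_mul]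
  map_mul' x y := by
    have h0 : ∀ x, Pr * φ₂ x * J = 0 := fun x => by
      rw [Matrix.mul_assoc, ← hJ, ← Matrix.mul_assoc, hPJ, Matrix.zero_mul]
    calc Pr * φ₂ (x * y) * Sec = Pr * φ₂ x * (J * Lam + Sec * Pr) * φ₂ y * Sec := by
          rw [hsp, Matrix.mul_one, map_mul, Matrix.mul_assoc Pr (φ₂ x) (φ₂ y)]
      _ = _ := by
          rw [Matrix.mul_add, ← Matrix.mul_assoc, h0, Matrix.zero_mul, zero_add]
          simp only [Matrix.mul_assoc]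
  commutes' o := by
    rw [AlgHom.commutes, Algebra.algebraMap_eq_smul_one, Matrix.mul_smul, Matrix.mul_one,
      Matrix.smul_mul, hPS, Algebra.algebraMap_eq_smul_one]

omit [IsDomain 𝒪] [IsDiscreteValuationRing 𝒪] in
/-- The action on the split cokernel is `Pr φ₂(x) Sec`. -/
lemma cokerHom_apply {R B : Type} [CommRing R] [Algebra 𝒪 R] [CommRing B] [Algebra 𝒪 B]
    (φ₁ : R →ₐ[𝒪] Matrix (Fin s₁) (Fin s₁) B) (φ₂ : R →ₐ[𝒪] Matrix (Fin s₂) (Fin s₂) B)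
    {J : Matrix (Fin s₂) (Fin s₁) B} {Lam : Matrix (Fin s₁) (Fin s₂) B}
    {Pr : Matrix (Fin sK) (Fin s₂) B} {Sec : Matrix (Fin s₂) (Fin sK) B}
    (hJ : ∀ x, J * φ₁ x = φ₂ x * J) (hPJ : Pr * J = 0) (hPS : Pr * Sec = 1)
    (hsp : J * Lam + Sec * Pr = 1) (x : R) :
    cokerHom φ₁ φ₂ J Lam Pr Sec hJ hPJ hPS hsp x = Pr * φ₂ x * Sec := rfl

/-- The base action on the cokernel. -/
def BaseStep.ρK (S : BaseStep ρ₁ ρ₂ sK) : R₀ →ₐ[𝒪] Matrix (Fin sK) (Fin sK) 𝒪 :=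
  cokerHom ρ₁ ρ₂ S.J S.Lam S.Pr S.Sec S.J_comm S.Pr_J S.Pr_Sec S.split

/-- Splittings at a level which reduce to those of the base. -/
structure StepLift (S : BaseStep ρ₁ ρ₂ sK) (J : Matrix (Fin s₂) (Fin s₁) (LevelBase 𝒪 r n))
    (Tr : Matrix (Fin s₁) (Fin s₂) (LevelBase 𝒪 r n)) where
  /-- a retraction of `J` -/
  Lam : Matrix (Fin s₁) (Fin s₂) (LevelBase 𝒪 r n)
  /-- a section of `Tr` -/
  Sg : Matrix (Fin s₂) (Fin s₁) (LevelBase 𝒪 r n)
  /-- the lifted projection onto the cokernel -/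
  Pr : Matrix (Fin sK) (Fin s₂) (LevelBase 𝒪 r n)
  /-- the lifted section of `Pr` -/
  Sec : Matrix (Fin s₂) (Fin sK) (LevelBase 𝒪 r n)
  Tr_Sg : Tr * Sg = 1
  Pr_J : Pr * J = 0
  Pr_Sec : Pr * Sec = 1
  split : J * Lam + Sec * Pr = 1
  Pr_aug : Pr.map (levelAug r n) = S.Pr.map (algebraMap 𝒪 (𝒪 ⧸ maximalIdeal 𝒪 ^ n))
  Sec_aug : Sec.map (levelAug r n) = S.Sec.map (algebraMap 𝒪 (𝒪 ⧸ maximalIdeal 𝒪 ^ n))

/-- **Degeneracy maps reducing to split ones are split.** -/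
theorem nonempty_stepLift (S : BaseStep ρ₁ ρ₂ sK)
    {J : Matrix (Fin s₂) (Fin s₁) (LevelBase 𝒪 r n)}
    {Tr : Matrix (Fin s₁) (Fin s₂) (LevelBase 𝒪 r n)}
    (hJ : J.map (levelAug r n) = S.J.map (algebraMap 𝒪 (𝒪 ⧸ maximalIdeal 𝒪 ^ n)))
    (hT : Tr.map (levelAug r n) = S.Tr.map (algebraMap 𝒪 (𝒪 ⧸ maximalIdeal 𝒪 ^ n))) :
    Nonempty (StepLift S J Tr) := by
  classical
  set f : LevelBase 𝒪 r n →+* 𝒪 ⧸ maximalIdeal 𝒪 ^ n := (levelAug r n).toRingHom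
  set ι : 𝒪 →+* 𝒪 ⧸ maximalIdeal 𝒪 ^ n := algebraMap 𝒪 (𝒪 ⧸ maximalIdeal 𝒪 ^ n)
  let B : Matrix (Fin s₂) (Fin s₁ ⊕ Fin sK) (LevelBase 𝒪 r n) :=
    Matrix.fromCols J (constMat r n S.Sec)
  let C : Matrix (Fin s₁ ⊕ Fin sK) (Fin s₂) (LevelBase 𝒪 r n) :=
    Matrix.fromRows (constMat r n S.Lam) (constMat r n S.Pr)
  have hJ' : J.map f = S.J.map ι := hJ
  have hT' : Tr.map f = S.Tr.map ι := hT
  have hc : ∀ {a b : Type} (X₀ : Matrix a b 𝒪), (constMat r n X₀).map f = X₀.map ι :=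
    fun X₀ => constMat_map X₀
  have hBC : (B * C).map f = 1 := by
    rw [Matrix.fromCols_mul_fromRows, Matrix.map_add _ (map_add f), Matrix.map_mul,
      Matrix.map_mul, hJ', hc, hc, hc, ← Matrix.map_mul, ← Matrix.map_mul,
      ← Matrix.map_add _ (map_add ι), S.split, Matrix.map_one _ (map_zero ι) (map_one ι)]
  have hCB : (C * B).map f = 1 := by
    rw [Matrix.fromRows_mul_fromCols, Matrix.fromBlocks_map, Matrix.map_mul, Matrix.map_mul,
      Matrix.map_mul, Matrix.map_mul, hJ', hc, hc, hc, ← Matrix.map_mul, ← Matrix.map_mul,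
      ← Matrix.map_mul, ← Matrix.map_mul, S.Lam_J, S.Lam_Sec, S.Pr_J, S.Pr_Sec,
      Matrix.map_one _ (map_zero ι) (map_one ι), Matrix.map_one _ (map_zero ι) (map_one ι),
      Matrix.map_zero _ (map_zero ι), Matrix.map_zero _ (map_zero ι), Matrix.fromBlocks_one]
  have hunit : ∀ {a : Type} [Fintype a] [DecidableEq a] (X : Matrix a a (LevelBase 𝒪 r n)),
      X.map f = 1 → IsUnit X := fun X hX => by
    refine (Matrix.isUnit_iff_isUnit_det X).mpr (isUnit_of_levelAug (r := r) (n := n) ?_)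
    show f X.det = 1
    rw [RingHom.map_det, RingHom.mapMatrix_apply, hX, Matrix.det_one]
  have hu₂ := (Matrix.isUnit_iff_isUnit_det _).mp (hunit _ hBC)
  have hu₁ := (Matrix.isUnit_iff_isUnit_det _).mp (hunit _ hCB)
  set C' := C * (B * C)⁻¹
  have hB1 : B * C' = 1 := by rw [← Matrix.mul_assoc, Matrix.mul_nonsing_inv _ hu₂]
  have hC1 : C' * B = 1 := by
    calc C' * B = (C * B)⁻¹ * (C * B) * (C' * B) := by
          rw [Matrix.nonsing_inv_mul _ hu₁, Matrix.one_mul]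
      _ = (C * B)⁻¹ * (C * (B * C') * B) := by simp only [Matrix.mul_assoc]
      _ = 1 := by rw [hB1, Matrix.mul_one, Matrix.nonsing_inv_mul _ hu₁]
  have hC'f : C'.map f = C.map f := by
    have h1 := congrArg (fun X => X.map f) (Matrix.mul_nonsing_inv _ hu₂)
    simp only [Matrix.map_mul, Matrix.map_one _ (map_zero f) (map_one f)] at h1
    rw [← Matrix.map_mul, hBC, Matrix.one_mul] at h1
    rw [show C' = C * (B * C)⁻¹ from rfl, Matrix.map_mul, h1, Matrix.mul_one]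
  have hTS : (Tr * constMat r n S.Sg).map f = 1 := by
    rw [Matrix.map_mul, hT', hc, ← Matrix.map_mul, S.Tr_Sg,
      Matrix.map_one _ (map_zero ι) (map_one ι)]
  have huT := (Matrix.isUnit_iff_isUnit_det _).mp (hunit _ hTS)
  rw [← Matrix.fromRows_toRows C', Matrix.fromRows_mul_fromCols, ← Matrix.fromBlocks_one,
    Matrix.fromBlocks_inj] at hC1
  rw [← Matrix.fromRows_toRows C', Matrix.fromCols_mul_fromRows] at hB1
  exact ⟨{
    Lam := C'.toRows₁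
    Sg := constMat r n S.Sg * (Tr * constMat r n S.Sg)⁻¹
    Pr := C'.toRows₂
    Sec := constMat r n S.Sec
    Tr_Sg := by rw [← Matrix.mul_assoc, Matrix.mul_nonsing_inv _ huT]
    Pr_J := hC1.2.2.1
    Pr_Sec := hC1.2.2.2
    split := hB1
    Pr_aug := Matrix.ext fun i j => by
      have := congrFun (congrFun hC'f (Sum.inr i)) j
      refine this.trans ?_
      exact congrFun (congrFun (hc S.Pr) i) j
    Sec_aug := hc S.Sec }⟩

variable {R : Type} [CommRing R] [Algebra 𝒪 R]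
  {ψ₁ : R →ₐ[𝒪] Matrix (Fin s₁) (Fin s₁) (LevelBase 𝒪 r n)}
  {ψ₂ : R →ₐ[𝒪] Matrix (Fin s₂) (Fin s₂) (LevelBase 𝒪 r n)}
  {S : BaseStep ρ₁ ρ₂ sK} {J : Matrix (Fin s₂) (Fin s₁) (LevelBase 𝒪 r n)}
  {Tr : Matrix (Fin s₁) (Fin s₂) (LevelBase 𝒪 r n)}

/-- The action on the cokernel at a level. -/
def StepLift.ψK (L : StepLift S J Tr) (hJ : ∀ x, J * ψ₁ x = ψ₂ x * J) :
    R →ₐ[𝒪] Matrix (Fin sK) (Fin sK) (LevelBase 𝒪 r n) :=
  cokerHom ψ₁ ψ₂ J L.Lam L.Pr L.Sec hJ L.Pr_J L.Pr_Sec L.split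

/-- The lifted projection intertwines the action with that on the cokernel. -/
lemma StepLift.Pr_comm (L : StepLift S J Tr) (hJ : ∀ x, J * ψ₁ x = ψ₂ x * J) (x : R) :
    L.Pr * ψ₂ x = L.ψK hJ x * L.Pr := by
  calc L.Pr * ψ₂ x = L.Pr * ψ₂ x * (J * L.Lam + L.Sec * L.Pr) := by rw [L.split, Matrix.mul_one]
    _ = L.Pr * (ψ₂ x * J) * L.Lam + L.ψK hJ x * L.Pr := by
        rw [StepLift.ψK, cokerHom_apply, Matrix.mul_add]; simp only [Matrix.mul_assoc]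
    _ = _ := by rw [← hJ, ← Matrix.mul_assoc, L.Pr_J, Matrix.zero_mul, Matrix.zero_mul, zero_add]

/-- The cokernel action reduces to the one at the base. -/
lemma StepLift.compat (L : StepLift S J Tr) (hJ : ∀ x, J * ψ₁ x = ψ₂ x * J) (π : R → R₀)
    (hψ : ∀ x i j (a : PatchBase 𝒪 r),
      Ideal.Quotient.mk (maximalIdeal (PatchBase 𝒪 r) ^ n) a = ψ₂ x i j →
        MvPowerSeries.constantCoeff a - ρ₂ (π x) i j ∈ maximalIdeal 𝒪 ^ n)
    (x : R) (i j : Fin sK) (a : PatchBase 𝒪 r)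
    (ha : Ideal.Quotient.mk (maximalIdeal (PatchBase 𝒪 r) ^ n) a = L.ψK hJ x i j) :
    MvPowerSeries.constantCoeff a - S.ρK (π x) i j ∈ maximalIdeal 𝒪 ^ n := by
  refine (map_levelAug_iff (L.ψK hJ x) (S.ρK (π x))).mpr ?_ i j a ha
  set f : LevelBase 𝒪 r n →+* 𝒪 ⧸ maximalIdeal 𝒪 ^ n := (levelAug r n).toRingHom
  set ι : 𝒪 →+* 𝒪 ⧸ maximalIdeal 𝒪 ^ n := algebraMap 𝒪 (𝒪 ⧸ maximalIdeal 𝒪 ^ n)
  have h2 : (ψ₂ x).map f = (ρ₂ (π x)).map ι := (map_levelAug_iff _ _).mp (hψ x)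
  show (L.Pr * ψ₂ x * L.Sec).map f = (S.Pr * ρ₂ (π x) * S.Sec).map ι
  rw [Matrix.map_mul, Matrix.map_mul, Matrix.map_mul, Matrix.map_mul, h2,
    show L.Pr.map f = S.Pr.map ι from L.Pr_aug, show L.Sec.map f = S.Sec.map ι from L.Sec_aug]

end FermatAgent.RT.Raise
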