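import Mathlib
import Fermat.Agent.RT.TameEigen

/-!
# The algebra of an unframed site

For `F`, `I` with `F I = I ^ q F`, `q ≢ 1`, and `F` with residually distinct roots `α`, `β`, the
off-diagonal entries of `I` in an eigenbasis of `F` and the root `α` are the local coordinates.
-/

set_option autoImplicit false

noncomputable section

open IsLocalRing

namespace FermatAgent.RT.Raise

section Basis

variable {A : Type*} [CommRing A]

/-- Eigenvectors of a two by two matrix as columns, polynomial in a root. -/
def eigVec (F : Matrix (Fin 2) (Fin 2) A) (α : A) : Matrix (Fin 2) (Fin 2) A :=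
  !![α - F 1 1, F 0 1; F 1 0, F 1 1 - α]

/-- A matrix in the eigenbasis, scaled by the determinant of the basis. -/
def inBasis (F : Matrix (Fin 2) (Fin 2) A) (α : A) (I : Matrix (Fin 2) (Fin 2) A) :
    Matrix (Fin 2) (Fin 2) A :=
  (eigVec F α).adjugate * I * eigVec F α

/-- The three coordinates. -/
def siteVal (F I : Matrix (Fin 2) (Fin 2) A) (α a₀ : A) : Fin 3 → A :=
  ![α - a₀, inBasis F α I 0 1, inBasis F α I 1 0]

lemma inBasis_mul (F : Matrix (Fin 2) (Fin 2) A) (α : A) (X Y : Matrix (Fin 2) (Fin 2) A) :
    inBasis F α X * inBasis F α Y = (eigVec F α).det • inBasis F α (X * Y) := by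
  simp only [inBasis]
  rw [show (eigVec F α).adjugate * X * eigVec F α * ((eigVec F α).adjugate * Y * eigVec F α) =
    (eigVec F α).adjugate * X * (eigVec F α * (eigVec F α).adjugate) * Y * eigVec F α by
      simp only [Matrix.mul_assoc]]
  rw [Matrix.mul_adjugate, Matrix.mul_smul, Matrix.smul_mul, Matrix.smul_mul, Matrix.mul_one]
  simp only [Matrix.mul_assoc]

/-- The eigenvector matrix commutes with ring maps. -/
lemma map_eigVec {B : Type*} [CommRing B] (f : A →+* B) (F : Matrix (Fin 2) (Fin 2) A) (α : A) :
    (eigVec F α).map f = eigVec (F.map f) (f α) := by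
  ext i j; fin_cases i <;> fin_cases j <;> simp [eigVec]

/-- The change to the eigenbasis commutes with ring maps. -/
lemma map_inBasis {B : Type*} [CommRing B] (f : A →+* B) (F : Matrix (Fin 2) (Fin 2) A) (α : A)
    (I : Matrix (Fin 2) (Fin 2) A) :
    (inBasis F α I).map f = inBasis (F.map f) (f α) (I.map f) := by
  rw [inBasis, inBasis, ← map_eigVec, Matrix.map_mul, Matrix.map_mul]
  congr 2
  exact RingHom.map_adjugate f _

/-- The site values commute with ring maps. -/
lemma map_siteVal {B : Type*} [CommRing B] (f : A →+* B) (F I : Matrix (Fin 2) (Fin 2) A)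
    (α a₀ : A) (i : Fin 3) :
    f (siteVal F I α a₀ i) = siteVal (F.map f) (I.map f) (f α) (f a₀) i := by
  simp only [siteVal, ← map_inBasis]
  fin_cases i <;> simp

lemma inBasis_sub (F : Matrix (Fin 2) (Fin 2) A) (α : A) (X Y : Matrix (Fin 2) (Fin 2) A) :
    inBasis F α (X - Y) = inBasis F α X - inBasis F α Y := by
  rw [inBasis, inBasis, inBasis, mul_sub, sub_mul]

/-- The identity becomes the scalar determinant of the eigenbasis. -/
lemma inBasis_one (F : Matrix (Fin 2) (Fin 2) A) (α : A) :
    inBasis F α 1 = (eigVec F α).det • 1 := by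
  rw [inBasis, Matrix.mul_one, Matrix.adjugate_mul]

/-- Off the diagonal subtracting one changes nothing. -/
lemma inBasis_sub_one_apply (F : Matrix (Fin 2) (Fin 2) A) (α : A) (X : Matrix (Fin 2) (Fin 2) A)
    {i j : Fin 2} (h : i ≠ j) : inBasis F α (X - 1) i j = inBasis F α X i j := by
  rw [inBasis_sub, inBasis_one, Matrix.sub_apply, Matrix.smul_apply, Matrix.one_apply_ne h,
    smul_zero, sub_zero]

lemma inBasis_zero (F : Matrix (Fin 2) (Fin 2) A) (α : A) : inBasis F α 0 = 0 := by
  rw [inBasis, Matrix.mul_zero, Matrix.zero_mul]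

lemma trace_inBasis (F : Matrix (Fin 2) (Fin 2) A) (α : A) (X : Matrix (Fin 2) (Fin 2) A) :
    (inBasis F α X).trace = (eigVec F α).det • X.trace := by
  rw [inBasis, Matrix.trace_mul_comm, ← Matrix.mul_assoc, Matrix.mul_adjugate, Matrix.smul_mul,
    Matrix.one_mul, Matrix.trace_smul]

/-- A matrix vanishing in an eigenbasis vanishes. -/
lemma eq_zero_of_inBasis {F : Matrix (Fin 2) (Fin 2) A} {α : A} (hv : IsUnit (eigVec F α).det)
    {X : Matrix (Fin 2) (Fin 2) A} (h : inBasis F α X = 0) : X = 0 := by
  have h2 := congrArg (fun Y => eigVec F α * Y * (eigVec F α).adjugate) h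
  simp only [inBasis, ← Matrix.mul_assoc, Matrix.mul_adjugate, Matrix.smul_mul, Matrix.one_mul,
    Matrix.mul_zero, Matrix.zero_mul] at h2
  rw [Matrix.mul_assoc, Matrix.mul_adjugate, Matrix.mul_smul, Matrix.mul_one, smul_smul] at h2
  exact Matrix.ext fun i j => (hv.mul hv).mul_right_eq_zero.mp (congrFun (congrFun h2 i) j)

variable {F I : Matrix (Fin 2) (Fin 2) A} {α β : A}

lemma inBasis_self (hs : α + β = F.trace) (hp : α * β = F.det) :
    inBasis F α F = (eigVec F α).det • !![α, 0; 0, β] := by
  rw [Matrix.trace_fin_two] at hs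
  rw [Matrix.det_fin_two] at hp
  have hβ : β = F 0 0 + F 1 1 - α := by linear_combination hs
  subst hβ
  have hF : F * eigVec F α = eigVec F α * !![α, 0; 0, F 0 0 + F 1 1 - α] := by
    ext i j
    fin_cases i <;> fin_cases j <;>
      simp [eigVec, Matrix.mul_apply, Fin.sum_univ_two] <;> try ring
    · linear_combination hp
    · linear_combination hp
  rw [inBasis, Matrix.mul_assoc, hF, ← Matrix.mul_assoc, Matrix.adjugate_mul, Matrix.smul_mul,
    Matrix.one_mul]

/-- **The equations of a unipotent site.** In the eigenbasis inertia is unipotent with vanishing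
diagonal part, and its two entries satisfy the equations of the lines. -/
theorem site_equations (hs : α + β = F.trace) (hp : α * β = F.det)
    (hα : IsUnit α) (hv : IsUnit (eigVec F α).det) {q : ℕ} (hq : IsUnit ((q : A) - 1))
    (ht : I.trace = 2) (hd : I.det = 1) (htame : F * I = I ^ q * F) :
    inBasis F α (I - 1) 0 0 = 0 ∧ inBasis F α (I - 1) 1 1 = 0 ∧
      inBasis F α I 0 1 * inBasis F α I 1 0 = 0 ∧
      (α - q * β) * inBasis F α I 0 1 = 0 ∧ (β - q * α) * inBasis F α I 1 0 = 0 := by
  set N := I - 1 with hN
  have hN2 : N * N = 0 := by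
    rw [Matrix.trace_fin_two] at ht
    rw [Matrix.det_fin_two] at hd
    ext i j
    fin_cases i <;> fin_cases j <;> simp [hN, Matrix.mul_apply, Fin.sum_univ_two]
    · linear_combination I 0 0 * ht - hd
    · linear_combination I 0 1 * ht
    · linear_combination I 1 0 * ht
    · linear_combination I 1 1 * ht - hd
  have hpow : ∀ k : ℕ, I ^ k = 1 + k • N := by
    intro k
    induction k with
    | zero => simp
    | succ k ih =>
      rw [pow_succ, ih, show I = 1 + N by rw [hN, add_sub_cancel], mul_add, mul_one, add_mul,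
        one_mul, smul_mul_assoc, hN2, smul_zero, add_zero, succ_nsmul, add_assoc]
  have hFN : F * N = (q : A) • (N * F) := by
    rw [hpow, add_mul, one_mul, smul_mul_assoc, ← Nat.cast_smul_eq_nsmul A] at htame
    rw [hN, mul_sub, htame, mul_one, add_sub_cancel_left]
  have h1 : inBasis F α F * inBasis F α N = (q : A) • (inBasis F α N * inBasis F α F) := by
    rw [inBasis_mul, inBasis_mul, hFN, smul_comm]
    simp [inBasis]
  rw [inBasis_self hs hp, Matrix.smul_mul, Matrix.mul_smul, smul_comm] at h1
  have e : ∀ i j, (!![α, 0; 0, β] * inBasis F α N) i j =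
      ((q : A) • (inBasis F α N * !![α, 0; 0, β])) i j := fun i j => by
    have := congrFun (congrFun h1 i) j
    simp only [Matrix.smul_apply, smul_eq_mul] at this
    exact hv.mul_left_cancel this
  have e00 := e 0 0
  have e01 := e 0 1
  have e10 := e 1 0
  simp [Matrix.mul_apply, Fin.sum_univ_two] at e00 e01 e10
  have htr : inBasis F α N 0 0 + inBasis F α N 1 1 = 0 := by
    have h2 : (inBasis F α N).trace = 0 := by
      rw [trace_inBasis, hN, Matrix.trace_sub, ht, Matrix.trace_one]
      simp
    rwa [Matrix.trace_fin_two] at h2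
  have h00 : inBasis F α N 0 0 = 0 := by
    have : ((q : A) - 1) * α * inBasis F α N 0 0 = 0 := by linear_combination -e00
    exact (hq.mul hα).mul_right_eq_zero.mp this
  have hoff : ∀ i j, i ≠ j → inBasis F α N i j = inBasis F α I i j := fun i j hij =>
    inBasis_sub_one_apply F α I hij
  rw [hoff 0 1 (by decide)] at e01
  rw [hoff 1 0 (by decide)] at e10
  have h11 : inBasis F α N 1 1 = 0 := by linear_combination htr - h00
  refine ⟨h00, h11, ?_, by linear_combination e01, by linear_combination e10⟩
  have h3 := congrFun (congrFun (inBasis_mul F α N N) 0) 0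
  rw [hN2, inBasis_zero, smul_zero, Matrix.mul_apply, Fin.sum_univ_two, h00, zero_mul, zero_add,
    hoff 0 1 (by decide), hoff 1 0 (by decide)] at h3
  exact h3

end Basis

end FermatAgent.RT.Raise
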