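import Mathlib
import Fermat.Agent.RT.Raise.SiteAlg
import Fermat.Agent.RT.Raise.Sites

/-!
# Unframed sites of a representation

The data of a prime `q ≢ 1` at which the residual representation is unramified with Frobenius
eigenvalues `sgn q`, `sgn`, the coordinates of a representation at it and their types.
-/

set_option autoImplicit false

noncomputable section

open IsLocalRing

namespace FermatAgent.RT.Raise

variable {𝒪 : Type} [CommRing 𝒪] [IsLocalRing 𝒪] {G : Type} [Monoid G]

/-- An unframed site: Frobenius, inertia, the prime, the sign of the raised type, the value of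
the eigenvalue coordinate for the other type. -/
structure RaiseSite (𝒪 G : Type) [CommRing 𝒪] [IsLocalRing 𝒪] where
  /-- the Frobenius element -/
  frob : G
  /-- the inertia element -/
  inert : G
  /-- the prime -/
  q : ℕ
  /-- the sign of the raised type -/
  sgn : 𝒪
  /-- the eigenvalue coordinate of the other type -/
  other : 𝒪
  sgn_sq : sgn * sgn = 1
  isUnit_two : IsUnit (2 : 𝒪)
  isUnit_q : IsUnit (q : 𝒪)
  isUnit_sub_one : IsUnit ((q : 𝒪) - 1)
  sq_ne_one : (q : 𝒪) * q ≠ 1
  other_mem : other ∈ maximalIdeal 𝒪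
  other_ne : other ≠ 0
  other_spec : IsUnit ((q : 𝒪) + 1) ∨ other = -(sgn * (1 + q))

namespace RaiseSite

variable (d : RaiseSite 𝒪 G)

/-- The residual value of the root. -/
def α₀ : 𝒪 := d.sgn * d.q

/-- The constants of the two types. -/
def consts : Bool → 𝒪 := fun b => bif b then 0 else d.other

omit [Monoid G] in
lemma isUnit_sgn : IsUnit d.sgn := IsUnit.of_mul_eq_one _ d.sgn_sq

omit [Monoid G] in
/-- The residual value of the root is a unit. -/
lemma isUnit_α₀ : IsUnit d.α₀ := d.isUnit_sgn.mul d.isUnit_q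

omit [Monoid G] in
/-- The two residual roots differ by a unit. -/
lemma isUnit_diff : IsUnit (d.α₀ - d.sgn) := by
  rw [α₀, show d.sgn * d.q - d.sgn = d.sgn * ((d.q : 𝒪) - 1) by ring]
  exact d.isUnit_sgn.mul d.isUnit_sub_one

end RaiseSite

/-- Frobenius is residually diagonalisable with the eigenvalues of the site, and inertia is
residually trivial, in every ring under consideration. -/
structure SiteShape {R : Type} [CommRing R] [IsLocalRing R] [Algebra 𝒪 R]
    (M : G →* Matrix (Fin 2) (Fin 2) R) (d : RaiseSite 𝒪 G) : Prop where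
  trace : (M d.frob).trace - algebraMap 𝒪 R (d.α₀ + d.sgn) ∈ maximalIdeal R
  det : (M d.frob).det = (d.q : R)
  det_inert : (M d.inert).det = 1
  tame : M d.frob * M d.inert = M d.inert ^ d.q * M d.frob
  inert : ∀ i j, M d.inert i j - (1 : Matrix (Fin 2) (Fin 2) R) i j ∈ maximalIdeal R
  basis : IsUnit (eigVec (M d.frob) (algebraMap 𝒪 R d.α₀)).det

section Root

variable {R : Type} [CommRing R] [IsLocalRing R] [Algebra 𝒪 R]
  (M : G →* Matrix (Fin 2) (Fin 2) R) (d : RaiseSite 𝒪 G)

/-- The root near `sgn q`. -/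
def siteRoot : R := by
  classical exact if h : ∃ α β : R, α + β = (M d.frob).trace ∧ α * β = (M d.frob).det ∧
      α - algebraMap 𝒪 R d.α₀ ∈ maximalIdeal R ∧ IsUnit (α - β) then h.choose
    else algebraMap 𝒪 R d.α₀

/-- The other root. -/
def siteRoot' : R := (M d.frob).trace - siteRoot M d

/-- The coordinates at the site. -/
def siteVals : Fin 3 → R :=
  siteVal (M d.frob) (M d.inert) (siteRoot M d) (algebraMap 𝒪 R d.α₀)

variable [IsAdicComplete (maximalIdeal R) R] {M} {d}

/-- The two roots of Frobenius have its trace and determinant, the first lifts `α₀` and their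
difference is a unit. -/
lemma SiteShape.roots (h : SiteShape M d) :
    siteRoot M d + siteRoot' M d = (M d.frob).trace ∧
    siteRoot M d * siteRoot' M d = (M d.frob).det ∧
    siteRoot M d - algebraMap 𝒪 R d.α₀ ∈ maximalIdeal R ∧
    IsUnit (siteRoot M d - siteRoot' M d) := by
  classical
  have hex : ∃ α β : R, α + β = (M d.frob).trace ∧ α * β = (M d.frob).det ∧
      α - algebraMap 𝒪 R d.α₀ ∈ maximalIdeal R ∧ IsUnit (α - β) := by
    refine exists_roots (β₀ := algebraMap 𝒪 R d.sgn) (by rw [← map_add]; exact h.trace) ?_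
      (by rw [← map_sub]; exact d.isUnit_diff.map _)
    rw [h.det, ← map_mul, RaiseSite.α₀, mul_right_comm, d.sgn_sq, one_mul, map_natCast, sub_self]
    exact Ideal.zero_mem _
  obtain ⟨β, hs, hp, hm, hu⟩ := hex.choose_spec
  have hr : siteRoot M d = hex.choose := dif_pos hex
  have hβ : siteRoot' M d = β := by rw [siteRoot', hr]; exact sub_eq_of_eq_add' hs.symm
  exact ⟨add_sub_cancel _ _, by rw [hr, hβ, hp], by rw [hr]; exact hm, by rw [hr, hβ]; exact hu⟩

/-- The chosen root is a unit. -/
lemma SiteShape.isUnit_root (h : SiteShape M d) : IsUnit (siteRoot M d) := by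
  by_contra hn
  have h1 := sub_mem ((mem_maximalIdeal _).mpr hn) h.roots.2.2.1
  rw [sub_sub_cancel] at h1
  exact (mem_maximalIdeal _).mp h1 (d.isUnit_α₀.map _)

lemma SiteShape.isUnit_det (h : SiteShape M d) :
    IsUnit (eigVec (M d.frob) (siteRoot M d)).det := by
  refine isUnit_of_map_unit (residue R) _ ?_
  have h1 : residue R (siteRoot M d) = residue R (algebraMap 𝒪 R d.α₀) := by
    rw [← sub_eq_zero, ← map_sub, residue_eq_zero_iff]; exact h.roots.2.2.1
  have : residue R (eigVec (M d.frob) (siteRoot M d)).det =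
      residue R (eigVec (M d.frob) (algebraMap 𝒪 R d.α₀)).det := by
    rw [RingHom.map_det, RingHom.map_det, RingHom.mapMatrix_apply, RingHom.mapMatrix_apply,
      map_eigVec, map_eigVec, h1]
  rw [this]
  exact h.basis.map _

/-- The site values lie in the maximal ideal. -/
lemma SiteShape.vals_mem (h : SiteShape M d) (i : Fin 3) : siteVals M d i ∈ maximalIdeal R := by
  have hoff : ∀ a b, a ≠ b →
      inBasis (M d.frob) (siteRoot M d) (M d.inert) a b ∈ maximalIdeal R := fun a b hab => by
    rw [← residue_eq_zero_iff, ← Matrix.map_apply (f := residue R), map_inBasis,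
      show (M d.inert).map (residue R) = 1 from Matrix.ext fun i j => by
        have := (residue_eq_zero_iff _).mpr (h.inert i j)
        rw [map_sub, sub_eq_zero] at this
        rw [Matrix.map_apply, this]
        simp [Matrix.one_apply, apply_ite (residue R)],
      inBasis_one, Matrix.smul_apply, Matrix.one_apply_ne hab, smul_zero]
  fin_cases i
  · exact h.roots.2.2.1
  · exact hoff 0 1 (by decide)
  · exact hoff 1 0 (by decide)

omit [IsAdicComplete (maximalIdeal R) R] in
/-- The shape passes to local images. -/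
lemma SiteShape.map (h : SiteShape M d) {R' : Type} [CommRing R'] [IsLocalRing R'] [Algebra 𝒪 R']
    (f : R →ₐ[𝒪] R') (hf : ∀ a ∈ maximalIdeal R, f a ∈ maximalIdeal R')
    {M' : G →* Matrix (Fin 2) (Fin 2) R'} (hM : ∀ x, (M x).map f = M' x) : SiteShape M' d where
  trace := by
    have := hf _ h.trace
    rw [map_sub, AlgHom.commutes] at this
    rw [← hM]
    simpa [Matrix.trace_fin_two] using this
  det := by
    rw [← hM, ← AlgHom.mapMatrix_apply, ← AlgHom.map_det, h.det, map_natCast]
  det_inert := by rw [← hM, ← AlgHom.mapMatrix_apply, ← AlgHom.map_det, h.det_inert, map_one]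
  tame := by
    rw [← hM, ← hM]
    simp only [← AlgHom.mapMatrix_apply]
    rw [← map_pow f.mapMatrix, ← map_mul f.mapMatrix, ← map_mul f.mapMatrix, h.tame]
  inert i j := by
    have := hf _ (h.inert i j)
    have e : f ((1 : Matrix (Fin 2) (Fin 2) R) i j) = (1 : Matrix (Fin 2) (Fin 2) R') i j := by
      rw [Matrix.one_apply, Matrix.one_apply, apply_ite f, map_one, map_zero]
    rw [map_sub, e] at this
    rw [← hM]
    exact this
  basis := by
    have hu := h.basis.map (f : R →+* R')
    rw [RingHom.map_det, RingHom.mapMatrix_apply, map_eigVec] at hu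
    simp only [RingHom.coe_coe, AlgHom.commutes, hM] at hu
    exact hu

/-- The coordinates commute with local maps. -/
lemma SiteShape.map_siteVals (h : SiteShape M d) {R' : Type} [CommRing R'] [IsLocalRing R']
    [Algebra 𝒪 R'] [IsAdicComplete (maximalIdeal R') R'] (f : R →ₐ[𝒪] R')
    (hf : ∀ a ∈ maximalIdeal R, f a ∈ maximalIdeal R') {M' : G →* Matrix (Fin 2) (Fin 2) R'}
    (hM : ∀ x, (M x).map f = M' x) (i : Fin 3) :
    f (siteVals M d i) = siteVals M' d i := by
  obtain ⟨hs, hp, hm, -⟩ := h.roots
  obtain ⟨hs', hp', hm', hu'⟩ := (h.map f hf hM).roots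
  have hsf := congrArg f hs
  have hpf := congrArg f hp
  rw [map_add] at hsf
  rw [map_mul] at hpf
  have hmf := hf _ hm
  rw [map_sub, AlgHom.commutes] at hmf
  have hroot : f (siteRoot M d) = siteRoot M' d := by
    refine root_unique (β := siteRoot' M' d) (β' := f (siteRoot' M d)) ?_ ?_ hu' ?_
    · rw [hs', hsf, ← hM]; simp [Matrix.trace_fin_two]
    · rw [hp', hpf, ← hM, AlgHom.map_det, AlgHom.mapMatrix_apply]
    · have := sub_mem hmf hm'
      rwa [sub_sub_sub_cancel_right] at this
  show (f : R →+* R') _ = _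
  rw [siteVals, map_siteVal]
  simp only [RingHom.coe_coe, hroot, AlgHom.commutes, hM, siteVals]

/-- Inertia at a unipotent site in the eigenbasis, in any algebra under a map. -/
private lemma SiteShape.inBasis_equations (h : SiteShape M d) {B : Type} [CommRing B]
    (f : R →+* B) (ht : f (M d.inert).trace = 2) :
    let F := (M d.frob).map f
    let α := f (siteRoot M d)
    inBasis F α ((M d.inert).map f - 1) 0 0 = 0 ∧ inBasis F α ((M d.inert).map f - 1) 1 1 = 0 ∧
      f (siteVals M d 1) * f (siteVals M d 2) = 0 ∧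
      (α - (d.q : B) * f (siteRoot' M d)) * f (siteVals M d 1) = 0 ∧
      (f (siteRoot' M d) - (d.q : B) * α) * f (siteVals M d 2) = 0 := by
  obtain ⟨hs, hp, -, -⟩ := h.roots
  have hv := h.isUnit_det.map f
  rw [RingHom.map_det, RingHom.mapMatrix_apply, map_eigVec] at hv
  have hq : IsUnit ((d.q : B) - 1) := by
    simpa using (d.isUnit_sub_one.map (algebraMap 𝒪 R)).map f
  obtain ⟨h00, h11, h3, h4, h5⟩ := site_equations (F := (M d.frob).map f) (I := (M d.inert).map f)
    (α := f (siteRoot M d)) (β := f (siteRoot' M d))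
    (by rw [← map_add, hs]; simp [Matrix.trace_fin_two])
    (by rw [← map_mul, hp, RingHom.map_det]; rfl)
    (h.isUnit_root.map f) hv hq
    (by rw [← ht]; simp [Matrix.trace_fin_two])
    (by rw [← RingHom.mapMatrix_apply, ← RingHom.map_det, h.det_inert, map_one])
    (by rw [← RingHom.mapMatrix_apply, ← RingHom.mapMatrix_apply, ← map_pow,
      ← map_mul f.mapMatrix, ← map_mul f.mapMatrix, h.tame])
  rw [← map_inBasis, Matrix.map_apply, Matrix.map_apply] at h3
  rw [← map_inBasis, Matrix.map_apply] at h4 h5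
  exact ⟨h00, h11, h3, h4, h5⟩

/-- The equations at a unipotent site, in any algebra under a map. -/
theorem SiteShape.equations (h : SiteShape M d) {B : Type} [CommRing B] (f : R →+* B)
    (ht : f (M d.inert).trace = 2) :
    f (siteVals M d 1) * f (siteVals M d 2) = 0 ∧
      (f (siteRoot M d) - (d.q : B) * f (siteRoot' M d)) * f (siteVals M d 1) = 0 ∧
      (f (siteRoot' M d) - (d.q : B) * f (siteRoot M d)) * f (siteVals M d 2) = 0 :=
  (h.inBasis_equations f ht).2.2

/-- Inertia is trivial where its coordinates vanish. -/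
theorem SiteShape.map_inert_eq_one (h : SiteShape M d) {B : Type} [CommRing B] (f : R →+* B)
    (ht : f (M d.inert).trace = 2) (hx : f (siteVals M d 1) = 0) (hy : f (siteVals M d 2) = 0) :
    (M d.inert).map f = 1 := by
  obtain ⟨h00, h11, -⟩ := h.inBasis_equations f ht
  have hv := h.isUnit_det.map f
  rw [RingHom.map_det, RingHom.mapMatrix_apply, map_eigVec] at hv
  refine sub_eq_zero.mp (eq_zero_of_inBasis hv (Matrix.ext fun i j => ?_))
  fin_cases i <;> fin_cases j
  exacts [h00, (inBasis_sub_one_apply _ _ _ (by decide)).trans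
      (by rw [← map_inBasis, Matrix.map_apply]; exact hx),
    (inBasis_sub_one_apply _ _ _ (by decide)).trans
      (by rw [← map_inBasis, Matrix.map_apply]; exact hy), h11]

omit [Monoid G] in
/-- The types from the equations of a site, in a local domain. -/
theorem type_of_equations {B : Type} [CommRing B] [IsDomain B] [IsLocalRing B] [Algebra 𝒪 B]
    (d : RaiseSite 𝒪 G) {a b x y : B} (hab : a * b = (d.q : B))
    (hαm : a - algebraMap 𝒪 B d.α₀ ∈ maximalIdeal B) (h3 : x * y = 0)
    (h4 : (a - (d.q : B) * b) * x = 0) (h5 : (b - (d.q : B) * a) * y = 0) :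
    ∃ T : SiteType, typeCond d.consts ![a - algebraMap 𝒪 B d.α₀, x, y] T := by
  have hs2 : algebraMap 𝒪 B d.sgn * algebraMap 𝒪 B d.sgn = 1 := by
    rw [← map_mul, d.sgn_sq, map_one]
  have hnu : ∀ u : 𝒪, IsUnit u → algebraMap 𝒪 B u ∉ maximalIdeal B := fun u hu hc =>
    (mem_maximalIdeal _).mp hc (hu.map _)
  by_cases hx : x = 0
  · by_cases hy : y = 0
    · exact ⟨none, hx, hy⟩
    refine ⟨some false, ?_, hx⟩
    have e1 : b = (d.q : B) * a := sub_eq_zero.mp ((mul_eq_zero.mp h5).resolve_right hy)
    have hq0 : (d.q : B) ≠ 0 := by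
      rw [← map_natCast (algebraMap 𝒪 B)]; exact (d.isUnit_q.map _).ne_zero
    have e2 : a * a = 1 := mul_left_cancel₀ hq0 (by linear_combination hab - a * e1)
    show a - algebraMap 𝒪 B d.α₀ = _
    rw [RaiseSite.consts, cond_false]
    have e3 : (a - algebraMap 𝒪 B d.sgn) * (a + algebraMap 𝒪 B d.sgn) = 0 := by
      linear_combination e2 - hs2
    rcases mul_eq_zero.mp e3 with e | e
    · exfalso
      rw [sub_eq_zero.mp e, ← map_sub, RaiseSite.α₀] at hαm
      refine hnu _ ?_ hαm
      rw [show d.sgn - d.sgn * d.q = -(d.sgn * ((d.q : 𝒪) - 1)) by ring]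
      exact (d.isUnit_sgn.mul d.isUnit_sub_one).neg
    · rw [eq_neg_of_add_eq_zero_left e] at hαm ⊢
      rcases d.other_spec with hu | ho
      · exfalso
        rw [← map_neg, ← map_sub, RaiseSite.α₀] at hαm
        refine hnu _ ?_ hαm
        rw [show -d.sgn - d.sgn * d.q = -(d.sgn * ((d.q : 𝒪) + 1)) by ring]
        exact (d.isUnit_sgn.mul hu).neg
      · rw [ho, RaiseSite.α₀, map_neg, map_mul, map_mul, map_add, map_one]
        ring
  · refine ⟨some true, ?_, (mul_eq_zero.mp h3).resolve_left hx⟩
    have e1 : a = (d.q : B) * b := sub_eq_zero.mp ((mul_eq_zero.mp h4).resolve_right hx)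
    have hq0 : (d.q : B) ≠ 0 := by
      rw [← map_natCast (algebraMap 𝒪 B)]; exact (d.isUnit_q.map _).ne_zero
    have e2 : b * b = 1 := mul_left_cancel₀ hq0 (by linear_combination hab - b * e1)
    show a - algebraMap 𝒪 B d.α₀ = _
    rw [RaiseSite.consts, cond_true, map_zero]
    have e3 : (b - algebraMap 𝒪 B d.sgn) * (b + algebraMap 𝒪 B d.sgn) = 0 := by
      linear_combination e2 - hs2
    rcases mul_eq_zero.mp e3 with e | e
    · rw [e1, sub_eq_zero.mp e, RaiseSite.α₀, map_mul, map_natCast]; ring
    · exfalso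
      rw [e1, eq_neg_of_add_eq_zero_left e, RaiseSite.α₀] at hαm
      refine hnu (-(2 * (d.sgn * d.q)))
        ((d.isUnit_two.mul (d.isUnit_sgn.mul d.isUnit_q)).neg) ?_
      convert hαm using 1
      rw [map_neg, map_mul, map_mul, map_ofNat, map_natCast]
      ring

/-- A point with the raised trace has the type with the sign of the site. -/
theorem SiteShape.raised_type (h : SiteShape M d) (φ : R →ₐ[𝒪] 𝒪) [IsDomain 𝒪]
    [IsLocalHom (φ : R →+* 𝒪)] (ht : φ (M d.inert).trace = 2)
    (hF : φ (M d.frob).trace = d.sgn * (d.q + 1)) :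
    typeCond d.consts (fun i => φ (siteVals M d i)) (some true) := by
  obtain ⟨-, -, h5⟩ := h.equations (φ : R →+* 𝒪) ht
  obtain ⟨hs, hp, hm, -⟩ := h.roots
  have hm' := map_nonunit (φ : R →+* 𝒪) _ hm
  rw [RingHom.coe_coe, map_sub, AlgHom.commutes, Algebra.algebraMap_self, RingHom.id_apply] at hm'
  have hα : φ (siteRoot M d) = d.α₀ := by
    have hs' := congrArg φ hs
    have hp' := congrArg φ hp
    rw [map_add, hF] at hs'
    rw [map_mul, h.det, map_natCast] at hp'
    refine root_unique (A := 𝒪) (β := d.sgn) (β' := φ (siteRoot' M d)) ?_ ?_ d.isUnit_diff hm'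
    · rw [hs', RaiseSite.α₀]; ring
    · rw [hp', RaiseSite.α₀]; linear_combination (d.q : 𝒪) * d.sgn_sq
  refine ⟨?_, ?_⟩
  · show φ (siteVals M d 0) = _
    simp [siteVals, siteVal, hα, RaiseSite.consts]
  · show φ (siteVals M d 2) = 0
    refine (mul_eq_zero.mp h5).resolve_left fun e => d.sq_ne_one ?_
    have hs' := congrArg φ hs
    rw [map_add, hF, hα] at hs'
    simp only [RingHom.coe_coe, hα, show φ (siteRoot' M d) = d.sgn by
      rw [RaiseSite.α₀] at hs'; linear_combination hs'] at e
    rw [RaiseSite.α₀] at e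
    refine (d.isUnit_sgn.mul_left_cancel ?_)
    linear_combination -e

end Root

end FermatAgent.RT.Raise
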