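import Mathlib
import Fermat.Agent.RT.Raise.CoordSite
import Fermat.Agent.RT.Raise.SiteData

/-!
# Primes `q ≢ 1` as sites by coordinates

At a prime `q ≢ 1` at which inertia is residually trivial the coordinates are the Frobenius root
and the two off-diagonal entries of inertia.
-/

set_option autoImplicit false

noncomputable section

open IsLocalRing FermatAgent.GaloisBasic

namespace FermatAgent.RT.Raise

variable {𝒪 : Type} [CommRing 𝒪] [IsDomain 𝒪] [IsDiscreteValuationRing 𝒪]
  [IsAdicComplete (maximalIdeal 𝒪) 𝒪]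
variable {G : Type} [Monoid G]

namespace RaiseSite

variable (d : RaiseSite 𝒪 G)

/-- The root as a series in the coordinates. -/
def rootS : MvPowerSeries (Fin 3) 𝒪 := MvPowerSeries.C d.α₀ + MvPowerSeries.X 0

omit [IsAdicComplete (maximalIdeal 𝒪) 𝒪] [Monoid G] in
lemma isUnit_rootS : IsUnit d.rootS := by
  rw [MvPowerSeries.isUnit_iff_constantCoeff]
  simpa [rootS] using d.isUnit_α₀

/-- The other root. -/
def rootS' : MvPowerSeries (Fin 3) 𝒪 :=
  (d.q : MvPowerSeries (Fin 3) 𝒪) * (d.isUnit_rootS.unit⁻¹ : (MvPowerSeries (Fin 3) 𝒪)ˣ)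

omit [IsAdicComplete (maximalIdeal 𝒪) 𝒪] [Monoid G] in
lemma rootS_mul : d.rootS * d.rootS' = (d.q : MvPowerSeries (Fin 3) 𝒪) := by
  rw [rootS', mul_left_comm, IsUnit.mul_val_inv, mul_one]

/-- The three equations. -/
def eqsS : Set (MvPowerSeries (Fin 3) 𝒪) :=
  {MvPowerSeries.X 1 * MvPowerSeries.X 2,
    (d.rootS - (d.q : MvPowerSeries (Fin 3) 𝒪) * d.rootS') * MvPowerSeries.X 1,
    (d.rootS' - (d.q : MvPowerSeries (Fin 3) 𝒪) * d.rootS) * MvPowerSeries.X 2}

/-- The site by coordinates. -/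
def coord : CoordSite 𝒪 where
  other := d.other
  other_mem := d.other_mem
  other_ne := d.other_ne
  eqs := d.eqsS
  types B _ _ _ _ f _ hf := by
    have h3 := hf _ (Set.mem_insert _ _)
    have h4 := hf _ (Set.mem_insert_of_mem _ (Set.mem_insert _ _))
    have h5 := hf _ (Set.mem_insert_of_mem _ (Set.mem_insert_of_mem _ (Set.mem_singleton _)))
    simp only [map_mul, map_sub, map_natCast] at h3 h4 h5
    have ha : f d.rootS - algebraMap 𝒪 B d.α₀ = f (MvPowerSeries.X 0) := by
      rw [rootS, map_add, show f (MvPowerSeries.C d.α₀) = algebraMap 𝒪 B d.α₀ from f.commutes _]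
      ring
    obtain ⟨T, hT⟩ := type_of_equations d (a := f d.rootS) (b := f d.rootS')
      (by rw [← map_mul, rootS_mul, map_natCast])
      (by rw [ha]; exact map_nonunit (f : MvPowerSeries (Fin 3) 𝒪 →+* B) _
            (by rw [mem_maximalIdeal_iff_constantCoeff]; simp)) h3 h4 h5
    refine ⟨T, ?_⟩
    have e : (fun i => f (MvPowerSeries.X i)) = ![f d.rootS - algebraMap 𝒪 B d.α₀,
        f (MvPowerSeries.X 1), f (MvPowerSeries.X 2)] := by
      funext i; fin_cases i <;> simp [ha]
    rw [e]; exact hT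

/-- The composite of the degeneracy maps as a series in the coordinates. -/
def tauS (c : 𝒪) : MvPowerSeries (Fin 3) 𝒪 :=
  MvPowerSeries.C c * ((d.q : MvPowerSeries (Fin 3) 𝒪) + 1 -
    MvPowerSeries.C d.sgn * (d.rootS + d.rootS'))

omit [Monoid G] in
/-- The composite vanishes at the pinned points. -/
lemma tauS_mem (c : 𝒪) (p : Pt (Fin 3) 𝒪) (hp : p.coords 0 = 0) : d.tauS c ∈ p.prime := by
  have hC : ∀ a : 𝒪, p.hom (MvPowerSeries.C a) = a := fun a => p.hom.commutes a
  have hX : p.hom d.rootS = d.α₀ := by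
    rw [rootS, map_add, hC]; simp [Pt.hom, hp]
  have h1 := congrArg p.hom d.rootS_mul
  rw [map_mul, hX, map_natCast] at h1
  have hX' : p.hom d.rootS' = d.sgn := by
    refine d.isUnit_α₀.mul_left_cancel ?_
    rw [h1, RaiseSite.α₀]
    linear_combination (-(d.q : 𝒪)) * d.sgn_sq
  rw [Pt.prime, RingHom.mem_ker, tauS, map_mul, map_sub, map_add, map_mul, map_add, hX, hX',
    map_natCast, map_one, hC, hC, RaiseSite.α₀]
  linear_combination (-(c * (d.q + 1))) * d.sgn_sq

end RaiseSite

/-- The element by which the two degeneracy maps compose at a site. -/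
def raiseTau {R : Type} [CommRing R] [Algebra 𝒪 R] (M : G →* Matrix (Fin 2) (Fin 2) R)
    (d : RaiseSite 𝒪 G) : R :=
  (d.q : R) + 1 - algebraMap 𝒪 R d.sgn * (M d.frob).trace

section Level

variable {R : Type} [CommRing R] [IsLocalRing R] [Algebra 𝒪 R]
  [IsAdicComplete (maximalIdeal R) R] {M : G →* Matrix (Fin 2) (Fin 2) R} {d : RaiseSite 𝒪 G}
variable (h : SiteShape M d)

omit [IsAdicComplete (maximalIdeal 𝒪) 𝒪]

include h in
lemma SiteShape.eval_rootS :
    evalAdic (R := 𝒪) (maximalIdeal R) (siteVals M d) h.vals_mem d.rootS = siteRoot M d := by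
  rw [RaiseSite.rootS, map_add, evalAdic_C, evalAdic_X]
  simp [siteVals, siteVal]

include h in
lemma SiteShape.eval_rootS' :
    evalAdic (R := 𝒪) (maximalIdeal R) (siteVals M d) h.vals_mem d.rootS' = siteRoot' M d := by
  have h1 := congrArg (evalAdic (R := 𝒪) (maximalIdeal R) (siteVals M d) h.vals_mem) d.rootS_mul
  rw [map_mul, h.eval_rootS, map_natCast] at h1
  exact h.isUnit_root.mul_left_cancel (by rw [h1, h.roots.2.1, h.det])

include h in
/-- The value of the composite. -/
lemma SiteShape.eval_tauS (c : 𝒪) :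
    evalAdic (R := 𝒪) (maximalIdeal R) (siteVals M d) h.vals_mem (d.tauS c) =
      algebraMap 𝒪 R c * raiseTau M d := by
  rw [RaiseSite.tauS, map_mul, map_sub, map_add, map_mul, map_add, h.eval_rootS, h.eval_rootS',
    evalAdic_C, evalAdic_C, map_natCast, map_one, raiseTau, h.roots.1]

include h in
/-- The equations hold where inertia has trace two. -/
lemma SiteShape.map_eqs {S : Type} [Ring S] [Algebra 𝒪 S] (ψ : R →ₐ[𝒪] S)
    (ht : ψ ((M d.inert).trace - 2) = 0) (e : MvPowerSeries (Fin 3) 𝒪) (he : e ∈ d.eqsS) :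
    ψ (evalAdic (R := 𝒪) (maximalIdeal R) (siteVals M d) h.vals_mem e) = 0 := by
  obtain ⟨h3, h4, h5⟩ := h.equations (Ideal.Quotient.mk (RingHom.ker ψ)) (by
    rw [← map_ofNat (Ideal.Quotient.mk (RingHom.ker ψ)) 2]
    exact Ideal.Quotient.eq.mpr (RingHom.mem_ker.mpr ht))
  rw [← map_natCast (Ideal.Quotient.mk (RingHom.ker ψ)), ← map_mul, ← map_sub, ← map_mul] at h4 h5
  rw [← map_mul] at h3
  rw [Ideal.Quotient.eq_zero_iff_mem, RingHom.mem_ker] at h3 h4 h5
  simp only [RaiseSite.eqsS, Set.mem_insert_iff, Set.mem_singleton_iff] at he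
  rcases he with rfl | rfl | rfl
  · simpa only [map_mul, evalAdic_X] using h3
  · simpa only [map_mul, map_sub, map_natCast, h.eval_rootS, h.eval_rootS', evalAdic_X] using h4
  · simpa only [map_mul, map_sub, map_natCast, h.eval_rootS, h.eval_rootS', evalAdic_X] using h5

omit [IsAdicComplete (maximalIdeal R) R] in
/-- The inertia coordinates die where inertia acts trivially. -/
lemma siteVals_eq_zero {S : Type} [Ring S] [Algebra 𝒪 S] (ψ : R →ₐ[𝒪] S)
    (h : ∀ i j, ψ (M d.inert i j - (1 : Matrix (Fin 2) (Fin 2) R) i j) = 0) :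
    ψ (siteVals M d 1) = 0 ∧ ψ (siteVals M d 2) = 0 := by
  set f := Ideal.Quotient.mk (RingHom.ker ψ)
  have hI : (M d.inert).map f = 1 := Matrix.ext fun i j => by
    have : f (M d.inert i j) = f ((1 : Matrix (Fin 2) (Fin 2) R) i j) :=
      Ideal.Quotient.eq.mpr (RingHom.mem_ker.mpr (h i j))
    rw [Matrix.map_apply, this, Matrix.one_apply, Matrix.one_apply, apply_ite f, map_one, map_zero]
  constructor <;>
    refine RingHom.mem_ker.mp (Ideal.Quotient.eq_zero_iff_mem.mp ?_ : _ ∈ RingHom.ker ψ) <;>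
    simp only [siteVals] <;> rw [map_siteVal, hI] <;> simp [siteVal, inBasis_one]

include h in
/-- A point with trace two on inertia and the raised trace at Frobenius is pinned. -/
lemma SiteShape.pinned (φ : R →ₐ[𝒪] 𝒪) [IsLocalHom (φ : R →+* 𝒪)]
    (ht : φ (M d.inert).trace = 2) (hF : φ (M d.frob).trace = d.sgn * (d.q + 1)) :
    φ (siteVals M d 0) = 0 ∧ φ (siteVals M d 2) = 0 := by
  obtain ⟨h0, h2⟩ := h.raised_type φ ht hF
  exact ⟨by simpa [RaiseSite.consts] using h0, h2⟩

end Level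

end FermatAgent.RT.Raise
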