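import Mathlib
import Fermat.Agent.RT.Levels

/-!
# Framed sites along levels

The equations satisfied on the support by coordinates which go to the traceless parts of Frobenius
and inertia at every level.
-/

set_option autoImplicit false

noncomputable section

open IsLocalRing FermatAgent.GaloisBasic

namespace FermatAgent.RT.Raise

variable {𝒪 : Type} [CommRing 𝒪] [IsDomain 𝒪]
variable {P : Type} [CommRing P] [Algebra 𝒪 P]
variable {Bn : ℕ → Type} [∀ n, CommRing (Bn n)] [∀ n, Algebra 𝒪 (Bn n)]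

/-- Coordinates going to the traceless parts at every level. -/
def IsPairCoord (half : 𝒪) (b : Bool) (θ : ∀ n, P →ₐ[𝒪] Bn n) (z : PairIdx → P)
    (A B : ∀ n, Matrix (Fin 2) (Fin 2) (Bn n)) : Prop :=
  ∀ n, (fun i => θ n (shiftPair (siteOffset 𝒪 b) z i)) =
    Sum.elim (matVec (algebraMap 𝒪 _ half) (A n)) (matVec (algebraMap 𝒪 _ half) (B n))

/-- **Distinct characters along levels.** -/
theorem chiCond_of_pairs {half ζ ζ' : 𝒪} (h : 2 * half = 1) (hne : ζ ≠ ζ') (hζζ' : ζ * ζ' = 1)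
    {q : ℕ} (hζ : ζ ^ q = ζ) (hζ' : ζ' ^ q = ζ') {b : Bool} {θ : ∀ n, P →ₐ[𝒪] Bn n}
    {z : PairIdx → P} {A B : ∀ n, Matrix (Fin 2) (Fin 2) (Bn n)}
    (hz : IsPairCoord half b θ z A B) (N : ∀ n, Ideal (Bn n))
    (ht : ∀ n, (B n).trace - algebraMap 𝒪 _ (ζ + ζ') ∈ N n) (hd : ∀ n, (B n).det = 1)
    (htame : ∀ n, A n * B n = B n ^ q * A n) {K : Ideal P}
    (hK : ∀ x, (∀ n, θ n x ∈ N n) → x ∈ K) :
    chiCond (half * (ζ - ζ')) b fun i => Ideal.Quotient.mk K (z i) := by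
  let K₀ : Ideal P := ⨅ n, (N n).comap (θ n : P →+* Bn n)
  have hK₀ : K₀ ≤ K := fun x hx => hK x fun n => (Submodule.mem_iInf _).mp hx n
  suffices hc : chiCond (half * (ζ - ζ')) b fun i => Ideal.Quotient.mk K₀ (z i) from
    hc.map (Ideal.Quotient.factorₐ 𝒪 hK₀)
  have hKN : ∀ n x, x ∈ K₀ → (Ideal.Quotient.mkₐ 𝒪 (N n)).comp (θ n) x = 0 := fun n x hx =>
    Ideal.Quotient.eq_zero_iff_mem.mpr ((Submodule.mem_iInf _).mp hx n)
  refine chiCond_of_forall (fun n => Ideal.Quotient.liftₐ K₀ _ (hKN n)) (fun a a' haa => ?_)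
    fun n => ?_
  · obtain ⟨a, rfl⟩ := Ideal.Quotient.mk_surjective a
    obtain ⟨a', rfl⟩ := Ideal.Quotient.mk_surjective a'
    refine Ideal.Quotient.eq.mpr ((Submodule.mem_iInf _).mpr fun n => ?_)
    have h1 : Ideal.Quotient.mk (N n) (θ n a) = Ideal.Quotient.mk (N n) (θ n a') := haa n
    rw [Ideal.Quotient.eq, ← map_sub] at h1
    exact h1
  · set πq := Ideal.Quotient.mkₐ 𝒪 (N n)
    have hzq := pairEqn_of_eigenvalues (R := Bn n ⧸ N n) h hne hζζ' hζ hζ'
      (A := (A n).map πq) (B := (B n).map πq) ?_ ?_ ?_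
    · have hfun : shiftPair (siteOffset 𝒪 b) (fun i =>
          Ideal.Quotient.liftₐ K₀ _ (hKN n) (Ideal.Quotient.mk K₀ (z i))) =
          Sum.elim (matVec (algebraMap 𝒪 _ half) ((A n).map πq))
            (matVec (algebraMap 𝒪 _ half) ((B n).map πq)) := by
        funext i
        have := congrArg πq (congrFun (hz n) i)
        simp only [shiftPair, map_add, AlgHom.commutes] at this
        rcases i with i | i
        · refine Eq.trans ?_ (this.trans ?_)
          · simp [shiftPair, πq]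
          · fin_cases i <;> simp [matVec, πq]
        · refine Eq.trans ?_ (this.trans ?_)
          · simp [shiftPair, πq]
          · fin_cases i <;> simp [matVec, πq]
      refine ⟨?_, fun i => ?_⟩
      · rw [hfun]; exact hzq.1
      · rw [hfun]; exact hzq.2 i
    · rw [show ∀ X : Matrix (Fin 2) (Fin 2) (Bn n), (X.map πq).trace = πq X.trace from
        fun X => by simp [Matrix.trace_fin_two]]
      rw [← πq.commutes, Ideal.Quotient.mkₐ_eq_mk, Ideal.Quotient.eq]
      exact ht n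
    · rw [← AlgHom.mapMatrix_apply, ← AlgHom.map_det, hd, map_one]
    · rw [← AlgHom.mapMatrix_apply, ← AlgHom.mapMatrix_apply, ← map_pow πq.mapMatrix,
        ← map_mul πq.mapMatrix, ← map_mul πq.mapMatrix, htame]

variable [IsLocalRing 𝒪] [IsLocalRing P] [IsLocalHom (algebraMap 𝒪 P)]
  [HenselianRing P (maximalIdeal P)] [∀ n, IsLocalRing (Bn n)]

omit [IsDomain 𝒪] in
/-- The half trace of Frobenius is the image of a square root. -/
lemma exists_halfTrace {half : 𝒪} (h : 2 * half = 1) {q : ℕ} (hq : (q : 𝒪) - 1 ∈ maximalIdeal 𝒪)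
    {s : 𝒪} (hs : s * s = 1) {b : Bool} {θ : ∀ n, P →ₐ[𝒪] Bn n}
    (hθ : ∀ n, IsLocalHom (θ n : P →+* Bn n))
    {z : PairIdx → P} (hzm : ∀ i, z i ∈ maximalIdeal P)
    {A B : ∀ n, Matrix (Fin 2) (Fin 2) (Bn n)} (hz : IsPairCoord half b θ z A B)
    (hdA : ∀ n, (A n).det = algebraMap 𝒪 (Bn n) (q : 𝒪))
    (hA : ∀ n, (A n).trace - algebraMap 𝒪 (Bn n) (2 * s) ∈ maximalIdeal (Bn n)) :
    ∃ c : P, c - algebraMap 𝒪 P s ∈ maximalIdeal P ∧
      ∀ n, θ n c = algebraMap 𝒪 (Bn n) half * (A n).trace := by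
  set a := algebraMap 𝒪 P (q : 𝒪) + qForm (fstV (shiftPair (siteOffset 𝒪 b) z)) with ha
  have h2 : IsUnit (2 : 𝒪) := IsUnit.of_mul_eq_one _ h
  have hqf : qForm (fstV (shiftPair (siteOffset 𝒪 b) z)) ∈ maximalIdeal P := by
    have hm := fun i : Fin 3 => hzm (Sum.inl i)
    have h0 : fstV (shiftPair (siteOffset 𝒪 b) z) 0 = z (Sum.inl 0) := by
      cases b <;> simp [fstV, shiftPair, siteOffset, fstOne]
    have h2' : fstV (shiftPair (siteOffset 𝒪 b) z) 2 = z (Sum.inl 2) := by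
      cases b <;> simp [fstV, shiftPair, siteOffset, fstOne]
    rw [qForm, h0, h2']
    exact add_mem (Ideal.pow_mem_of_mem _ (hm 0) 2 two_pos) (Ideal.mul_mem_left _ _ (hm 2))
  have hqP : algebraMap 𝒪 P ((q : 𝒪) - 1) ∈ maximalIdeal P := map_nonunit (algebraMap 𝒪 P) _ hq
  obtain ⟨c, hc1, hc2⟩ := HenselianRing.is_henselian
    (R := P) (I := maximalIdeal _) (Polynomial.X ^ 2 - Polynomial.C a)
    (Polynomial.monic_X_pow_sub_C _ two_ne_zero) (algebraMap 𝒪 _ s) (by
      have : (Polynomial.X ^ 2 - Polynomial.C a).eval (algebraMap 𝒪 P s) =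
          -(algebraMap 𝒪 P ((q : 𝒪) - 1)) - qForm (fstV (shiftPair (siteOffset 𝒪 b) z)) := by
        simp only [Polynomial.eval_sub, Polynomial.eval_pow, Polynomial.eval_X, Polynomial.eval_C,
          ha, map_sub, map_one]
        rw [pow_two, ← map_mul, hs, map_one]; ring
      rw [this]
      exact sub_mem (neg_mem hqP) hqf)
    (by
      have hs2 : IsUnit (2 * s) := h2.mul (IsUnit.of_mul_eq_one _ hs)
      simpa [one_add_one_eq_two, map_ofNat] using (hs2.map (algebraMap 𝒪 P)).map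
        (Ideal.Quotient.mk (maximalIdeal _)))
  refine ⟨c, hc2, fun n => ?_⟩
  have hc : c ^ 2 = a := by simpa [Polynomial.IsRoot, sub_eq_zero] using hc1
  have := hθ n
  set c' := algebraMap 𝒪 (Bn n) half * (A n).trace
  have hhalf : (2 : Bn n) * algebraMap 𝒪 (Bn n) half = 1 := by
    rw [← map_ofNat (algebraMap 𝒪 (Bn n)) 2, ← map_mul, h, map_one]
  have e1 : θ n c ^ 2 = c' ^ 2 := by
    rw [← map_pow, hc, ha, map_add, AlgHom.commutes]
    have h3 : θ n (qForm (fstV (shiftPair (siteOffset 𝒪 b) z))) =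
        qForm (matVec (algebraMap 𝒪 _ half) (A n)) := by
      simp only [qForm, map_add, map_mul, map_pow, fstV]
      simp only [fun i => congrFun (hz n) (Sum.inl i), Sum.elim_inl]
    rw [h3, qForm_matVec hhalf, hdA, map_natCast]
    ring
  have hp : θ n c - algebraMap 𝒪 _ s ∈ maximalIdeal (Bn n) := by
    rw [← AlgHom.commutes (θ n), ← map_sub]
    exact map_nonunit (θ n : P →+* Bn n) _ hc2
  have hp' : c' - algebraMap 𝒪 _ s ∈ maximalIdeal (Bn n) := by
    have h6 := Ideal.mul_mem_left _ (algebraMap 𝒪 (Bn n) half) (hA n)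
    convert h6 using 1
    rw [map_mul, map_ofNat]
    linear_combination (algebraMap 𝒪 (Bn n) s) * hhalf
  have e2 : IsUnit (θ n c + c') := by
    have hu : IsUnit (algebraMap 𝒪 (Bn n) (2 * s)) := (h2.mul (IsUnit.of_mul_eq_one _ hs)).map _
    by_contra hn
    refine (mem_maximalIdeal _).mp ?_ hu
    rw [show algebraMap 𝒪 (Bn n) (2 * s) = (θ n c + c') -
        ((θ n c - algebraMap 𝒪 _ s) + (c' - algebraMap 𝒪 _ s)) by rw [map_mul, map_ofNat]; ring]
    exact sub_mem ((mem_maximalIdeal _).mpr hn) (add_mem hp hp')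
  refine sub_eq_zero.mp ((e2.mul_left_eq_zero).mp ?_)
  linear_combination e1

omit [IsDomain 𝒪] [HenselianRing P (maximalIdeal P)] in
/-- Near a sign `s`, `2 c + s (1 + q)` is a unit for `q ≡ 1`, being close to `4 s`. -/
private lemma isUnit_two_mul_add {half : 𝒪} (h : 2 * half = 1) {q : ℕ}
    (hq : (q : 𝒪) - 1 ∈ maximalIdeal 𝒪) {s : 𝒪} (hs : s * s = 1) {c : P}
    (hcs : c - algebraMap 𝒪 P s ∈ maximalIdeal P) :
    IsUnit (2 * c + algebraMap 𝒪 P (s * (1 + (q : 𝒪)))) := by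
  have h2u : IsUnit (2 : 𝒪) := IsUnit.of_mul_eq_one _ h
  by_contra hn
  have hu : IsUnit (algebraMap 𝒪 P (2 * 2 * s)) :=
    ((h2u.mul h2u).mul (IsUnit.of_mul_eq_one _ hs)).map _
  refine (mem_maximalIdeal _).mp ?_ hu
  have hqm : algebraMap 𝒪 P (s * ((q : 𝒪) - 1)) ∈ maximalIdeal _ :=
    map_nonunit (algebraMap 𝒪 P) _ (Ideal.mul_mem_left _ _ hq)
  rw [show algebraMap 𝒪 P (2 * 2 * s) = (2 * c + algebraMap 𝒪 _ (s * (1 + (q : 𝒪)))) -
      (2 * (c - algebraMap 𝒪 _ s) + algebraMap 𝒪 _ (s * ((q : 𝒪) - 1))) by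
    simp only [map_mul, map_add, map_sub, map_one, map_ofNat, map_natCast]; ring]
  exact sub_mem ((mem_maximalIdeal _).mpr hn) (add_mem (Ideal.mul_mem_left _ _ hcs) hqm)

omit [IsDomain 𝒪] in
/-- **Unipotent inertia along levels.** On the support, inertia is trivial or of Steinberg
type. -/
theorem nrCond_or_stCond_of_pairs {half : 𝒪} (h : 2 * half = 1) {q : ℕ}
    (hq : (q : 𝒪) - 1 ∈ maximalIdeal 𝒪)
    {s : 𝒪} (hs : s * s = 1) {b : Bool} {θ : ∀ n, P →ₐ[𝒪] Bn n}
    (hθ : ∀ n, IsLocalHom (θ n : P →+* Bn n))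
    {z : PairIdx → P} (hzm : ∀ i, z i ∈ maximalIdeal P)
    {A B : ∀ n, Matrix (Fin 2) (Fin 2) (Bn n)} (hz : IsPairCoord half b θ z A B)
    (hdA : ∀ n, (A n).det = algebraMap 𝒪 (Bn n) (q : 𝒪))
    (hA : ∀ n, (A n).trace - algebraMap 𝒪 (Bn n) (2 * s) ∈ maximalIdeal (Bn n))
    (hdB : ∀ n, (B n).det = 1) (htame : ∀ n, A n * B n = B n ^ q * A n) (N : ∀ n, Ideal (Bn n))
    (ht : ∀ n, (B n).trace - 2 ∈ N n) {Q : Ideal P} [Q.IsPrime]
    (hQ : ∀ x, (∀ n, θ n x ∈ N n) → x ∈ Q) :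
    (nrCond fun i => Ideal.Quotient.mk Q (z i)) ∨
      stCond b (s * ((q : 𝒪) - 1) * half) fun i => Ideal.Quotient.mk Q (z i) := by
  obtain ⟨c, hcs, hcn⟩ := exists_halfTrace h hq hs hθ hzm hz hdA hA
  set AP := ofVec c (fstV (shiftPair (siteOffset 𝒪 b) z)) with hAP
  set BP := ofVec 1 (sndV (shiftPair (siteOffset 𝒪 b) z)) with hBP
  have hhalf : ∀ (S : Type) [CommRing S] [Algebra 𝒪 S], 2 * algebraMap 𝒪 S half = 1 := by
    intro S _ _; rw [← map_ofNat (algebraMap 𝒪 S) 2, ← map_mul, h, map_one]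
  have himgA : ∀ n, AP.map (θ n) = A n := fun n => by
    rw [← RingHom.coe_coe, hAP, map_ofVec]
    conv_rhs => rw [← ofVec_matVec (hhalf _) (A n)]
    congr 1
    · exact hcn n
    · funext i; exact congrFun (hz n) (Sum.inl i)
  have himgB : ∀ n, BP.map ((Ideal.Quotient.mkₐ 𝒪 (N n)).comp (θ n)) =
      (B n).map (Ideal.Quotient.mkₐ 𝒪 (N n)) := fun n => by
    set πq := Ideal.Quotient.mkₐ 𝒪 (N n)
    have h2 : BP.map (πq.comp (θ n)) =
        (ofVec (algebraMap 𝒪 _ half * (B n).trace) (matVec (algebraMap 𝒪 _ half) (B n))).map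
          πq.toRingHom := by
      rw [show (BP.map (πq.comp (θ n))) = BP.map (πq.comp (θ n)).toRingHom from rfl, hBP, map_ofVec,
        map_ofVec]
      congr 1
      · have e : πq (B n).trace = 2 := by
          rw [← sub_eq_zero, ← map_ofNat πq 2, ← map_sub]
          exact Ideal.Quotient.eq_zero_iff_mem.mpr (ht n)
        simp only [map_mul, AlgHom.toRingHom_eq_coe, RingHom.coe_coe, e, map_one, AlgHom.commutes]
        rw [mul_comm]; exact (hhalf _).symm
      · funext i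
        exact congrArg πq (congrFun (hz n) (Sum.inr i))
    exact h2.trans (congrArg (fun X => X.map πq.toRingHom) (ofVec_matVec (hhalf _) (B n)))
  have key : ∀ x, (∀ n, (Ideal.Quotient.mkₐ 𝒪 (N n)) (θ n x) = 0) → x ∈ Q := fun x hx =>
    hQ x fun n => Ideal.Quotient.eq_zero_iff_mem.mp (hx n)
  have hpoly : AP.det - algebraMap 𝒪 _ (q : 𝒪) ∈ Q ∧ BP.det - 1 ∈ Q ∧
      ∀ i j, (AP * BP - BP ^ q * AP) i j ∈ Q := by
    refine ⟨key _ fun n => ?_, key _ fun n => ?_, fun i j => key _ fun n => ?_⟩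
    · rw [map_sub, AlgHom.map_det, AlgHom.commutes, AlgHom.mapMatrix_apply, himgA, hdA, sub_self,
        map_zero]
    · rw [← AlgHom.comp_apply, map_sub, map_one, AlgHom.map_det, AlgHom.mapMatrix_apply, himgB,
        ← AlgHom.mapMatrix_apply, ← AlgHom.map_det, hdB, map_one, sub_self]
    · set Φ := (Ideal.Quotient.mkₐ 𝒪 (N n)).comp (θ n)
      have hA' : Φ.mapMatrix AP = (Ideal.Quotient.mkₐ 𝒪 (N n)).mapMatrix (A n) := by
        rw [← himgA n]; ext a b; simp [Φ]
      have : Φ.mapMatrix (AP * BP - BP ^ q * AP) = 0 := by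
        rw [map_sub, map_mul, map_mul, map_pow, hA', AlgHom.mapMatrix_apply Φ BP, himgB,
          ← AlgHom.mapMatrix_apply, ← map_pow (Ideal.Quotient.mkₐ 𝒪 (N n)).mapMatrix,
          ← map_mul (Ideal.Quotient.mkₐ 𝒪 (N n)).mapMatrix,
          ← map_mul (Ideal.Quotient.mkₐ 𝒪 (N n)).mapMatrix, htame, sub_self]
      exact congrFun (congrFun this i) j
  set mk := Ideal.Quotient.mk Q
  have h2u : IsUnit (2 : 𝒪) := IsUnit.of_mul_eq_one _ h
  have hu1 : IsUnit (mk (2 * c + algebraMap 𝒪 _ (s * (1 + (q : 𝒪))))) :=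
    (isUnit_two_mul_add h hq hs hcs).map mk
  have hq0 : IsUnit (q : 𝒪) := by
    by_contra hn
    exact (mem_maximalIdeal _).mp
      (by simpa using sub_mem ((mem_maximalIdeal _).mpr hn) hq) (isUnit_one (M := 𝒪))
  have hq2 : IsUnit (1 + (q : 𝒪)) := by
    by_contra hn
    refine (mem_maximalIdeal _).mp ?_ h2u
    have := sub_mem ((mem_maximalIdeal _).mpr hn) hq
    rwa [show (2 : 𝒪) = 1 + (q : 𝒪) - ((q : 𝒪) - 1) by ring]
  refine Or.elim (pairEqn_of_unipotent (R := P ⧸ Q) (hhalf _) (q := q)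
    (s := algebraMap 𝒪 _ s) ?_ (by rw [← map_mul, hs, map_one]) ?_
    (A := AP.map mk) (B := BP.map mk) ?_ ?_ ?_ ?_ ?_) (fun hW => ?_) (fun hSt => ?_)
  rotate_left 7
  · refine Or.inl fun i => ?_
    have := hW i
    rw [hBP, map_ofVec, matVec_ofVec (hhalf _)] at this
    revert this
    cases b <;> simp [sndV, shiftPair, siteOffset, fstOne, mk]
  · refine Or.inr ⟨?_, fun i => ?_⟩
    · have := hSt.1
      rw [hAP, map_ofVec, matVec_ofVec (hhalf _)] at this
      simp only [map_mul, map_sub, map_natCast, map_one] at this ⊢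
      convert this using 2; funext k; simp [fstV, shiftPair, mk]
    · have := hSt.2 i
      rw [hAP, hBP, map_ofVec, map_ofVec, matVec_ofVec (hhalf _), matVec_ofVec (hhalf _)] at this
      simp only [map_mul, map_sub, map_natCast, map_one] at this ⊢
      convert this using 3 <;> rfl
  · rw [← map_natCast (algebraMap 𝒪 (P ⧸ Q))]
    exact (hq0.map _).ne_zero
  · rw [← map_natCast (algebraMap 𝒪 (P ⧸ Q)), ← map_one (algebraMap 𝒪 (P ⧸ Q)), ← map_add]
    exact (hq2.map _).ne_zero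
  · rw [← RingHom.mapMatrix_apply, ← RingHom.map_det, ← map_natCast mk]
    refine Ideal.Quotient.eq.mpr ?_
    simpa using hpoly.1
  · refine hu1.ne_zero.imp ?_
    rw [show (AP.map mk).trace = mk (2 * c) by
      simp [AP, ofVec, Matrix.trace_fin_two, map_ofNat]; ring]
    intro h0
    rw [map_add, ← h0]
    simp [mk, map_add, map_mul]
  · simp [BP, ofVec, Matrix.trace_fin_two]; ring
  · rw [← RingHom.mapMatrix_apply, ← RingHom.map_det, ← map_one mk]
    exact Ideal.Quotient.eq.mpr hpoly.2.1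
  · rw [← RingHom.mapMatrix_apply, ← RingHom.mapMatrix_apply, ← map_pow, ← map_mul, ← map_mul,
      ← sub_eq_zero, ← map_sub]
    ext i j
    exact Ideal.Quotient.eq_zero_iff_mem.mpr (hpoly.2.2 i j)

end FermatAgent.RT.Raise
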