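import Mathlib
import Fermat.Agent.RT.Raise.Morph
import Fermat.Agent.RT.Raise.Sites

/-!
# Forgetting coordinates which act trivially

At a level unramified at the unframed sites the two inertia coordinates act as zero, and the
eigenvalue is a free coordinate: the patched module is the pull back of one on fewer coordinates.
-/

set_option autoImplicit false

noncomputable section

open IsLocalRing FermatAgent.GaloisBasic

namespace FermatAgent.RT.Raise

variable {𝒪 : Type} [CommRing 𝒪] [IsDomain 𝒪] [IsDiscreteValuationRing 𝒪]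
  [IsAdicComplete (maximalIdeal 𝒪) 𝒪] [Finite (ResidueField 𝒪)]

omit [IsAdicComplete (maximalIdeal 𝒪) 𝒪] [Finite (ResidueField 𝒪)] in
/-- Maps from a power series ring into a finite ring are determined on the variables. -/
lemma algHom_ext_finite {κ : Type} [Finite κ] {T : Type} [Ring T] [Algebra 𝒪 T] [Finite T]
    {φ ψ : MvPowerSeries κ 𝒪 →ₐ[𝒪] T}
    (h : ∀ i, φ (MvPowerSeries.X i) = ψ (MvPowerSeries.X i)) : φ = ψ := by
  have := Fintype.ofFinite κ
  refine AlgHom.ext fun f => ?_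
  set N := Nat.card T
  have hf : f - ((f.truncTotal N : MvPolynomial κ 𝒪) : MvPowerSeries κ 𝒪) ∈
      maximalIdeal (MvPowerSeries κ 𝒪) ^ N :=
    sub_truncTotal_mem_pow _ _
  have h1 : ∀ χ : MvPowerSeries κ 𝒪 →ₐ[𝒪] T,
      χ f = χ ((f.truncTotal N : MvPolynomial κ 𝒪) : MvPowerSeries κ 𝒪) := fun χ =>
    sub_eq_zero.mp (by
      rw [← map_sub]
      exact RingHom.mem_ker.mp (pow_natCard_le_ker (χ : MvPowerSeries κ 𝒪 →+* T) hf))
  rw [h1 φ, h1 ψ]
  have h2 : φ.comp (MvPolynomial.coeToMvPowerSeries.algHom 𝒪) =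
      ψ.comp (MvPolynomial.coeToMvPowerSeries.algHom 𝒪) :=
    MvPolynomial.algHom_ext fun i => by simpa using h i
  simpa using AlgHom.congr_fun h2 (f.truncTotal N)

section Pullback

variable {t s : ℕ} {P : Type} [CommRing P] [Algebra 𝒪 P] [IsLocalRing P] [IsNoetherianRing P]
  [IsAdicComplete (maximalIdeal P) P] [Finite (ResidueField P)]
variable {P' : Type} [CommRing P'] [Algebra 𝒪 P'] [IsLocalRing P'] [IsNoetherianRing P']
  [IsAdicComplete (maximalIdeal P') P'] [Finite (ResidueField P')]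

/-- The action through a section of a retraction which every level respects. -/
def pullback (L : PatchLevels 𝒪 t s P) (j : P' →ₐ[𝒪] P) (pr : P →ₐ[𝒪] P')
    (h : ∀ n p, L.ρ n (j (pr p)) = L.ρ n p)
    (hpr : ∀ p ∈ maximalIdeal P, pr p ∈ maximalIdeal P') : PatchLevels 𝒪 t s P' where
  ρ n := (L.ρ n).comp j
  f n k := pr (L.f n k)
  f_mem n k := hpr _ (L.f_mem n k)
  ρ_f n k := by rw [AlgHom.comp_apply, h, L.ρ_f]

variable (L : PatchLevels 𝒪 t s P) (j : P' →ₐ[𝒪] P) (pr : P →ₐ[𝒪] P')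
  (h : ∀ n p, L.ρ n (j (pr p)) = L.ρ n p) (hpr : ∀ p ∈ maximalIdeal P, pr p ∈ maximalIdeal P')

omit [IsNoetherianRing P] [IsAdicComplete (maximalIdeal P) P] [Finite (ResidueField P)]
    [IsNoetherianRing P'] [IsAdicComplete (maximalIdeal P') P'] [Finite (ResidueField P')]

lemma rhoInf_pullback (x : P') : (pullback L j pr h hpr).rhoInf x = L.rhoInf (j x) := by
  rw [rhoInf_eq_mlim, rhoInf_eq_mlim]; rfl

/-- The kernel is pulled back along the retraction. -/
lemma kerInf_eq_comap :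
    L.kerInf = (pullback L j pr h hpr).kerInf.comap (pr : P →+* P') := by
  ext p
  rw [Ideal.mem_comap, PatchLevels.kerInf, PatchLevels.kerInf, RingHom.mem_ker, RingHom.mem_ker,
    RingHom.coe_coe, rhoInf_pullback, rhoInf_eq_mlim L p, rhoInf_eq_mlim L (j (pr p))]
  simp only [h]

variable {pr j}

omit [IsAdicComplete (maximalIdeal 𝒪) 𝒪] [Finite (ResidueField 𝒪)] in
/-- Pulling back preserves congruences. -/
lemma congrMod_pullback {L' : PatchLevels 𝒪 t s P} (h' : ∀ n p, L'.ρ n (j (pr p)) = L'.ρ n p)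
    {ϖ : 𝒪} (hc : L.CongrMod L' ϖ) :
    (pullback L j pr h hpr).CongrMod (pullback L' j pr h' hpr) ϖ :=
  fun n x i k => hc n (j x) i k

end Pullback

section Eval

variable {κ κ' : Type} [Fintype κ] [Fintype κ']

/-- The map of power series rings given by images of the variables without constant term. -/
def seriesMap (z : κ → MvPowerSeries κ' 𝒪)
    (hz : ∀ k, MvPowerSeries.constantCoeff (z k) ∈ maximalIdeal 𝒪) :
    MvPowerSeries κ 𝒪 →ₐ[𝒪] MvPowerSeries κ' 𝒪 :=
  evalAdic (maximalIdeal (MvPowerSeries κ' 𝒪)) z fun k =>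
    (mem_maximalIdeal_iff_constantCoeff _).mpr (hz k)

variable {z : κ → MvPowerSeries κ' 𝒪}
  {hz : ∀ k, MvPowerSeries.constantCoeff (z k) ∈ maximalIdeal 𝒪}

omit [Finite (ResidueField 𝒪)] in
/-- Substitution sends a variable to its series. -/
lemma seriesMap_X (k : κ) : seriesMap z hz (MvPowerSeries.X k) = z k := evalAdic_X _ _ _ k

omit [Finite (ResidueField 𝒪)] in
/-- Substitution preserves the maximal ideal. -/
lemma seriesMap_mem {f : MvPowerSeries κ 𝒪} (hf : f ∈ maximalIdeal (MvPowerSeries κ 𝒪)) :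
    seriesMap z hz f ∈ maximalIdeal (MvPowerSeries κ' 𝒪) := by
  have h1 := evalAdic_sub_constantCoeff_mem (R := 𝒪) (maximalIdeal (MvPowerSeries κ' 𝒪)) z
    (fun k => (mem_maximalIdeal_iff_constantCoeff _).mpr (hz k)) f
  have h2 : algebraMap 𝒪 (MvPowerSeries κ' 𝒪) (MvPowerSeries.constantCoeff f) ∈
      maximalIdeal (MvPowerSeries κ' 𝒪) := by
    rw [mem_maximalIdeal_iff_constantCoeff] at hf ⊢
    simpa [MvPowerSeries.algebraMap_apply] using hf
  simpa [seriesMap] using add_mem h1 h2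

omit [Finite (ResidueField 𝒪)] in
/-- The pull back of the prime of a point. -/
lemma comap_seriesMap_prime (a : Pt κ' 𝒪) (p : Pt κ 𝒪) (hp : ∀ k, a.hom (z k) = p.coords k) :
    a.prime.comap (seriesMap z hz : MvPowerSeries κ 𝒪 →+* MvPowerSeries κ' 𝒪) = p.prime := by
  ext f
  rw [Ideal.mem_comap, Pt.prime, Pt.prime, RingHom.mem_ker, RingHom.mem_ker, RingHom.coe_coe,
    seriesMap, Pt.hom_evalAdic a z _ p hp]

end Eval

section Base

variable {σ ν : Type} [Fintype σ] [Fintype ν] (g : ℕ)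

/-- The free coordinates are the old ones and the eigenvalues. -/
def freeEquiv (ν : Type) [Fintype ν] (g : ℕ) : Fin (g + Fintype.card ν) ≃ Fin g ⊕ ν :=
  finSumFinEquiv.symm.trans (Equiv.sumCongr (Equiv.refl _) (Fintype.equivFin ν).symm)

/-- The coordinates which remain. -/
def keptIdx : AllIdx σ (g + Fintype.card ν) → BigIdx σ ν g
  | ⟨none, j⟩ => Sum.elim (fun k => ⟨Sum.inl none, k⟩) (fun v => ⟨Sum.inr v, (0 : Fin 3)⟩)
      (freeEquiv ν g j)
  | ⟨some v, i⟩ => ⟨Sum.inl (some v), i⟩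

/-- The image of a coordinate among those which remain. -/
def forgetVar : BigIdx σ ν g → MvPowerSeries (AllIdx σ (g + Fintype.card ν)) 𝒪
  | ⟨Sum.inl none, k⟩ => MvPowerSeries.X ⟨none, (freeEquiv ν g).symm (Sum.inl k)⟩
  | ⟨Sum.inl (some v), i⟩ => MvPowerSeries.X ⟨some v, i⟩
  | ⟨Sum.inr v, i⟩ =>
      ![MvPowerSeries.X ⟨none, (freeEquiv ν g).symm (Sum.inr v)⟩, 0, 0] i

omit [Finite (ResidueField 𝒪)] [IsAdicComplete (maximalIdeal 𝒪) 𝒪] [Fintype σ] in
lemma forgetVar_mem (x : BigIdx σ ν g) :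
    MvPowerSeries.constantCoeff (forgetVar (𝒪 := 𝒪) g x) ∈ maximalIdeal 𝒪 := by
  rcases x with ⟨(_ | v) | v, i⟩
  · simp [forgetVar]
  · simp [forgetVar]
  · fin_cases i <;> simp [forgetVar]

/-- The inclusion. -/
def keepHom : MvPowerSeries (AllIdx σ (g + Fintype.card ν)) 𝒪 →ₐ[𝒪]
    MvPowerSeries (BigIdx σ ν g) 𝒪 :=
  seriesMap (fun x => MvPowerSeries.X (keptIdx g x)) fun x => by simp

/-- The retraction. -/
def forgetHom : MvPowerSeries (BigIdx σ ν g) 𝒪 →ₐ[𝒪]
    MvPowerSeries (AllIdx σ (g + Fintype.card ν)) 𝒪 :=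
  seriesMap (forgetVar g) (forgetVar_mem g)

variable {t s : ℕ}

/-- The inertia coordinates at the unframed sites act as zero. -/
def UnramifiedAtSites (L : PatchLevels 𝒪 t s (MvPowerSeries (BigIdx σ ν g) 𝒪)) : Prop :=
  ∀ n v, L.ρ n (MvPowerSeries.X ⟨Sum.inr v, (1 : Fin 3)⟩) = 0 ∧
    L.ρ n (MvPowerSeries.X ⟨Sum.inr v, (2 : Fin 3)⟩) = 0

variable {g} {L : PatchLevels 𝒪 t s (MvPowerSeries (BigIdx σ ν g) 𝒪)}

/-- At a level unramified at the sites the action factors through forgetting the inertia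
coordinates. -/
lemma UnramifiedAtSites.section_eq (h : UnramifiedAtSites g L) (n : ℕ)
    (p : MvPowerSeries (BigIdx σ ν g) 𝒪) : L.ρ n (keepHom g (forgetHom g p)) = L.ρ n p := by
  have := finite_quotient_maximalIdeal_pow (A := PatchBase 𝒪 t) n
  have : Finite (Matrix (Fin s) (Fin s) (PatchBase 𝒪 t ⧸ maximalIdeal (PatchBase 𝒪 t) ^ n)) :=
    inferInstanceAs (Finite (Fin s → Fin s → _))
  refine AlgHom.congr_fun (φ₁ := ((L.ρ n).comp (keepHom g)).comp (forgetHom g))
    (algHom_ext_finite fun x => ?_) p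
  simp only [AlgHom.comp_apply, forgetHom, seriesMap_X]
  rcases x with ⟨(_ | v) | v, i⟩
  · simp [forgetVar, keepHom, seriesMap_X, keptIdx]
  · simp [forgetVar, keepHom, seriesMap_X, keptIdx]
  · fin_cases i
    · simp [forgetVar, keepHom, seriesMap_X, keptIdx]
    · simpa [forgetVar] using (h n v).1.symm
    · simpa [forgetVar] using (h n v).2.symm

/-- The patched module on the coordinates which remain. -/
def forget (h : UnramifiedAtSites g L) :
    PatchLevels 𝒪 t s (MvPowerSeries (AllIdx σ (g + Fintype.card ν)) 𝒪) :=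
  pullback L (keepHom g) (forgetHom g) h.section_eq fun _ hp => seriesMap_mem hp

/-- The patched kernel is pulled back from the forgotten coordinates. -/
lemma kerInf_eq_forget (h : UnramifiedAtSites g L) :
    L.kerInf = (forget h).kerInf.comap
      ((forgetHom g : MvPowerSeries (BigIdx σ ν g) 𝒪 →ₐ[𝒪] _) :
        MvPowerSeries (BigIdx σ ν g) 𝒪 →+* _) :=
  kerInf_eq_comap L _ _ h.section_eq fun _ hp => seriesMap_mem hp

end Base

end FermatAgent.RT.Raise
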