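import Mathlib
import Fermat.Agent.RT.Support

/-!
# Primes of characteristic zero over the augmentation

A minimal prime of the patched kernel lies under a prime of characteristic zero of the base ring
in the support of the base module.
-/

set_option autoImplicit false

noncomputable section

open IsLocalRing

namespace FermatAgent.RT.Raise

variable {𝒪 : Type} [CommRing 𝒪] [IsDomain 𝒪] [IsDiscreteValuationRing 𝒪]
  [IsAdicComplete (maximalIdeal 𝒪) 𝒪] [Finite (ResidueField 𝒪)]
variable {t : ℕ} {P : Type} [CommRing P] [Algebra 𝒪 P] [IsLocalRing P] [IsNoetherianRing P]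
  [IsAdicComplete (maximalIdeal P) P] [Finite (ResidueField P)]
variable {R : Type} [CommRing R] [Algebra 𝒪 R] [IsLocalRing R] [IsNoetherianRing R]
  [IsAdicComplete (maximalIdeal R) R] [Finite (ResidueField R)]
variable {s : ℕ} {L : PatchLevels 𝒪 t s P}

/-- **A point of characteristic zero below a component.** -/
theorem exists_prime_over (B : PatchBaseData L R) {Q : Ideal P}
    (hQ : Q ∈ L.kerInf.minimalPrimes) :
    ∃ y : Ideal R, y.IsPrime ∧ RingHom.ker B.ρ₀ ≤ y ∧ (∀ p ∈ Q, B.thetaInf p ∈ y) ∧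
      ∀ a : 𝒪, a ≠ 0 → algebraMap 𝒪 R a ∉ y := by
  have := hQ.1.1
  obtain ⟨hfin, hinj⟩ := L.ev_injective_finite_of_minimalPrime hQ
  set f : PatchBase 𝒪 t →+* P ⧸ Q := ((Ideal.Quotient.mkₐ 𝒪 Q).comp L.ev).toRingHom
  let : Algebra (PatchBase 𝒪 t) (P ⧸ Q) := f.toAlgebra
  have : Module.Finite (PatchBase 𝒪 t) (P ⧸ Q) := hfin
  set 𝔭 := RingHom.ker (MvPowerSeries.constantCoeff (σ := Fin t) (R := 𝒪))
  have : 𝔭.IsPrime := RingHom.ker_isPrime _
  obtain ⟨𝔮, -, h𝔮, hcomap⟩ := Ideal.exists_ideal_over_prime_of_isIntegral 𝔭 (⊥ : Ideal (P ⧸ Q))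
    (fun e he => by
      rw [Ideal.mem_comap, Ideal.mem_bot] at he
      rw [show e = 0 from hinj (he.trans (map_zero f).symm)]
      exact Ideal.zero_mem _)
  set x : Ideal P := 𝔮.comap (Ideal.Quotient.mk Q) with hxdef
  have : x.IsPrime := Ideal.IsPrime.comap _
  have hQx : Q ≤ x := fun p hp => by
    rw [hxdef, Ideal.mem_comap, Ideal.Quotient.eq_zero_iff_mem.mpr hp]; exact Ideal.zero_mem _
  have hev : ∀ e, L.ev e ∈ x ↔ e ∈ 𝔭 := fun e => by
    rw [← hcomap]; rfl
  have hKx : L.kerInf ≤ x := hQ.1.2.trans hQx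
  have hker : RingHom.ker B.thetaInf ≤ x := fun h hh => by
    have he : ∀ i j, L.rhoInf h i j ∈ 𝔭 := fun i j => by
      rw [RingHom.mem_ker, B.constantCoeff_rhoInf, RingHom.mem_ker.mp hh, map_zero]; rfl
    refine ‹x.IsPrime›.mem_of_pow_mem s ((sup_le hKx ?_) (L.pow_mem_of_entries_mem he))
    exact Ideal.map_le_iff_le_comap.mpr fun e he => (hev e).mpr he
  have hcm : (x.map (B.thetaInf : P →+* R)).comap (B.thetaInf : P →+* R) = x := by
    rw [Ideal.comap_map_of_surjective' (B.thetaInf : P →+* R) B.thetaInf_surjective]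
    exact sup_eq_left.mpr hker
  have : (x.map (B.thetaInf : P →+* R)).IsPrime :=
    Ideal.map_isPrime_of_surjective B.thetaInf_surjective hker
  refine ⟨_, inferInstance, B.ker_le_of_kerInf_le (hcm.symm ▸ hKx),
    fun p hp => Ideal.mem_map_of_mem (B.thetaInf : P →+* R) (hQx hp), fun a ha hmem => ?_⟩
  rw [← B.thetaInf.commutes, ← RingHom.coe_coe, ← Ideal.mem_comap, hcm, ← L.ev.commutes,
    hev, RingHom.mem_ker, MvPowerSeries.algebraMap_apply, MvPowerSeries.constantCoeff_C] at hmem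
  exact ha (by simpa using hmem)

end FermatAgent.RT.Raise
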