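import Mathlib
import Fermat.Agent.RT.Raise.Pair
import Fermat.Agent.RT.Raise.LyingOver
import Fermat.Agent.RT.Raise.Sites

/-!
# One step of level raising

If a component is supported below and the cokernel of the degeneracy map is never unramified at
`q`, the component with `q` of Steinberg type is supported above.
-/

set_option autoImplicit false

noncomputable section

open IsLocalRing FermatAgent.GaloisBasic

namespace FermatAgent.RT.Raise

variable {𝒪 : Type} [CommRing 𝒪] [IsDomain 𝒪] [IsDiscreteValuationRing 𝒪]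
  [IsAdicComplete (maximalIdeal 𝒪) 𝒪] [Finite (ResidueField 𝒪)]
variable {ϖ : 𝒪} (hϖ : maximalIdeal 𝒪 = Ideal.span {ϖ})
variable {σ ν : Type} [Fintype σ] [Fintype ν] (g : ℕ) (res : σ → Bool) (τ₀ : σ → 𝒪)
  (cs : ν → Bool → 𝒪)
variable (h2 : IsUnit (2 : 𝒪)) {J : 𝒪} (hJ : J ^ 2 = -1)
  (hτ₀m : ∀ v, τ₀ v ∈ maximalIdeal 𝒪) (hτ₀ : ∀ v, τ₀ v ≠ 0)
  (hcs : ∀ v b, cs v b ∈ maximalIdeal 𝒪)

/-- The power series ring of all coordinates. -/
abbrev BigRing (𝒪 σ ν : Type) [CommRing 𝒪] (g : ℕ) : Type := MvPowerSeries (BigIdx σ ν g) 𝒪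

/-- The coordinate classes in a quotient. -/
abbrev quotCoord (Q : Ideal (BigRing 𝒪 σ ν g)) : BigIdx σ ν g → BigRing 𝒪 σ ν g ⧸ Q :=
  fun i => Ideal.Quotient.mk Q (MvPowerSeries.X i)

/-- Every prime of the support has one of the local types at each site. -/
def HasTypes {t s : ℕ} (L : PatchLevels 𝒪 t s (BigRing 𝒪 σ ν g)) : Prop :=
  ∀ Q : Ideal (BigRing 𝒪 σ ν g), Q.IsPrime → L.kerInf ≤ Q →
    ∃ (st : σ → Bool) (T : ν → SiteType), BigCond g res st τ₀ cs T (quotCoord g Q)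

include hϖ h2 hJ hτ₀m hτ₀ hcs

/-- A minimal prime with the equations of a component is the component. -/
theorem minimal_eq_prime {s : ℕ} {st : σ → Bool} {T : ν → SiteType}
    (L : PatchLevels 𝒪 (g + Fintype.card ν + 3 * Fintype.card σ) s (BigRing 𝒪 σ ν g))
    {Q : Ideal (BigRing 𝒪 σ ν g)} (hQ : Q ∈ L.kerInf.minimalPrimes)
    (hc : BigCond g res st τ₀ cs T (quotCoord g Q)) :
    Q = (bigComp hϖ g res st τ₀ cs T h2 hJ hτ₀m hτ₀ hcs).prime := by
  have := hQ.1.1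
  refine ComponentData.eq_prime_of_dim _
    (sysIdeal_le_of_isSol_quotient _
      ((isSol_bigRel_iff hϖ g res st τ₀ cs T h2 hJ hτ₀m hτ₀ hcs _).mpr hc)) ?_
  rw [bigN_eq]
  exact L.le_ringKrullDim_quotient_minimalPrime hQ

omit [Finite (ResidueField 𝒪)] in
/-- The equations of a prime hold at the points above it. -/
theorem bigCond_of_le {st : σ → Bool} {T : ν → SiteType} {Q : Ideal (BigRing 𝒪 σ ν g)}
    (hc : BigCond g res st τ₀ cs T (quotCoord g Q)) {p : Pt (BigIdx σ ν g) 𝒪} (hle : Q ≤ p.prime) :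
    BigCond g res st τ₀ cs T p.coords :=
  (isSol_bigRel_iff hϖ g res st τ₀ cs T h2 hJ hτ₀m hτ₀ hcs _).mp
    (isSol_of_sysIdeal_le _ ((sysIdeal_le_of_isSol_quotient _
      ((isSol_bigRel_iff hϖ g res st τ₀ cs T h2 hJ hτ₀m hτ₀ hcs _).mpr hc)).trans hle))

omit h2 hJ hτ₀ hcs hτ₀m hϖ in
/-- The coordinates of a general point of a component. -/
def genCoord (ϖ : 𝒪) (st : σ → Bool) (T : ν → SiteType) (a : ν → 𝒪) : BigIdx σ ν g → 𝒪
  | ⟨Sum.inl none, _⟩ => 0
  | ⟨Sum.inl (some v), i⟩ =>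
      bif st v then Sum.elim ![τ₀ v, 0, 0] ![0, ϖ, 0] i else 0
  | ⟨Sum.inr v, i⟩ =>
      match T v with
      | none => ![a v, 0, 0] i
      | some true => ![cs v true, ϖ, 0] i
      | some false => ![cs v false, 0, ϖ] i

section

omit h2 hJ [IsAdicComplete (maximalIdeal 𝒪) 𝒪] [Finite (ResidueField 𝒪)] [Fintype σ] [Fintype ν]

omit hτ₀ in
/-- The coordinates of a general point of a component lie in the maximal ideal. -/
lemma genCoord_mem {st : σ → Bool} {T : ν → SiteType} {a : ν → 𝒪}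
    (ha : ∀ v, a v ∈ maximalIdeal 𝒪) (x : BigIdx σ ν g) :
    genCoord g τ₀ cs ϖ st T a x ∈ maximalIdeal 𝒪 := by
  have hw : ϖ ∈ maximalIdeal 𝒪 := hϖ ▸ Ideal.subset_span rfl
  rcases x with ⟨(_ | v) | v, i⟩
  · exact Ideal.zero_mem _
  · simp only [genCoord]
    cases st v
    · exact Ideal.zero_mem _
    · rcases i with i | i <;> fin_cases i <;> simp [-mem_maximalIdeal, hw, hτ₀m]
  · simp only [genCoord]
    rcases T v with _ | _ | _ <;> fin_cases i <;> simp [-mem_maximalIdeal, hw, ha, hcs]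

omit hτ₀m hτ₀ hcs hϖ [IsDomain 𝒪] [IsDiscreteValuationRing 𝒪] in
/-- The general point satisfies the conditions of its component. -/
lemma genCoord_bigCond (ϖ : 𝒪) (st : σ → Bool) (T : ν → SiteType) (a : ν → 𝒪) :
    BigCond g res st τ₀ cs T (genCoord g τ₀ cs ϖ st T a) := by
  refine ⟨fun v => ?_, fun v => ?_⟩
  · cases hst : st v
    · simp [genCoord, hst, nrCond]
    · simp only [genCoord, hst, cond_true, if_true, stCond]
      cases res v <;> refine ⟨?_, forall_three ?_ ?_ ?_⟩ <;>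
        simp [qForm, brk, fstV, sndV, shiftPair, siteOffset, fstOne] <;> ring
  · rcases hT : T v with _ | _ | _ <;> simp [genCoord, hT, typeCond]

omit hτ₀m hcs in
/-- A component is determined by a general point on it. -/
lemma type_eq_of_genCoord {st st' : σ → Bool} {T T' : ν → SiteType} {a : ν → 𝒪}
    (h : BigCond g res st' τ₀ cs T' (genCoord g τ₀ cs ϖ st T a)) :
    st' = st ∧ ∀ v, (T v = none → ∀ b, T' v = some b → a v = cs v b) ∧
      (∀ b, T v = some b → T' v = some b) := by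
  have hw : ϖ ≠ 0 := ne_zero_uniformizer hϖ
  refine ⟨funext fun v => ?_, fun v => ⟨fun hv b hb => ?_, fun b hv => ?_⟩⟩
  · have h1 := h.1 v
    cases hst : st v <;> cases hst' : st' v <;> simp only [hst', genCoord, hst] at h1 ⊢
    · simp only [if_true, stCond, cond_false] at h1
      have h3 := h1.1
      revert h3
      cases res v <;>
        simp [qForm, fstV, shiftPair, siteOffset, fstOne, hτ₀, eq_comm (a := (0 : 𝒪))]
    · simp only [nrCond, cond_true, Bool.false_eq_true, if_false] at h1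
      exact absurd (by simpa using h1 1) hw
  · have h1 := h.2 v
    simp only [hb, genCoord, hv] at h1
    cases b <;> simpa [typeCond] using h1.1
  · have h1 := h.2 v
    rcases hT' : T' v with _ | b'
    · simp only [hT', genCoord, hv] at h1
      cases b <;> simp [typeCond, hw] at h1
    · cases b <;> cases b' <;> first
        | rfl
        | (simp only [hT', genCoord, hv] at h1; simp [typeCond, hw] at h1)

omit hτ₀m hτ₀ hcs in
/-- A value different from the two constants. -/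
lemma exists_avoid (v : ν) : ∃ a ∈ maximalIdeal 𝒪, ∀ b', a ≠ cs v b' := by
  have hw : ϖ ∈ maximalIdeal 𝒪 := hϖ ▸ Ideal.subset_span rfl
  have hw0 : ϖ ≠ 0 := ne_zero_uniformizer hϖ
  by_contra hcon
  push Not at hcon
  obtain ⟨b₀, e₀⟩ := hcon 0 (Ideal.zero_mem _)
  obtain ⟨b₁, e₁⟩ := hcon ϖ hw
  obtain ⟨b₂, e₂⟩ := hcon (ϖ * ϖ) (Ideal.mul_mem_left _ _ hw)
  have h01 : b₀ ≠ b₁ := fun e => hw0 (e₁.trans ((congrArg (cs v) e.symm).trans e₀.symm))
  have h02 : b₀ ≠ b₂ := fun e =>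
    mul_ne_zero hw0 hw0 (e₂.trans ((congrArg (cs v) e.symm).trans e₀.symm))
  have h12 : b₁ = b₂ := by cases b₀ <;> cases b₁ <;> cases b₂ <;> simp_all
  have hu : ϖ * 1 = ϖ * ϖ := by rw [mul_one]; exact e₁.trans ((congrArg (cs v) h12).trans e₂.symm)
  exact (mem_maximalIdeal _).mp hw (mul_left_cancel₀ hw0 hu ▸ isUnit_one)

end

/-- **One step of raising.** -/
theorem kerInf_le_raised [DecidableEq ν] {s₁ s₂ sK : ℕ}
    {L₁ : PatchLevels 𝒪 (g + Fintype.card ν + 3 * Fintype.card σ) s₁ (BigRing 𝒪 σ ν g)}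
    {L₂ : PatchLevels 𝒪 (g + Fintype.card ν + 3 * Fintype.card σ) s₂ (BigRing 𝒪 σ ν g)}
    {LK : PatchLevels 𝒪 (g + Fintype.card ν + 3 * Fintype.card σ) sK (BigRing 𝒪 σ ν g)}
    {τ : BigRing 𝒪 σ ν g} (D : LevelSplit L₁ L₂ LK τ) (hK : HasTypes g res τ₀ cs LK)
    (hdist : ∀ v, cs v true ≠ cs v false)
    {st : σ → Bool} {T : ν → SiteType} (q : ν) (hTq : T q = none) (b : Bool)
    (hL₁ : L₁.kerInf ≤ (bigComp hϖ g res st τ₀ cs T h2 hJ hτ₀m hτ₀ hcs).prime)
    (hτ : ∀ p : Pt (BigIdx σ ν g) 𝒪, p.coords ⟨Sum.inr q, 0⟩ = cs q b →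
      p.coords ⟨Sum.inr q, 1⟩ = 0 → p.coords ⟨Sum.inr q, 2⟩ = 0 → τ ∈ p.prime)
    (hnot : ∀ Q ∈ LK.kerInf.minimalPrimes, L₁.kerInf ≤ Q →
      ¬ (MvPowerSeries.X ⟨Sum.inr q, (1 : Fin 3)⟩ ∈ Q ∧
          MvPowerSeries.X ⟨Sum.inr q, (2 : Fin 3)⟩ ∈ Q)) :
    L₂.kerInf ≤
      (bigComp hϖ g res st τ₀ cs (Function.update T q (some b)) h2 hJ hτ₀m hτ₀ hcs).prime := by
  classical
  have hw : ϖ ∈ maximalIdeal 𝒪 := hϖ ▸ Ideal.subset_span rfl
  have hw0 : ϖ ≠ 0 := ne_zero_uniformizer hϖ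
  have hex : ∀ v, ∃ a ∈ maximalIdeal 𝒪, ∀ b', a ≠ cs v b' := exists_avoid hϖ cs
  choose a₀ ha₀ hane using hex
  let a : ν → 𝒪 := Function.update a₀ q (cs q b)
  have ha : ∀ v, a v ∈ maximalIdeal 𝒪 := fun v => by
    by_cases hv : v = q
    · subst hv; simpa [a, -mem_maximalIdeal] using hcs v b
    · simpa [a, hv, -mem_maximalIdeal] using ha₀ v
  let x : Pt (BigIdx σ ν g) 𝒪 :=
    ⟨genCoord g τ₀ cs ϖ st T a, genCoord_mem hϖ g τ₀ cs hτ₀m hcs ha⟩
  have : x.prime.IsPrime := RingHom.ker_isPrime _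
  have h1 : L₁.kerInf ≤ x.prime :=
    hL₁.trans (bigComp_le_pt hϖ g res st τ₀ cs T h2 hJ hτ₀m hτ₀ hcs
      (genCoord_bigCond g res τ₀ cs ϖ st T a))
  obtain ⟨Q, hQ, hQx⟩ := Ideal.exists_minimalPrimes_le (D.kerInf_le_prime h1
    (hτ x (by simp [x, genCoord, hTq, a]) (by simp [x, genCoord, hTq])
      (by simp [x, genCoord, hTq])))
  have := hQ.1.1
  obtain ⟨st', T', hc⟩ := hK Q inferInstance hQ.1.2
  obtain ⟨hst, hT⟩ := type_eq_of_genCoord hϖ g res τ₀ cs hτ₀
    (bigCond_of_le hϖ g res τ₀ cs h2 hJ hτ₀m hτ₀ hcs hc hQx)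
  have hoff : ∀ v, v ≠ q → T' v = T v := fun v hv => by
    rcases hTv : T v with _ | b'
    · rcases hb : T' v with _ | b'
      · rfl
      · exact absurd ((hT v).1 hTv b' hb) (by simpa [a, hv] using hane v b')
    · exact (hT v).2 b' hTv
  have hT' : T' = Function.update T q (some b) := by
    funext v
    by_cases hv : v = q
    · subst hv
      rw [Function.update_self]
      rcases hb : T' v with _ | b'
      · have h3 := hc.2 v
        rw [hb] at h3
        have hTT : T' = T := funext fun w => by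
          by_cases hw : w = v
          · subst hw; rw [hb, hTq]
          · exact hoff w hw
        have hL₁Q : L₁.kerInf ≤ Q := by
          rw [minimal_eq_prime hϖ g res τ₀ cs h2 hJ hτ₀m hτ₀ hcs LK hQ (hst ▸ hTT ▸ hc)]
          exact hL₁
        exact absurd ⟨Ideal.Quotient.eq_zero_iff_mem.mp h3.1,
            Ideal.Quotient.eq_zero_iff_mem.mp h3.2⟩
          (hnot Q hQ hL₁Q)
      · have h4 := (hT v).1 hTq b' hb
        simp only [a, Function.update_self] at h4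
        cases b <;> cases b' <;> first
          | rfl
          | exact absurd h4 (hdist v)
          | exact absurd h4.symm (hdist v)
    · rw [Function.update_of_ne hv]
      exact hoff v hv
  rw [hst, hT'] at hc
  rw [← minimal_eq_prime hϖ g res τ₀ cs h2 hJ hτ₀m hτ₀ hcs LK hQ hc]
  exact D.kerInf_le.trans hQ.1.2

/-- A minimal prime containing the pinned coordinate of a site is not of unramified type there. -/
theorem not_unramified_of_pinned {s : ℕ}
    (LK : PatchLevels 𝒪 (g + Fintype.card ν + 3 * Fintype.card σ) s (BigRing 𝒪 σ ν g))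
    {Q : Ideal (BigRing 𝒪 σ ν g)}
    (hQ : Q ∈ LK.kerInf.minimalPrimes) {st : σ → Bool} {T : ν → SiteType}
    (hc : BigCond g res st τ₀ cs T (quotCoord g Q)) (q : ν) (h0 : cs q true = 0)
    (ha : MvPowerSeries.X ⟨Sum.inr q, (0 : Fin 3)⟩ ∈ Q) :
    ¬ (MvPowerSeries.X ⟨Sum.inr q, (1 : Fin 3)⟩ ∈ Q ∧
      MvPowerSeries.X ⟨Sum.inr q, (2 : Fin 3)⟩ ∈ Q) := by
  classical
  rintro ⟨hx, hy⟩
  choose a ham hane using fun v => exists_avoid hϖ cs v
  -- the component also has the unramified type at the site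
  have hc' : BigCond g res st τ₀ cs (Function.update T q none) (quotCoord g Q) := by
    refine ⟨hc.1, fun v => ?_⟩
    by_cases hv : v = q
    · subst hv
      rw [Function.update_self]
      exact ⟨Ideal.Quotient.eq_zero_iff_mem.mpr hx, Ideal.Quotient.eq_zero_iff_mem.mpr hy⟩
    · rw [Function.update_of_ne hv]; exact hc.2 v
  let p : Pt (BigIdx σ ν g) 𝒪 := ⟨genCoord g τ₀ cs ϖ st (Function.update T q none) a,
    genCoord_mem hϖ g τ₀ cs hτ₀m hcs ham⟩
  have hp := bigComp_le_pt hϖ g res st τ₀ cs (Function.update T q none) h2 hJ hτ₀m hτ₀ hcs (p := p)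
    (genCoord_bigCond g res τ₀ cs ϖ st (Function.update T q none) a)
  rw [← minimal_eq_prime hϖ g res τ₀ cs h2 hJ hτ₀m hτ₀ hcs LK hQ hc'] at hp
  have h := hp ha
  simp [Pt.prime, Pt.hom, p, genCoord] at h
  exact hane q true (h.trans h0.symm)

omit hϖ h2 hJ hτ₀m hτ₀ hcs in
/-- The exclusion of the unramified type from a statement about the base level. -/
theorem not_unramified {t s : ℕ} {LK : PatchLevels 𝒪 t s (BigRing 𝒪 σ ν g)}
    {R : Type} [CommRing R] [Algebra 𝒪 R] [IsLocalRing R] [IsNoetherianRing R]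
    [IsAdicComplete (maximalIdeal R) R] [Finite (ResidueField R)]
    (B : PatchBaseData LK R) (q : ν)
    {Q : Ideal (BigRing 𝒪 σ ν g)}
    (hbase : ∀ y : Ideal R, y.IsPrime → RingHom.ker B.ρ₀ ≤ y →
      (∀ p ∈ Q, B.thetaInf p ∈ y) → (∀ a : 𝒪, a ≠ 0 → algebraMap 𝒪 R a ∉ y) →
      ¬ (B.thetaInf (MvPowerSeries.X ⟨Sum.inr q, (1 : Fin 3)⟩) ∈ y ∧
        B.thetaInf (MvPowerSeries.X ⟨Sum.inr q, (2 : Fin 3)⟩) ∈ y))
    (hQ : Q ∈ LK.kerInf.minimalPrimes) :
    ¬ (MvPowerSeries.X ⟨Sum.inr q, (1 : Fin 3)⟩ ∈ Q ∧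
      MvPowerSeries.X ⟨Sum.inr q, (2 : Fin 3)⟩ ∈ Q) := fun h => by
  obtain ⟨y, hy, hρ, hQy, hO⟩ := exists_prime_over B hQ
  exact hbase y hy hρ hQy hO ⟨hQy _ h.1, hQy _ h.2⟩

end FermatAgent.RT.Raise
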