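import Mathlib
import Fermat.Agent.RT.Levels
import Fermat.Agent.RT.Raise.Reindex
import Fermat.Agent.RT.Raise.Step

/-!
# The base of the induction

At the level unramified at the unframed sites every component of mixed type with no raised site
is supported, given a congruent family with distinct characters at the framed sites.
-/

set_option autoImplicit false

noncomputable section

open IsLocalRing FermatAgent.GaloisBasic

namespace FermatAgent.RT.Raise

section Map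

variable {𝒪 : Type} [CommRing 𝒪] {A B : Type} [CommRing A] [Algebra 𝒪 A] [CommRing B]
  [Algebra 𝒪 B]

/-- The Steinberg equations pass along algebra maps. -/
lemma stCond_map {b : Bool} {t : 𝒪} {z : PairIdx → A} (h : stCond b t z) (φ : A →ₐ[𝒪] B) :
    stCond b t fun i => φ (z i) := by
  have hs : shiftPair (siteOffset 𝒪 b) (fun i => φ (z i)) =
      fun i => φ (shiftPair (siteOffset 𝒪 b) z i) := by
    funext i; simp [shiftPair]
  refine ⟨?_, fun i => ?_⟩
  · have := congrArg φ h.1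
    simpa [hs, qForm, fstV] using this
  · have := congrArg φ.toRingHom (h.2 i)
    rw [map_brk] at this
    rw [hs]
    refine this.trans ?_
    simp [sndV, map_ofNat]

lemma nrCond_map {z : PairIdx → A} (h : nrCond z) (φ : A →ₐ[𝒪] B) :
    nrCond fun i => φ (z i) := fun i => by simp [h i]

end Map

variable {𝒪 : Type} [CommRing 𝒪] [IsDomain 𝒪] [IsDiscreteValuationRing 𝒪]
  [IsAdicComplete (maximalIdeal 𝒪) 𝒪] [Finite (ResidueField 𝒪)]
variable {σ ν : Type} [Fintype σ] [Fintype ν] {g : ℕ} {t s : ℕ}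

omit [Fintype σ] [Fintype ν] in
/-- At a level unramified at the sites the two inertia coordinates die in the patched action. -/
lemma UnramifiedAtSites.mem {L : PatchLevels 𝒪 t s (BigRing 𝒪 σ ν g)}
    (h : UnramifiedAtSites g L) (v : ν) :
    MvPowerSeries.X ⟨Sum.inr v, (1 : Fin 3)⟩ ∈ L.kerInf ∧
      MvPowerSeries.X ⟨Sum.inr v, (2 : Fin 3)⟩ ∈ L.kerInf :=
  ⟨L.mem_kerInf_of_forall fun n => (h n v).1, L.mem_kerInf_of_forall fun n => (h n v).2⟩

omit [Fintype σ] [Fintype ν] in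
/-- The types at a level unramified at the unframed sites. -/
theorem hasTypes_of_unramified {res : σ → Bool} {τ₀ : σ → 𝒪} {cs : ν → Bool → 𝒪}
    {L : PatchLevels 𝒪 t s (BigRing 𝒪 σ ν g)} (h : UnramifiedAtSites g L)
    (h1 : ∀ Q : Ideal (BigRing 𝒪 σ ν g), Q.IsPrime → L.kerInf ≤ Q → ∀ v,
      nrCond (fun i => quotCoord g Q ⟨Sum.inl (some v), i⟩) ∨
        stCond (res v) (τ₀ v) fun i => quotCoord g Q ⟨Sum.inl (some v), i⟩) :
    HasTypes g res τ₀ cs L := fun Q hQ hle => by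
  classical
  refine ⟨fun v => decide (stCond (res v) (τ₀ v) fun i => quotCoord g Q ⟨Sum.inl (some v), i⟩),
    fun _ => none, fun v => ?_, fun v => ⟨?_, ?_⟩⟩
  · by_cases hv : stCond (res v) (τ₀ v) fun i => quotCoord g Q ⟨Sum.inl (some v), i⟩
    · rw [if_pos (by simpa using hv)]; exact hv
    · rw [if_neg (by simpa using hv)]
      exact (h1 Q hQ hle v).resolve_right hv
  · exact Ideal.Quotient.eq_zero_iff_mem.mpr (hle (h.mem v).1)
  · exact Ideal.Quotient.eq_zero_iff_mem.mpr (hle (h.mem v).2)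

variable {ϖ : 𝒪} (hϖ : maximalIdeal 𝒪 = Ideal.span {ϖ}) (res : σ → Bool) (τ₀ : σ → 𝒪)
  (cs : ν → Bool → 𝒪)
variable (h2 : IsUnit (2 : 𝒪)) {J : 𝒪} (hJ : J ^ 2 = -1)
  (hτ₀m : ∀ v, τ₀ v ∈ maximalIdeal 𝒪) (hτ₀ : ∀ v, τ₀ v ≠ 0)
  (hcs : ∀ v b, cs v b ∈ maximalIdeal 𝒪)

include hϖ h2 hJ hτ₀m hτ₀ hcs

/-- **The base of the induction.** -/
theorem kerInf_le_base {τ : 𝒪} (hτ : τ ≠ 0) {r : 𝒪} (hr : r ∈ maximalIdeal 𝒪) (hr2 : r ^ 2 = τ)
    (hs : 0 < s)
    {L Lχ : PatchLevels 𝒪 (g + Fintype.card ν + 3 * Fintype.card σ) s (BigRing 𝒪 σ ν g)}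
    (hu : UnramifiedAtSites g L) (huχ : UnramifiedAtSites g Lχ) (hcongr : L.CongrMod Lχ ϖ)
    (hχ : ∀ v, chiCond τ (res v) fun i => quotCoord g Lχ.kerInf ⟨Sum.inl (some v), i⟩)
    (h1 : ∀ Q : Ideal (BigRing 𝒪 σ ν g), Q.IsPrime → L.kerInf ≤ Q → ∀ v,
      nrCond (fun i => quotCoord g Q ⟨Sum.inl (some v), i⟩) ∨
        stCond (res v) (τ₀ v) fun i => quotCoord g Q ⟨Sum.inl (some v), i⟩)
    (st : σ → Bool) :
    L.kerInf ≤
      (bigComp hϖ g res st τ₀ cs (fun _ => none) h2 hJ hτ₀m hτ₀ hcs).prime := by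
  classical
  set F := (forgetHom g : BigRing 𝒪 σ ν g →ₐ[𝒪]
    MvPowerSeries (AllIdx σ (g + Fintype.card ν)) 𝒪) with hF
  have hFX : ∀ v i, F (MvPowerSeries.X ⟨Sum.inl (some v), i⟩) =
      MvPowerSeries.X ⟨some v, i⟩ := fun v i => seriesMap_X _
  let L' := forget hu
  let Lχ' := forget huχ
  let q : ∀ (I : Ideal (MvPowerSeries (AllIdx σ (g + Fintype.card ν)) 𝒪)),
      (BigRing 𝒪 σ ν g ⧸ I.comap (F : BigRing 𝒪 σ ν g →+* _)) →ₐ[𝒪] _ ⧸ I := fun I =>
    Ideal.quotientMapₐ I F le_rfl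
  have hq : ∀ I v i, q I (quotCoord g _ ⟨Sum.inl (some v), i⟩) =
      Ideal.Quotient.mk I (MvPowerSeries.X ⟨some v, i⟩) := fun I v i =>
    congrArg (Ideal.Quotient.mk I) (hFX v i)
  have hχ' : ∀ v, chiCond τ (res v) fun i =>
      Ideal.Quotient.mk Lχ'.kerInf (MvPowerSeries.X ⟨some v, i⟩) := fun v => by
    have h := hχ v
    rw [kerInf_eq_forget huχ] at h
    exact Eq.mp (congrArg (chiCond τ (res v)) (funext (hq _ v))) (h.map (q Lχ'.kerInf))
  have h1' : ∀ Q : Ideal (MvPowerSeries (AllIdx σ (g + Fintype.card ν)) 𝒪), Q.IsPrime →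
      L'.kerInf ≤ Q → ∀ v,
      nrCond (fun i => Ideal.Quotient.mk Q (MvPowerSeries.X ⟨some v, i⟩)) ∨
        stCond (res v) (τ₀ v) fun i => Ideal.Quotient.mk Q (MvPowerSeries.X ⟨some v, i⟩) := by
    intro Q hQ hle v
    rcases h1 _ (Ideal.IsPrime.comap _) ((kerInf_eq_forget hu).trans_le (Ideal.comap_mono hle)) v
      with h | h
    · exact Or.inl (Eq.mp (congrArg nrCond (funext (hq _ v))) (nrCond_map h (q Q)))
    · exact Or.inr (Eq.mp (congrArg (stCond (res v) (τ₀ v)) (funext (hq _ v))) (stCond_map h (q Q)))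
  -- a general point without raised site
  have hex : ∀ v, ∃ a ∈ maximalIdeal 𝒪, ∀ b', a ≠ cs v b' := exists_avoid hϖ cs
  choose a ha hane using hex
  let y : Pt (BigIdx σ ν g) 𝒪 :=
    ⟨genCoord g τ₀ cs ϖ st (fun _ => none) a, genCoord_mem hϖ g τ₀ cs hτ₀m hcs ha⟩
  let x : Pt (AllIdx σ (g + Fintype.card ν)) 𝒪 :=
    ⟨fun i => y.coords (keptIdx g i), fun i => y.mem _⟩
  have hy := genCoord_bigCond g res τ₀ cs ϖ st (fun _ => none) a
  have hx : L'.kerInf ≤ x.prime :=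
    kerInf_le_prime_of_congr res st hϖ h2 hJ hτ hr hr2 τ₀ hτ₀m hτ₀ hs L' Lχ'
      (congrMod_pullback L _ (fun _ hp => seriesMap_mem hp) huχ.section_eq hcongr) hχ' h1' x
      fun v => hy.1 v
  have hyx : L.kerInf ≤ y.prime := by
    rw [kerInf_eq_forget hu, ← comap_seriesMap_prime x y]
    · exact Ideal.comap_mono hx
    · intro k
      rcases k with ⟨(_ | v) | v, i⟩
      · simp [forgetVar, Pt.hom, x, keptIdx]
      · simp [forgetVar, Pt.hom, x, keptIdx]
      · fin_cases i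
        · simp [forgetVar, Pt.hom, x, keptIdx]
        · simp [forgetVar, y, genCoord]
        · simp [forgetVar, y, genCoord]
  obtain ⟨Q, hQ, hQy⟩ := Ideal.exists_minimalPrimes_le hyx
  have := hQ.1.1
  obtain ⟨st', T', hc⟩ := hasTypes_of_unramified (cs := cs) hu h1 Q inferInstance hQ.1.2
  have hcy : BigCond g res st' τ₀ cs T' (genCoord g τ₀ cs ϖ st (fun _ => none) a) :=
    bigCond_of_le hϖ g res τ₀ cs h2 hJ hτ₀m hτ₀ hcs hc hQy
  obtain ⟨hst, hT⟩ := type_eq_of_genCoord hϖ g res τ₀ cs hτ₀ hcy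
  have hT' : T' = fun _ => none := funext fun v => by
    rcases hv : T' v with _ | b
    · rfl
    · exact absurd ((hT v).1 rfl b hv) (hane v b)
  rw [hst, hT'] at hc
  rw [← minimal_eq_prime hϖ g res τ₀ cs h2 hJ hτ₀m hτ₀ hcs L hQ hc]
  exact hQ.1.2

end FermatAgent.RT.Raise
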