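import Mathlib
import Fermat.Agent.RT.Raise.Base

/-!
# Raising at a set of sites

The induction over the raised sites, and its consequence at the base level.
-/

set_option autoImplicit false

noncomputable section

open IsLocalRing FermatAgent.GaloisBasic

namespace FermatAgent.RT.Raise

variable {𝒪 : Type} [CommRing 𝒪] [IsDomain 𝒪] [IsDiscreteValuationRing 𝒪]
  [IsAdicComplete (maximalIdeal 𝒪) 𝒪] [Finite (ResidueField 𝒪)]
variable {σ ν : Type} [Fintype σ] [Fintype ν] {g : ℕ}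

/-- The types after raising at the sites in `A` with the prescribed signs. -/
def raisedType [DecidableEq ν] (sgn : ν → Bool) (A : Finset ν) : ν → SiteType :=
  fun v => if v ∈ A then some (sgn v) else none

omit [Fintype ν] in
lemma raisedType_insert [DecidableEq ν] (sgn : ν → Bool) {A : Finset ν} (q : ν) :
    raisedType sgn (insert q A) = Function.update (raisedType sgn A) q (some (sgn q)) := by
  funext v
  by_cases hv : v = q
  · subst hv; simp [raisedType]
  · simp [raisedType, hv]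

/-- The levels of the induction: a family of patched modules for every set of raised sites, joined
by split degeneracy maps whose cokernels are nowhere unramified at the new site on the support of
the lower module. -/
structure Tower (𝒪 : Type) [CommRing 𝒪] [IsDomain 𝒪] [IsDiscreteValuationRing 𝒪]
    [IsAdicComplete (maximalIdeal 𝒪) 𝒪] [Finite (ResidueField 𝒪)]
    (σ ν : Type) [Fintype σ] [Fintype ν] [DecidableEq ν] (g : ℕ) (res : σ → Bool)
    (τ₀ : σ → 𝒪) (cs : ν → Bool → 𝒪) (sgn : ν → Bool) where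
  /-- the rank for each set of raised sites -/
  rk : Finset ν → ℕ
  /-- the patched modules -/
  L : ∀ A, PatchLevels 𝒪 (g + Fintype.card ν + 3 * Fintype.card σ) (rk A) (BigRing 𝒪 σ ν g)
  step : ∀ A q, q ∉ A → ∃ (sK : ℕ)
    (LK : PatchLevels 𝒪 (g + Fintype.card ν + 3 * Fintype.card σ) sK (BigRing 𝒪 σ ν g))
    (τ : BigRing 𝒪 σ ν g),
    Nonempty (LevelSplit (L A) (L (insert q A)) LK τ) ∧ HasTypes g res τ₀ cs LK ∧
    (∀ p : Pt (BigIdx σ ν g) 𝒪, p.coords ⟨Sum.inr q, 0⟩ = cs q (sgn q) →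
      p.coords ⟨Sum.inr q, 1⟩ = 0 → p.coords ⟨Sum.inr q, 2⟩ = 0 → τ ∈ p.prime) ∧
    ∀ Q ∈ LK.kerInf.minimalPrimes, (L A).kerInf ≤ Q →
      ¬ (MvPowerSeries.X ⟨Sum.inr q, (1 : Fin 3)⟩ ∈ Q ∧
        MvPowerSeries.X ⟨Sum.inr q, (2 : Fin 3)⟩ ∈ Q)

variable {ϖ : 𝒪} (hϖ : maximalIdeal 𝒪 = Ideal.span {ϖ}) (res : σ → Bool) (τ₀ : σ → 𝒪)
  (cs : ν → Bool → 𝒪)
variable (h2 : IsUnit (2 : 𝒪)) {J : 𝒪} (hJ : J ^ 2 = -1)
  (hτ₀m : ∀ v, τ₀ v ∈ maximalIdeal 𝒪) (hτ₀ : ∀ v, τ₀ v ≠ 0)
  (hcs : ∀ v b, cs v b ∈ maximalIdeal 𝒪)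
variable [DecidableEq ν] {sgn : ν → Bool}

/-- **Raising at a set of sites.** -/
theorem kerInf_le_of_tower (D : Tower 𝒪 σ ν g res τ₀ cs sgn)
    (hdist : ∀ v, cs v true ≠ cs v false) {st : σ → Bool}
    (hbase : (D.L ∅).kerInf ≤
      (bigComp hϖ g res st τ₀ cs (fun _ => none) h2 hJ hτ₀m hτ₀ hcs).prime) (A : Finset ν) :
    (D.L A).kerInf ≤
      (bigComp hϖ g res st τ₀ cs (raisedType sgn A) h2 hJ hτ₀m hτ₀ hcs).prime := by
  induction A using Finset.induction_on with
  | empty =>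
    rw [show raisedType sgn (∅ : Finset ν) = fun _ => none from
      funext fun v => if_neg (Finset.notMem_empty v)]
    exact hbase
  | insert q A hq ih =>
    obtain ⟨sK, LK, τ, ⟨S⟩, hK, hτ, hnot⟩ := D.step A q hq
    rw [raisedType_insert]
    exact kerInf_le_raised hϖ g res τ₀ cs h2 hJ hτ₀m hτ₀ hcs S hK hdist q (if_neg hq) (sgn q)
      ih hτ hnot

end FermatAgent.RT.Raise
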