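import Mathlib
import Fermat.Agent.RT.Raise.Family
import Fermat.Agent.RT.Raise.Induct
import Fermat.Agent.RT.Raise.FramedSite

/-!
# The patched tower of a family of raising levels

The maps of the patching argument for a family of levels, the patched modules of all sets of
raised sites and their local equations.
-/

set_option autoImplicit false

noncomputable section

open IsLocalRing FermatAgent.GaloisBasic

namespace FermatAgent.RT.Raise

variable {𝒪 : Type} [CommRing 𝒪] [IsDomain 𝒪] [IsDiscreteValuationRing 𝒪]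
  [IsAdicComplete (maximalIdeal 𝒪) 𝒪] [Finite (ResidueField 𝒪)]
variable {G : Type} [Monoid G] {σ : Type} [Fintype σ]
variable {ν : Type} [Fintype ν] [DecidableEq ν]
variable {ϖ half ζ ζ' : 𝒪} {d : σ → FrameSite 𝒪 G} {q : σ → ℕ} {d' : ν → CoordSite 𝒪} {g r : ℕ}
  {R₀ : Type} [CommRing R₀] [IsLocalRing R₀] [Algebra 𝒪 R₀]
  {M₀ : G →* Matrix (Fin 2) (Fin 2) R₀} {z₀ : ν → Fin 3 → R₀} {rk : Finset ν → ℕ}
  {ρ₀ : ∀ A, R₀ →ₐ[𝒪] Matrix (Fin (rk A)) (Fin (rk A)) 𝒪} {rkK : Finset ν → ν → ℕ}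
  {ρK : ∀ A v, R₀ →ₐ[𝒪] Matrix (Fin (rkK A v)) (Fin (rkK A v)) 𝒪}
  {tau : Finset ν → ν → MvPowerSeries (Fin 3) 𝒪}

section Embedding

variable (g) (σ)

omit [Finite (ResidueField 𝒪)] [DecidableEq ν]

omit [IsAdicComplete (maximalIdeal 𝒪) 𝒪] [Fintype σ] [Fintype ν] in
lemma siteVar_mem (v : ν) (i : Fin 3) :
    (MvPowerSeries.X ⟨Sum.inr v, i⟩ : BigRing 𝒪 σ ν g) ∈ maximalIdeal (BigRing 𝒪 σ ν g) := by
  rw [mem_maximalIdeal_iff_constantCoeff]; simp

/-- The series in the coordinates of a site as series in all coordinates. -/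
def siteEmb (v : ν) : MvPowerSeries (Fin 3) 𝒪 →ₐ[𝒪] BigRing 𝒪 σ ν g :=
  evalAdic (maximalIdeal (BigRing 𝒪 σ ν g)) (fun i => MvPowerSeries.X ⟨Sum.inr v, i⟩)
    (siteVar_mem σ g v)

lemma siteEmb_X (v : ν) (i : Fin 3) :
    siteEmb σ g v (MvPowerSeries.X i : MvPowerSeries (Fin 3) 𝒪) =
      MvPowerSeries.X ⟨Sum.inr v, i⟩ := evalAdic_X _ _ _ i

lemma siteEmb_mem {ϖ : 𝒪} (hϖ : maximalIdeal 𝒪 = Ideal.span {ϖ}) (v : ν) :
    ∀ b ∈ maximalIdeal (MvPowerSeries (Fin 3) 𝒪),
      siteEmb σ g v b ∈ maximalIdeal (BigRing 𝒪 σ ν g) :=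
  evalAdic_mem hϖ (by rw [mem_maximalIdeal_iff_constantCoeff, MvPowerSeries.algebraMap_apply,
    MvPowerSeries.constantCoeff_C]; exact hϖ ▸ Ideal.subset_span rfl) _ _

variable {g} {σ}

/-- A series vanishing at the pinned points of a site vanishes at the raised points. -/
lemma siteEmb_mem_prime {ϖ : 𝒪} (hϖ : maximalIdeal 𝒪 = Ideal.span {ϖ}) (v : ν)
    {t : MvPowerSeries (Fin 3) 𝒪}
    (ht : ∀ p : Pt (Fin 3) 𝒪, p.coords 0 = 0 → t ∈ p.prime) (p : Pt (BigIdx σ ν g) 𝒪)
    (hp : p.coords ⟨Sum.inr v, 0⟩ = 0) : siteEmb σ g v t ∈ p.prime := by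
  let p' : Pt (Fin 3) 𝒪 := ⟨fun i => p.coords ⟨Sum.inr v, i⟩, fun i => p.mem _⟩
  have hloc : ∀ {κ : Type} [Fintype κ] (x : Pt κ 𝒪), ∀ b ∈ maximalIdeal (MvPowerSeries κ 𝒪),
      x.hom b ∈ maximalIdeal 𝒪 := fun x =>
    evalAdic_mem hϖ (by rw [Algebra.algebraMap_self, RingHom.id_apply, hϖ]
                        exact Ideal.subset_span rfl) _ x.mem
  have he : p.hom.comp (siteEmb σ g v) = p'.hom :=
    algHom_eq_of_X _ _ (fun b hb => hloc p _ (siteEmb_mem σ g hϖ v b hb)) (hloc p') fun i => by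
      rw [AlgHom.comp_apply, siteEmb_X]
      simp [Pt.hom, p']
  have h0 := ht p' hp
  rw [Pt.prime, RingHom.mem_ker] at h0 ⊢
  rw [← AlgHom.comp_apply, he]
  exact h0

end Embedding

/-- The maps of the patching argument for a family of levels. -/
structure FamilyTheta (D : ∀ n, RaiseLevel ϖ half ζ ζ' d q d' g r M₀ z₀ ρ₀ ρK tau n) where
  /-- the numbering of diamond and frame variables -/
  e : Fin r ⊕ FrameIdx σ ≃ Fin (g + 1 + Fintype.card ν + 3 * Fintype.card σ)
  /-- the maps of the patching argument -/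
  T : ThetaData 𝒪 (BigRing 𝒪 σ ν (g + 1)) e (fun n => (D n).R)
  u_eq : ∀ n j, T.u n j = (D n).u j
  θ_site : ∀ n v i, T.θ n (MvPowerSeries.X ⟨Sum.inl (some v), i⟩) = siteCoord (D n).M d half v i
  θ_raise : ∀ n v i, T.θ n (MvPowerSeries.X ⟨Sum.inr v, i⟩) =
    MvPowerSeries.C ((D n).z v i)

variable {D : ∀ n, RaiseLevel ϖ half ζ ζ' d q d' g r M₀ z₀ ρ₀ ρK tau n}

omit [Finite (ResidueField 𝒪)] in
/-- The maps exist. -/
theorem nonempty_familyTheta (hϖ : maximalIdeal 𝒪 = Ideal.span {ϖ}) (h : 2 * half = 1)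
    (hsgn : ∀ v, (d v).sgn * (d v).sgn = 1) (hq : ∀ v, (q v : 𝒪) - 1 ∈ maximalIdeal 𝒪)
    (hϖR : algebraMap 𝒪 R₀ ϖ ∈ maximalIdeal R₀) (hres₀ : ResidualShape M₀ d)
    (hg : g + Fintype.card ν + 1 = r + Fintype.card σ) : Nonempty (FamilyTheta D) := by
  classical
  have hcard :
      Fintype.card (Fin r ⊕ FrameIdx σ) = g + 1 + Fintype.card ν + 3 * Fintype.card σ := by
    have := card_frameIdx σ
    rw [Fintype.card_sum, Fintype.card_fin]
    omega
  let e : Fin r ⊕ FrameIdx σ ≃ Fin (g + 1 + Fintype.card ν + 3 * Fintype.card σ) :=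
    Fintype.equivFinOfCardEq hcard
  have hϖn : ∀ n, algebraMap 𝒪 (D n).R ϖ ∈ maximalIdeal (D n).R := fun n =>
    (D n).mem_of_π_mem (by rw [AlgHom.commutes]; exact hϖR)
  have hgen : ∀ n, ∃ θ : BigRing 𝒪 σ ν (g + 1) →ₐ[𝒪] FramedRing (D n).R σ, Function.Surjective θ ∧
      (∀ v i, θ (MvPowerSeries.X ⟨Sum.inl (some v), i⟩) = siteCoord (D n).M d half v i) ∧
      ∀ v i, θ (MvPowerSeries.X ⟨Sum.inr v, i⟩) = MvPowerSeries.C ((D n).z v i) :=
    fun n => exists_theta (D n).M d (D n).z half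
      { two_half := h
        sgn_sq := hsgn
        residual := (D n).residualShape hres₀
        det_frob := fun v => ⟨q v, hϖ ▸ hq v, by rw [(D n).det_frob, map_natCast]⟩
        det_inert := (D n).det_inert
        ϖ_mem := hϖn n }
      hϖ (D n).residue_surjective (D n).z_mem (D n).tangent
  choose θ hθs hθc hθr using hgen
  have hf : ∀ n (j : Fin (g + 1 + Fintype.card ν + 3 * Fintype.card σ)), ∃ p, θ n p =
      Sum.elim (fun i => MvPowerSeries.C ((D n).u i)) MvPowerSeries.X (e.symm j) := fun n j =>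
    hθs n _
  choose f hf using hf
  have hum : ∀ n j, (D n).u j ∈ maximalIdeal (D n).R := fun n j =>
    (D n).mem_of_π_mem (by rw [(D n).π_u]; exact Ideal.zero_mem _)
  have hfm : ∀ n j, f n j ∈ maximalIdeal (BigRing 𝒪 σ ν (g + 1)) := fun n j => by
    by_contra hc
    have := (notMem_maximalIdeal.mp hc).map (θ n)
    rw [hf] at this
    revert this
    rcases e.symm j with i | x <;> simp only [Sum.elim_inl, Sum.elim_inr] <;>
      rw [← notMem_maximalIdeal, mem_maximalIdeal_iff_constantCoeff] <;> simp [hum]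
  exact ⟨{
    e := e
    T := { u := fun n => (D n).u, θ := θ, surjective := hθs, f := f, f_mem := hfm, θ_f := hf }
    u_eq := fun _ _ => rfl
    θ_site := hθc
    θ_raise := hθr }⟩

namespace FamilyTheta

variable (F : FamilyTheta D)

section

omit [Finite (ResidueField 𝒪)]

omit [IsAdicComplete (maximalIdeal 𝒪) 𝒪] in
/-- The variables act through their images on the modules of every set of raised sites. -/
lemma actsByVars (A : Finset ν) : ActsByVars F.T fun n => (D n).ψ A := fun n j => by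
  rw [F.u_eq, (D n).ψ_u]

omit [IsAdicComplete (maximalIdeal 𝒪) 𝒪] in
lemma actsByVarsχ : ActsByVars F.T fun n => (D n).ψχ := fun n j => by
  rw [F.u_eq, (D n).ψχ_u]

omit [IsAdicComplete (maximalIdeal 𝒪) 𝒪] in
/-- The variables act through their images on the cokernels. -/
lemma actsByVarsK {A : Finset ν} {v : ν} (h : v ∉ A) :
    ActsByVars F.T fun n => (D n).ψK A v h := fun n j => by
  rw [F.u_eq, (D n).ψK_u]

/-- The patched module of a set of raised sites. -/
def lev (A : Finset ν) :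
    PatchLevels 𝒪 (g + 1 + Fintype.card ν + 3 * Fintype.card σ) (rk A) (BigRing 𝒪 σ ν (g + 1)) :=
  patched (F.actsByVars A)

/-- The congruent patched module. -/
def levχ :
    PatchLevels 𝒪 (g + 1 + Fintype.card ν + 3 * Fintype.card σ) (rk ∅) (BigRing 𝒪 σ ν (g + 1)) :=
  patched F.actsByVarsχ

lemma θ_siteEmb (hϖ : maximalIdeal 𝒪 = Ideal.span {ϖ})
    (hϖR : algebraMap 𝒪 R₀ ϖ ∈ maximalIdeal R₀) (n : ℕ) (v : ν) (t : MvPowerSeries (Fin 3) 𝒪) :
    F.T.θ n (siteEmb σ (g + 1) v t) =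
      MvPowerSeries.C (evalAdic (R := 𝒪) (maximalIdeal (D n).R) ((D n).z v) ((D n).z_mem v) t) := by
  have := isAdicComplete_mvPowerSeries_of_complete (σ := FrameIdx σ) (A := (D n).R)
  have : IsLocalHom (F.T.θ n : BigRing 𝒪 σ ν (g + 1) →+* FramedRing (D n).R σ) :=
    IsLocalHom.of_surjective _ (F.T.surjective n)
  let Cn : (D n).R →ₐ[𝒪] FramedRing (D n).R σ :=
    { (MvPowerSeries.C : (D n).R →+* FramedRing (D n).R σ) with
      commutes' := fun o => by simp [MvPowerSeries.algebraMap_apply] }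
  have hϖn : algebraMap 𝒪 (D n).R ϖ ∈ maximalIdeal (D n).R :=
    (D n).mem_of_π_mem (by rw [AlgHom.commutes]; exact hϖR)
  have he : (F.T.θ n).comp (siteEmb σ (g + 1) v) =
      Cn.comp (evalAdic (maximalIdeal (D n).R) ((D n).z v) ((D n).z_mem v)) :=
    algHom_eq_of_X _ _
      (fun b hb => map_nonunit (F.T.θ n : BigRing 𝒪 σ ν (g + 1) →+* FramedRing (D n).R σ) _
        (siteEmb_mem σ (g + 1) hϖ v b hb))
      (fun b hb => by
        rw [mem_maximalIdeal_iff_constantCoeff]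
        show MvPowerSeries.constantCoeff (MvPowerSeries.C _) ∈ _
        rw [MvPowerSeries.constantCoeff_C]
        exact evalAdic_mem hϖ hϖn _ _ b hb)
      fun i => by
        rw [AlgHom.comp_apply, AlgHom.comp_apply, siteEmb_X, F.θ_raise, evalAdic_X]
        rfl
  exact AlgHom.congr_fun he t

/-- The patched level without raised sites is unramified at the unframed sites. -/
lemma unramified_lev : UnramifiedAtSites (g + 1) (F.lev ∅) := fun n v =>
  ⟨patched_eq_zero_of_C (F.θ_raise n v 1) ((D n).ψ_unram v).1,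
    patched_eq_zero_of_C (F.θ_raise n v 2) ((D n).ψ_unram v).2⟩

/-- The congruent patched level is unramified at the unframed sites. -/
lemma unramified_levχ : UnramifiedAtSites (g + 1) F.levχ := fun n v =>
  ⟨patched_eq_zero_of_C (F.θ_raise n v 1) ((D n).ψχ_unram v).1,
    patched_eq_zero_of_C (F.θ_raise n v 2) ((D n).ψχ_unram v).2⟩

/-- The two patched levels are congruent modulo the uniformiser. -/
lemma congr_lev : (F.lev ∅).CongrMod F.levχ ϖ := congrMod_patched fun n => (D n).congr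

omit [IsAdicComplete (maximalIdeal 𝒪) 𝒪] in
/-- The coordinates of a framed site are those of Frobenius and inertia in the framed
representation. -/
lemma isPairCoord (v : σ) :
    IsPairCoord half (d v).res (fun n => F.T.θ n)
      (fun i => (MvPowerSeries.X ⟨Sum.inl (some v), i⟩ : BigRing 𝒪 σ ν (g + 1)))
      (fun n => framedRep (D n).M d v (d v).frob)
      (fun n => framedRep (D n).M d v (d v).inert) := fun n => by
  rw [← shiftPair_siteCoord (D n).M d half v]
  funext i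
  simp [shiftPair, F.θ_site]

end

/-- Distinct characters at the framed sites. -/
theorem chiCond_levχ (h : 2 * half = 1) (hne : ζ ≠ ζ') (hζζ' : ζ * ζ' = 1)
    (hζq : ∀ v, ζ ^ q v = ζ) (hζ'q : ∀ v, ζ' ^ q v = ζ') (v : σ) :
    chiCond (half * (ζ - ζ')) (d v).res
      fun i => quotCoord (g + 1) F.levχ.kerInf ⟨Sum.inl (some v), i⟩ := by
  refine chiCond_of_pairs h hne hζζ' (hζq v) (hζ'q v) (F.isPairCoord v)
    (fun n => RingHom.ker (liftAct F.e (D n).ψχ)) (fun n => ?_) (fun n => ?_)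
    (fun n => framedRep_tame _ _ _ ((D n).tame v))
    fun x hx => PatchLevels.mem_kerInf_of_forall _ hx
  · rw [trace_framedRep, MvPowerSeries.algebraMap_apply, ← map_sub, RingHom.mem_ker,
      liftAct_C_eq_zero F.e _ ((D n).ψχ_trace v)]
  · rw [det_framedRep, (D n).det_inert, map_one]

/-- Unramified or Steinberg at the framed sites. -/
theorem nrCond_or_stCond (h : 2 * half = 1)
    (hsgn : ∀ v, (d v).sgn * (d v).sgn = 1)
    (hq : ∀ v, (q v : 𝒪) - 1 ∈ maximalIdeal 𝒪) (hres₀ : ResidualShape M₀ d) {s : ℕ}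
    {ψ : ∀ n, (D n).R →ₐ[𝒪] Matrix (Fin s) (Fin s) (LevelBase 𝒪 r n)} (hψ : ActsByVars F.T ψ)
    (htr : ∀ n v, ψ n (((D n).M (d v).inert).trace - 2) = 0) {Q : Ideal (BigRing 𝒪 σ ν (g + 1))}
    [Q.IsPrime] (hQ : (patched hψ).kerInf ≤ Q) (v : σ) :
    nrCond (fun i => quotCoord (g + 1) Q ⟨Sum.inl (some v), i⟩) ∨
      stCond (d v).res ((d v).sgn * ((q v : 𝒪) - 1) * half)
        fun i => quotCoord (g + 1) Q ⟨Sum.inl (some v), i⟩ := by
  have := isLocalHom_algebraMap_series (A := 𝒪) (ι := BigIdx σ ν (g + 1))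
  refine nrCond_or_stCond_of_pairs h (hq v) (hsgn v)
    (fun n => IsLocalHom.of_surjective _ (F.T.surjective n))
    (fun i => by rw [mem_maximalIdeal_iff_constantCoeff]; simp) (F.isPairCoord v)
    (fun n => ?_) (fun n => ?_) (fun n => ?_)
    (fun n => framedRep_tame _ _ _ ((D n).tame v))
    (fun n => RingHom.ker (liftAct F.e (ψ n))) (fun n => ?_)
    fun x hx => hQ (PatchLevels.mem_kerInf_of_forall _ hx)
  · rw [det_framedRep, (D n).det_frob, map_natCast, map_natCast]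
  · rw [trace_framedRep, MvPowerSeries.algebraMap_apply, ← map_sub,
      mem_maximalIdeal_iff_constantCoeff, MvPowerSeries.constantCoeff_C, ← trace_baseRep _ d v]
    have := add_mem ((D n).residualShape hres₀ v 0 0).1 ((D n).residualShape hres₀ v 1 1).1
    convert this using 1
    simp [Matrix.trace_fin_two, FrameSite.shape, map_ofNat]
    ring
  · rw [det_framedRep, (D n).det_inert, map_one]
  · rw [trace_framedRep, ← map_ofNat (MvPowerSeries.C (σ := FrameIdx σ) (R := (D n).R)) 2,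
      ← map_sub, RingHom.mem_ker, liftAct_C_eq_zero F.e _ (htr n v)]

/-- The types on a patched module with unipotent inertia at the framed sites and the equations of
the unframed ones. -/
theorem hasTypes (hϖ : maximalIdeal 𝒪 = Ideal.span {ϖ}) (h : 2 * half = 1)
    (hsgn : ∀ v, (d v).sgn * (d v).sgn = 1)
    (hq : ∀ v, (q v : 𝒪) - 1 ∈ maximalIdeal 𝒪)
    (hϖR : algebraMap 𝒪 R₀ ϖ ∈ maximalIdeal R₀) (hres₀ : ResidualShape M₀ d) {s : ℕ}
    {ψ : ∀ n, (D n).R →ₐ[𝒪] Matrix (Fin s) (Fin s) (LevelBase 𝒪 r n)} (hψ : ActsByVars F.T ψ)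
    (htr : ∀ n v, ψ n (((D n).M (d v).inert).trace - 2) = 0)
    (heqs : ∀ n v, ∀ e ∈ (d' v).eqs,
      ψ n (evalAdic (R := 𝒪) (maximalIdeal (D n).R) ((D n).z v) ((D n).z_mem v) e) = 0) :
    HasTypes (g + 1) (fun v => (d v).res) (fun v => (d v).sgn * ((q v : 𝒪) - 1) * half)
      (fun v => (d' v).consts) (patched hψ) := by
  intro Q hQ hle
  classical
  have : IsLocalRing (BigRing 𝒪 σ ν (g + 1) ⧸ Q) :=
    IsLocalRing.of_surjective' (Ideal.Quotient.mk Q) Ideal.Quotient.mk_surjective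
  have key : ∀ v, ∃ T : SiteType,
      typeCond (d' v).consts (fun i => quotCoord (g + 1) Q ⟨Sum.inr v, i⟩) T := by
    intro v
    set f : MvPowerSeries (Fin 3) 𝒪 →ₐ[𝒪] BigRing 𝒪 σ ν (g + 1) ⧸ Q :=
      (Ideal.Quotient.mkₐ 𝒪 Q).comp (siteEmb σ (g + 1) v)
    have : IsLocalHom (Ideal.Quotient.mk Q) :=
      IsLocalHom.of_surjective _ Ideal.Quotient.mk_surjective
    have hfm : ∀ b ∈ maximalIdeal (MvPowerSeries (Fin 3) 𝒪),
        f b ∈ maximalIdeal (BigRing 𝒪 σ ν (g + 1) ⧸ Q) := fun b hb =>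
      map_nonunit (Ideal.Quotient.mk Q) _ (siteEmb_mem σ (g + 1) hϖ v b hb)
    have : IsLocalHom (f : MvPowerSeries (Fin 3) 𝒪 →+* BigRing 𝒪 σ ν (g + 1) ⧸ Q) :=
      ((IsLocalRing.local_hom_TFAE _).out 0 2).mpr (Ideal.map_le_iff_le_comap.mpr hfm)
    obtain ⟨T, hT⟩ := (d' v).types _ f fun e he =>
      Ideal.Quotient.eq_zero_iff_mem.mpr (hle (mem_kerInf_of_C fun n =>
        ⟨_, F.θ_siteEmb hϖ hϖR n v e, heqs n v e he⟩))
    refine ⟨T, ?_⟩
    have hfX : (fun i => f (MvPowerSeries.X i)) = fun i => quotCoord (g + 1) Q ⟨Sum.inr v, i⟩ :=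
      funext fun i => congrArg (Ideal.Quotient.mk Q) (siteEmb_X σ (g + 1) v i)
    rw [← hfX]
    exact hT
  choose T hT using key
  refine ⟨fun v => decide (stCond (d v).res ((d v).sgn * ((q v : 𝒪) - 1) * half)
      fun i => quotCoord (g + 1) Q ⟨Sum.inl (some v), i⟩), T, fun v => ?_, hT⟩
  by_cases hv : stCond (d v).res ((d v).sgn * ((q v : 𝒪) - 1) * half)
      fun i => quotCoord (g + 1) Q ⟨Sum.inl (some v), i⟩
  · rw [if_pos (by simpa using hv)]; exact hv
  · rw [if_neg (by simpa using hv)]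
    exact (F.nrCond_or_stCond h hsgn hq hres₀ hψ htr hle v).resolve_right hv

end FamilyTheta

end FermatAgent.RT.Raise
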