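import Mathlib
import Fermat.Agent.RT.Raise.FamilyTheta

/-!
# Modularity of raised points from a family of levels

A point of the base ring which is unipotent at the framed sites, of the raised type at a set of
unframed sites and unramified at the others lies in the support of the base module of that set;
every component gives a prime of characteristic zero of that support.
-/

set_option autoImplicit false

noncomputable section

open IsLocalRing FermatAgent.GaloisBasic

namespace FermatAgent.RT.Raise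

variable {𝒪 : Type} [CommRing 𝒪] [IsDomain 𝒪] [IsDiscreteValuationRing 𝒪]
  [IsAdicComplete (maximalIdeal 𝒪) 𝒪] [Finite (ResidueField 𝒪)]
variable {G : Type} [Monoid G] {σ : Type} [Fintype σ]
variable {ν : Type} [Fintype ν] [DecidableEq ν]
variable {ϖ half ζ ζ' : 𝒪} {d : σ → FrameSite 𝒪 G} {q : σ → ℕ} {d' : ν → CoordSite 𝒪} {g r : ℕ}
  {R₀ : Type} [CommRing R₀] [IsLocalRing R₀] [Algebra 𝒪 R₀] [IsNoetherianRing R₀]
  [IsAdicComplete (maximalIdeal R₀) R₀] [Finite (ResidueField R₀)]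
  {M₀ : G →* Matrix (Fin 2) (Fin 2) R₀} {z₀ : ν → Fin 3 → R₀} {rk : Finset ν → ℕ}
  {ρ₀ : ∀ A, R₀ →ₐ[𝒪] Matrix (Fin (rk A)) (Fin (rk A)) 𝒪} {rkK : Finset ν → ν → ℕ}
  {ρK : ∀ A v, R₀ →ₐ[𝒪] Matrix (Fin (rkK A v)) (Fin (rkK A v)) 𝒪}
  {tau : Finset ν → ν → MvPowerSeries (Fin 3) 𝒪}
  {D : ∀ n, RaiseLevel ϖ half ζ ζ' d q d' g r M₀ z₀ ρ₀ ρK tau n}

/-- The cokernel of raising at a site is nowhere of the unramified type on the support of the
lower level: either no prime of characteristic zero common to the lower module and the cokernel at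
the base has both inertia coordinates zero, or the first coordinate vanishes on all cokernels. -/
def NewAt (D : ∀ n, RaiseLevel ϖ half ζ ζ' d q d' g r M₀ z₀ ρ₀ ρK tau n) : Prop :=
  ∀ A v (h : v ∉ A),
    (∀ y : Ideal R₀, y.IsPrime → RingHom.ker (ρ₀ A) ≤ y → RingHom.ker (ρK A v) ≤ y →
      (∀ a : 𝒪, a ≠ 0 → algebraMap 𝒪 R₀ a ∉ y) → ¬ (z₀ v 1 ∈ y ∧ z₀ v 2 ∈ y)) ∨
    ∀ n, (D n).ψK A v h ((D n).z v 0) = 0

/-- The arithmetic constants of raising: `J` is a square root of `-1` and `r₂` one of the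
half-difference of the twisting roots of unity; the framed primes are one modulo the maximal ideal
without being one. -/
structure RaiseParams (ϖ half ζ ζ' J r₂ : 𝒪) (d : σ → FrameSite 𝒪 G) (q : σ → ℕ)
    (M₀ : G →* Matrix (Fin 2) (Fin 2) R₀) : Prop where
  max_eq : maximalIdeal 𝒪 = Ideal.span {ϖ}
  two_half : 2 * half = 1
  J_sq : J ^ 2 = -1
  zeta_ne : ζ ≠ ζ'
  zeta_mul : ζ * ζ' = 1
  r₂_mem : r₂ ∈ maximalIdeal 𝒪
  r₂_sq : r₂ ^ 2 = half * (ζ - ζ')
  sgn_sq : ∀ v, (d v).sgn * (d v).sgn = 1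
  q_residue : ∀ v, (q v : 𝒪) - 1 ∈ maximalIdeal 𝒪
  q_ne_one : ∀ v, (q v : 𝒪) ≠ 1
  zeta_pow : ∀ v, ζ ^ q v = ζ
  zeta'_pow : ∀ v, ζ' ^ q v = ζ'
  ϖ_mem : algebraMap 𝒪 R₀ ϖ ∈ maximalIdeal R₀
  residual : ResidualShape M₀ d

namespace RaiseParams

variable {J r₂ : 𝒪} (P : RaiseParams ϖ half ζ ζ' J r₂ d q M₀)
include P

omit [IsAdicComplete (maximalIdeal 𝒪) 𝒪] [Finite (ResidueField 𝒪)] [Fintype σ]
    [IsNoetherianRing R₀] [IsAdicComplete (maximalIdeal R₀) R₀] [Finite (ResidueField R₀)]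

lemma tau_mem (v : σ) : (d v).sgn * ((q v : 𝒪) - 1) * half ∈ maximalIdeal 𝒪 :=
  Ideal.mul_mem_right _ _ (Ideal.mul_mem_left _ _ (P.q_residue v))

lemma tau_ne (v : σ) : (d v).sgn * ((q v : 𝒪) - 1) * half ≠ 0 :=
  mul_ne_zero (mul_ne_zero (left_ne_zero_of_mul_eq_one (P.sgn_sq v))
    (sub_ne_zero.mpr (P.q_ne_one v))) (right_ne_zero_of_mul_eq_one P.two_half)

lemma isUnit_two : IsUnit (2 : 𝒪) := IsUnit.of_mul_eq_one _ P.two_half

end RaiseParams

namespace FamilyTheta

variable (F : FamilyTheta D)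

/-- The base of a patched module. -/
def base (A : Finset ν) : PatchBaseData (F.lev A) R₀ :=
  patchedBase (fun n => (D n).π) (fun n => (D n).π_surjective)
    (fun n j => by rw [F.u_eq, (D n).π_u]) (ρ₀ A) (fun n => (D n).compat A)

/-- The base of a cokernel. -/
def baseK {A : Finset ν} {v : ν} (h : v ∉ A) :
    PatchBaseData (patched (F.actsByVarsK h)) R₀ :=
  patchedBase (fun n => (D n).π) (fun n => (D n).π_surjective)
    (fun n j => by rw [F.u_eq, (D n).π_u]) (ρK A v) (fun n => (D n).compatK A v h)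

omit [IsAdicComplete (maximalIdeal 𝒪) 𝒪] [Finite (ResidueField 𝒪)] in
/-- The value of a coordinate at the base. -/
lemma thetaInf_eq {s : ℕ}
    {L : PatchLevels 𝒪 (g + 1 + Fintype.card ν + 3 * Fintype.card σ) s (BigRing 𝒪 σ ν (g + 1))}
    (B : PatchBaseData L R₀) (hB : ∀ n, B.θ n = toBase F.T (fun m => (D m).π) n)
    {x : BigRing 𝒪 σ ν (g + 1)} {a : R₀}
    (h : ∀ n, (D n).π (MvPowerSeries.constantCoeff (F.T.θ n x)) = a) : B.thetaInf x = a := by
  refine B.thetaInf_eq_of_isULim (u := fun _ => x) (isULim_const _) ?_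
  suffices he : (fun n => B.θ n x) = fun _ => a by rw [he]; exact isULim_const _
  funext n
  rw [hB, toBase_apply, h]

omit [IsAdicComplete (maximalIdeal 𝒪) 𝒪] [Finite (ResidueField 𝒪)] [IsNoetherianRing R₀]
    [IsAdicComplete (maximalIdeal R₀) R₀] [Finite (ResidueField R₀)] in
lemma toBase_raise (v : ν) (i : Fin 3) (n : ℕ) :
    (D n).π (MvPowerSeries.constantCoeff (F.T.θ n (MvPowerSeries.X ⟨Sum.inr v, i⟩))) =
      z₀ v i := by
  rw [F.θ_raise, MvPowerSeries.constantCoeff_C]
  exact (D n).π_z v i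

omit [IsNoetherianRing R₀] [IsAdicComplete (maximalIdeal R₀) R₀] [Finite (ResidueField R₀)]
    [IsAdicComplete (maximalIdeal 𝒪) 𝒪] [Finite (ResidueField 𝒪)] in
lemma toBase_site (v : σ) (n : ℕ) :
    (fun i => (D n).π (MvPowerSeries.constantCoeff (F.T.θ n
      (shiftPair (siteOffset 𝒪 (d v).res)
        (fun i => (MvPowerSeries.X ⟨Sum.inl (some v), i⟩ : BigRing 𝒪 σ ν (g + 1))) i)))) =
      Sum.elim (matVec (algebraMap 𝒪 R₀ half) (baseRep M₀ d v (d v).frob))
        (matVec (algebraMap 𝒪 R₀ half) (baseRep M₀ d v (d v).inert)) := by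
  have hM : pushRep (D n).π (D n).M = M₀ := MonoidHom.ext (D n).π_M
  have hb : ∀ x a b, (D n).π (MvPowerSeries.constantCoeff (framedRep (D n).M d v x a b)) =
      baseRep M₀ d v x a b := fun x a b => by
    rw [constantCoeff_framedRep]
    exact (congrFun (congrFun (map_baseRep (D n).M d (D n).π v x) a) b).trans (by rw [hM])
  funext i
  rw [congrFun (F.isPairCoord v n) i]
  rcases i with i | i <;> fin_cases i <;>
    simp [matVec, MvPowerSeries.algebraMap_apply, hb]

omit [Fintype ν] [Finite (ResidueField 𝒪)] [IsNoetherianRing R₀]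
    [IsAdicComplete (maximalIdeal R₀) R₀] [Finite (ResidueField R₀)] in
lemma trace_sub_two_mem {s : ℕ}
    {ψ : ∀ n, (D n).R →ₐ[𝒪] Matrix (Fin s) (Fin s) (LevelBase 𝒪 r n)}
    {ρ : R₀ →ₐ[𝒪] Matrix (Fin s) (Fin s) 𝒪}
    (hc : ∀ n (x : (D n).R) i j (a : PatchBase 𝒪 r),
      Ideal.Quotient.mk (maximalIdeal (PatchBase 𝒪 r) ^ n) a = ψ n x i j →
        MvPowerSeries.constantCoeff a - ρ ((D n).π x) i j ∈ maximalIdeal 𝒪 ^ n)
    {τ : G} (h : ∀ n, ψ n (((D n).M τ).trace - 2) = 0) {y : Ideal R₀}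
    (hy : RingHom.ker ρ ≤ y) : (M₀ τ).trace - 2 ∈ y :=
  hy (RingHom.mem_ker.mpr (rho_base_eq_zero (π := fun n => (D n).π) hc fun n =>
    ⟨_, by rw [map_sub, map_ofNat, ← (D n).π_M]; simp [Matrix.trace_fin_two], h n⟩))

variable {J r₂ : 𝒪}

/-- The tower of patched modules. -/
def tower (P : RaiseParams ϖ half ζ ζ' J r₂ d q M₀)
    (htau : ∀ A v (p : Pt (Fin 3) 𝒪), p.coords 0 = 0 → tau A v ∈ p.prime)
    (hnew : NewAt D) :
    Tower 𝒪 σ ν (g + 1) (fun v => (d v).res) (fun v => (d v).sgn * ((q v : 𝒪) - 1) * half)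
      (fun v => (d' v).consts) (fun _ => true) where
  rk := rk
  L := F.lev
  step A v hv := by
    have hK : HasTypes (g + 1) (fun v => (d v).res) (fun v => (d v).sgn * ((q v : 𝒪) - 1) * half)
        (fun v => (d' v).consts) (patched (F.actsByVarsK hv)) :=
      F.hasTypes P.max_eq P.two_half P.sgn_sq P.q_residue P.ϖ_mem P.residual (F.actsByVarsK hv)
        (fun n w => (D n).ψK_eq_zero hv ((D n).ψ_trace _ w))
        (fun n w _ he => (D n).ψK_eqs hv w he)
    refine ⟨_, patched (F.actsByVarsK hv), siteEmb σ (g + 1) v (tau A v),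
      ⟨patchedSplit (fun n => (D n).J A v) (fun n => (D n).Lam A v) (fun n => (D n).Tr A v)
        (fun n => (D n).Sg A v) (fun n => (D n).Pr A v) (fun n => (D n).Sec A v)
        (fun n => (D n).Tr_comm A v hv) (fun n => (D n).Pr_comm A v hv)
        (fun n => (D n).Tr_Sg A v hv) (fun n => (D n).Pr_Sec A v hv)
        (fun n => (D n).split A v hv)
        (fun n => ⟨_, F.θ_siteEmb P.max_eq P.ϖ_mem n v (tau A v), (D n).Tr_J A v hv⟩)⟩,
      hK, fun p hp _ _ => siteEmb_mem_prime P.max_eq v (htau A v) p hp, fun Q hQ hQA => ?_⟩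
    rcases hnew A v hv with hnr | ha0
    · refine not_unramified (g + 1) (F.baseK hv) v
        (fun y hy hker hQy hO hxy => hnr y hy ?_ hker hO ?_) hQ
      · have := hy
        exact (F.base A).ker_le_of_kerInf_le fun x hx => hQy x (hQA hx)
      have hθ : ∀ k, (F.baseK hv).thetaInf (MvPowerSeries.X ⟨Sum.inr v, k⟩) = z₀ v k :=
        fun k => F.thetaInf_eq _ (fun _ => rfl) (F.toBase_raise v k)
      rwa [hθ, hθ] at hxy
    · rintro ⟨hx, hy⟩
      have ha : MvPowerSeries.X ⟨Sum.inr v, (0 : Fin 3)⟩ ∈ Q :=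
        hQ.1.2 (mem_kerInf_of_C fun n => ⟨_, F.θ_raise n v 0, ha0 n⟩)
      have := hQ.1.1
      obtain ⟨st, T, hc⟩ := hK Q inferInstance hQ.1.2
      exact not_unramified_of_pinned P.max_eq (g + 1) _ _ _ P.isUnit_two P.J_sq P.tau_mem P.tau_ne
        (fun v => (d' v).consts_mem) _ hQ hc v
        ((d' v).consts_true) ha ⟨hx, hy⟩

/-- The congruence data of the base level. -/
theorem lev_le_comp (F : FamilyTheta D) (P : RaiseParams ϖ half ζ ζ' J r₂ d q M₀)
    (htau : ∀ A v (p : Pt (Fin 3) 𝒪), p.coords 0 = 0 → tau A v ∈ p.prime)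
    (hnew : NewAt D) (hs : 0 < rk ∅) (A : Finset ν) (st : σ → Bool) :
    (F.lev A).kerInf ≤
      (bigComp P.max_eq (g + 1) (fun v => (d v).res) st
        (fun v => (d v).sgn * ((q v : 𝒪) - 1) * half) (fun v => (d' v).consts)
        (raisedType (fun _ => true) A) P.isUnit_two P.J_sq P.tau_mem P.tau_ne
        (fun v => (d' v).consts_mem)).prime := by
  have hτ : half * (ζ - ζ') ≠ 0 :=
    mul_ne_zero (right_ne_zero_of_mul_eq_one P.two_half) (sub_ne_zero.mpr P.zeta_ne)
  exact kerInf_le_of_tower P.max_eq _ _ _ P.isUnit_two P.J_sq P.tau_mem P.tau_ne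
    (fun v => (d' v).consts_mem) (F.tower P htau hnew) (fun v => (d' v).consts_ne)
    (kerInf_le_base P.max_eq _ _ _ P.isUnit_two P.J_sq P.tau_mem P.tau_ne
      (fun v => (d' v).consts_mem) hτ P.r₂_mem P.r₂_sq hs F.unramified_lev F.unramified_levχ
      F.congr_lev (F.chiCond_levχ P.two_half P.zeta_ne P.zeta_mul P.zeta_pow P.zeta'_pow)
      (fun Q hQ hle v => by
        have := hQ
        exact F.nrCond_or_stCond P.two_half P.sgn_sq P.q_residue P.residual (F.actsByVars ∅)
          (fun n w => (D n).ψ_trace ∅ w) hle v)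
      st) A

end FamilyTheta

/-- **Modularity of raised points.** -/
theorem ker_le_ker_of_family {J r₂ : 𝒪} (P : RaiseParams ϖ half ζ ζ' J r₂ d q M₀)
    (hg : g + Fintype.card ν + 1 = r + Fintype.card σ)
    (D : ∀ n, RaiseLevel ϖ half ζ ζ' d q d' g r M₀ z₀ ρ₀ ρK tau n)
    (htau : ∀ A v (p : Pt (Fin 3) 𝒪), p.coords 0 = 0 → tau A v ∈ p.prime)
    (hnew : NewAt D) (hs : 0 < rk ∅) (A : Finset ν) (φ : R₀ →ₐ[𝒪] 𝒪)
    (hφσ : ∀ v, φ (M₀ (d v).inert).trace = 2)
    (hφA : ∀ v ∈ A, φ (z₀ v 0) = 0 ∧ φ (z₀ v 2) = 0)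
    (hφn : ∀ v, v ∉ A → φ (z₀ v 1) = 0 ∧ φ (z₀ v 2) = 0) :
    RingHom.ker (ρ₀ A) ≤ RingHom.ker φ := by
  classical
  obtain ⟨F⟩ :=
    nonempty_familyTheta (D := D) P.max_eq P.two_half P.sgn_sq P.q_residue P.ϖ_mem P.residual hg
  have := isLocalHom_algebraMap_series (A := 𝒪) (ι := BigIdx σ ν (g + 1))
  have : IsLocalHom (φ : R₀ →+* 𝒪) :=
    IsLocalHom.of_surjective _ fun o => ⟨algebraMap 𝒪 R₀ o, φ.commutes o⟩
  set B := F.base A
  have : IsLocalHom (B.thetaInf : BigRing 𝒪 σ ν (g + 1) →+* R₀) :=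
    IsLocalHom.of_surjective _ B.thetaInf_surjective
  have hm : ∀ b ∈ maximalIdeal (BigRing 𝒪 σ ν (g + 1)), φ (B.thetaInf b) ∈ maximalIdeal 𝒪 :=
    fun b hb =>
    map_nonunit (φ : R₀ →+* 𝒪) _ (map_nonunit (B.thetaInf : BigRing 𝒪 σ ν (g + 1) →+* R₀) _ hb)
  let y : Pt (BigIdx σ ν (g + 1)) 𝒪 := ⟨fun i => φ (B.thetaInf (MvPowerSeries.X i)),
    fun i => hm _ (by rw [mem_maximalIdeal_iff_constantCoeff]; simp)⟩
  have hyhom : φ.comp B.thetaInf = y.hom :=
    algHom_eq_of_X _ _ hm
      (evalAdic_mem P.max_eq (by rw [Algebra.algebraMap_self, RingHom.id_apply, P.max_eq]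
                                 exact Ideal.subset_span rfl) _ y.mem)
      fun i => by
        show φ (B.thetaInf (MvPowerSeries.X i)) = y.hom (MvPowerSeries.X i)
        simp [Pt.hom, y]
  have hy : y.prime ≤ (RingHom.ker φ).comap (B.thetaInf : BigRing 𝒪 σ ν (g + 1) →+* R₀) :=
    fun x hx => by
    rw [Ideal.mem_comap, RingHom.mem_ker, RingHom.coe_coe, ← AlgHom.comp_apply, hyhom]
    exact hx
  have hraise : ∀ v i, y.coords ⟨Sum.inr v, i⟩ = φ (z₀ v i) := fun v i =>
    congrArg φ (F.thetaInf_eq B (fun _ => rfl) (F.toBase_raise v i))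
  -- the framed sites
  have hsite : ∀ v, nrCond (fun i => y.coords ⟨Sum.inl (some v), i⟩) ∨
      stCond (d v).res ((d v).sgn * ((q v : 𝒪) - 1) * half)
        fun i => y.coords ⟨Sum.inl (some v), i⟩ := by
    intro v
    set FM := (baseRep M₀ d v (d v).frob).map φ
    set NM := (baseRep M₀ d v (d v).inert).map φ
    have hdet : ∀ x, (M₀ x).det = (D 0).π ((D 0).M x).det := fun x => by
      rw [← (D 0).π_M, ← AlgHom.mapMatrix_apply, ← AlgHom.map_det]
    have hb : ∀ x, ((baseRep M₀ d v x).map φ).det = φ (M₀ x).det := fun x => by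
      rw [← AlgHom.mapMatrix_apply, ← AlgHom.map_det, det_baseRep]
    have hpair : IsPairCoord half (d v).res (fun _ => y.hom)
        (fun i => (MvPowerSeries.X ⟨Sum.inl (some v), i⟩ : BigRing 𝒪 σ ν (g + 1)))
        (fun _ => FM) (fun _ => NM) := fun n => by
      funext i
      show y.hom _ = _
      rw [← hyhom, AlgHom.comp_apply, F.thetaInf_eq B (fun _ => rfl)
        (fun m => congrFun (F.toBase_site v m) i)]
      rcases i with i | i <;> fin_cases i <;> simp [matVec, FM, NM]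
    rcases nrCond_or_stCond_of_pairs (Bn := fun _ => 𝒪) P.two_half (P.q_residue v) (P.sgn_sq v)
        (fun _ => IsLocalHom.of_surjective _ fun o => ⟨algebraMap 𝒪 _ o, by simp⟩)
        (fun i => by rw [mem_maximalIdeal_iff_constantCoeff]; simp) hpair
        (fun _ => by
          rw [hb, hdet, (D 0).det_frob, map_natCast, map_natCast, Algebra.algebraMap_self,
            RingHom.id_apply])
        (fun _ => by
          have hA := map_nonunit (φ : R₀ →+* 𝒪) _
            (add_mem (P.residual v 0 0).1 (P.residual v 1 1).1)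
          simp only [RingHom.coe_coe, map_add, map_sub, AlgHom.commutes] at hA
          convert hA using 1
          simp [FM, Matrix.trace_fin_two, FrameSite.shape]
          ring)
        (fun _ => by rw [hb, hdet, (D 0).det_inert, map_one, map_one])
        (fun _ => by
          have h₀t : M₀ (d v).frob * M₀ (d v).inert = M₀ (d v).inert ^ q v * M₀ (d v).frob := by
            have := congrArg (fun X => X.map (D 0).π) ((D 0).tame v)
            simp only [← AlgHom.mapMatrix_apply, map_mul, map_pow] at this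
            simpa only [AlgHom.mapMatrix_apply, (D 0).π_M] using this
          simp only [FM, NM, ← AlgHom.mapMatrix_apply]
          rw [← map_pow φ.mapMatrix, ← map_mul φ.mapMatrix, ← map_mul φ.mapMatrix,
            baseRep_tame M₀ d v h₀t])
        (fun _ => ⊥)
        (fun _ => by
          rw [Ideal.mem_bot, sub_eq_zero]
          simp only [NM]
          rw [Matrix.trace_fin_two, Matrix.map_apply, Matrix.map_apply, ← map_add,
            ← Matrix.trace_fin_two, trace_baseRep]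
          exact hφσ v)
        (Q := y.prime) (fun x hx => RingHom.mem_ker.mpr (Ideal.mem_bot.mp (hx 0))) with hn | hst
    · refine Or.inl fun i => ?_
      have h0 : MvPowerSeries.X ⟨Sum.inl (some v), Sum.inr i⟩ ∈ y.prime :=
        Ideal.Quotient.eq_zero_iff_mem.mp (hn i)
      simpa [Pt.prime, Pt.hom] using h0
    · refine Or.inr ?_
      have := stCond_map hst (Ideal.Quotient.liftₐ y.prime y.hom fun x hx => hx)
      convert this using 2 with i
      show y.coords _ = y.hom (MvPowerSeries.X _)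
      simp [Pt.hom]
  let st : σ → Bool := fun v => decide (stCond (d v).res ((d v).sgn * ((q v : 𝒪) - 1) * half)
    fun i => y.coords ⟨Sum.inl (some v), i⟩)
  have hbig : BigCond (g + 1) (fun v => (d v).res) st (fun v => (d v).sgn * ((q v : 𝒪) - 1) * half)
      (fun v => (d' v).consts) (raisedType (fun _ => true) A) y.coords := by
    refine ⟨fun v => ?_, fun v => ?_⟩
    · by_cases hv : stCond (d v).res ((d v).sgn * ((q v : 𝒪) - 1) * half)
          fun i => y.coords ⟨Sum.inl (some v), i⟩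
      · rw [if_pos (by simpa [st] using hv)]; exact hv
      · rw [if_neg (by simpa [st] using hv)]
        exact (hsite v).resolve_right hv
    · rw [show (fun i => y.coords ⟨Sum.inr v, i⟩) = fun i => φ (z₀ v i) from
        funext (hraise v)]
      by_cases hv : v ∈ A
      · rw [raisedType, if_pos hv]
        exact ⟨(hφA v hv).1.trans (by simp [CoordSite.consts_true]), (hφA v hv).2⟩
      · rw [raisedType, if_neg hv]
        exact hφn v hv
  have : (RingHom.ker φ).IsPrime := RingHom.ker_isPrime φ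
  exact B.ker_le_of_kerInf_le
    (((F.lev_le_comp P htau hnew hs A st).trans
      (bigComp_le_pt P.max_eq (g + 1) _ _ _ _ _ P.isUnit_two P.J_sq P.tau_mem P.tau_ne
        (fun v => (d' v).consts_mem) hbig)).trans hy)

/-- **Primes of every component.** Some prime of characteristic zero of the support at the base
has trivial inertia at any prescribed set of framed sites. -/
theorem exists_prime_of_family {J r₂ : 𝒪} (P : RaiseParams ϖ half ζ ζ' J r₂ d q M₀)
    (hg : g + Fintype.card ν + 1 = r + Fintype.card σ)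
    (D : ∀ n, RaiseLevel ϖ half ζ ζ' d q d' g r M₀ z₀ ρ₀ ρK tau n)
    (htau : ∀ A v (p : Pt (Fin 3) 𝒪), p.coords 0 = 0 → tau A v ∈ p.prime)
    (hnew : NewAt D) (hs : 0 < rk ∅) (A : Finset ν) (nr : Finset σ) :
    ∃ y : Ideal R₀, y.IsPrime ∧ RingHom.ker (ρ₀ A) ≤ y ∧
      (∀ a : 𝒪, a ≠ 0 → algebraMap 𝒪 R₀ a ∉ y) ∧
      ∀ v ∈ nr, ∀ i j, M₀ (d v).inert i j - (1 : Matrix (Fin 2) (Fin 2) R₀) i j ∈ y := by
  classical
  obtain ⟨F⟩ :=
    nonempty_familyTheta (D := D) P.max_eq P.two_half P.sgn_sq P.q_residue P.ϖ_mem P.residual hg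
  let τ₀ : σ → 𝒪 := fun v => (d v).sgn * ((q v : 𝒪) - 1) * half
  let cs : ν → Bool → 𝒪 := fun v => (d' v).consts
  let res : σ → Bool := fun v => (d v).res
  let st : σ → Bool := fun v => decide (v ∉ nr)
  choose a ha _hane using fun v => exists_avoid P.max_eq cs v
  let x : Pt (BigIdx σ ν (g + 1)) 𝒪 :=
    ⟨genCoord (g + 1) τ₀ cs ϖ st (raisedType (fun _ => true) A) a,
      genCoord_mem P.max_eq (g + 1) τ₀ cs P.tau_mem (fun v => (d' v).consts_mem) ha⟩
  have hx : (F.lev A).kerInf ≤ x.prime :=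
    (F.lev_le_comp P htau hnew hs A st).trans
      (bigComp_le_pt P.max_eq (g + 1) res st τ₀ cs _ P.isUnit_two P.J_sq P.tau_mem P.tau_ne
        (fun v => (d' v).consts_mem) (genCoord_bigCond (g + 1) res τ₀ cs ϖ st _ a))
  obtain ⟨Q, hQ, hQx⟩ := Ideal.exists_minimalPrimes_le hx
  have := hQ.1.1
  obtain ⟨st', T', hc⟩ := F.hasTypes P.max_eq P.two_half P.sgn_sq
    P.q_residue P.ϖ_mem P.residual (F.actsByVars A)
    (fun n w => (D n).ψ_trace A w) (fun n w e he => (D n).ψ_eqs A w e he) Q inferInstance hQ.1.2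
  have hcx : BigCond (g + 1) res st' τ₀ cs T'
      (genCoord (g + 1) τ₀ cs ϖ st (raisedType (fun _ => true) A) a) :=
    bigCond_of_le P.max_eq (g + 1) res τ₀ cs P.isUnit_two P.J_sq P.tau_mem P.tau_ne
      (fun v => (d' v).consts_mem) hc hQx
  have hst : st' = st := (type_eq_of_genCoord P.max_eq (g + 1) res τ₀ cs P.tau_ne hcx).1
  obtain ⟨y, hy, hker, hQy, hO⟩ := exists_prime_over (F.base A) hQ
  have := hy
  refine ⟨y, hy, hker, hO, fun v hv i j => ?_⟩
  have hnr := hc.1 v
  rw [hst, if_neg (by simp [st, hv])] at hnr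
  set mk := Ideal.Quotient.mk y
  have hvec : ∀ k, mk (matVec (algebraMap 𝒪 R₀ half) (baseRep M₀ d v (d v).inert) k) = 0 := by
    intro k
    refine Ideal.Quotient.eq_zero_iff_mem.mpr ?_
    have h1 := hQy _ (Ideal.Quotient.eq_zero_iff_mem.mp (hnr k))
    rw [F.thetaInf_eq (F.base A) (fun _ => rfl) (a := matVec (algebraMap 𝒪 R₀ half)
      (baseRep M₀ d v (d v).inert) k) (fun m => ?_)] at h1
    · exact h1
    · have := congrFun (F.toBase_site v m) (Sum.inr k)
      simp only [shiftPair, Sum.elim_inr] at this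
      rw [show siteOffset 𝒪 (d v).res (Sum.inr k) = 0 by
        cases (d v).res <;> simp [siteOffset, fstOne]] at this
      simpa using this
  have htr : mk (M₀ (d v).inert).trace = 2 := by
    rw [← map_ofNat mk 2]
    exact Ideal.Quotient.eq.mpr
      (FamilyTheta.trace_sub_two_mem (fun n => (D n).compat A) (fun n => (D n).ψ_trace A v) hker)
  have hhalf : 2 * mk (algebraMap 𝒪 R₀ half) = 1 := by
    rw [← map_ofNat mk 2, ← map_ofNat (algebraMap 𝒪 R₀) 2, ← map_mul, ← map_mul, P.two_half,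
      map_one, map_one]
  have hbase : (baseRep M₀ d v (d v).inert).map mk = 1 := by
    rw [← ofVec_matVec hhalf ((baseRep M₀ d v (d v).inert).map mk)]
    have h0 : matVec (mk (algebraMap 𝒪 R₀ half)) ((baseRep M₀ d v (d v).inert).map mk) = 0 := by
      funext k
      refine Eq.trans ?_ (hvec k)
      fin_cases k <;> simp [matVec]
    have h2 : mk (algebraMap 𝒪 R₀ half) * ((baseRep M₀ d v (d v).inert).map mk).trace = 1 := by
      rw [Matrix.trace_fin_two, Matrix.map_apply, Matrix.map_apply, ← map_add,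
        ← Matrix.trace_fin_two, trace_baseRep, htr, mul_comm, hhalf]
    rw [h0, h2]
    ext a' b'
    fin_cases a' <;> fin_cases b' <;> simp [ofVec]
  have hM : (M₀ (d v).inert).map mk = 1 := by
    have e := congrArg (fun X => ((algebraMap 𝒪 R₀).mapMatrix ↑(d v).frame).map mk * X *
      ((algebraMap 𝒪 R₀).mapMatrix ↑(d v).frame⁻¹).map mk) hbase
    simp only [mul_one, ← Matrix.map_mul, ← map_mul, Units.mul_inv, map_one,
      Matrix.map_one _ (map_zero mk) (map_one mk)] at e
    rw [← e]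
    congr 1
    simp only [baseRep, MonoidHom.coe_mk, OneHom.coe_mk, ← mul_assoc]
    rw [← map_mul, Units.mul_inv, map_one, one_mul, mul_assoc, ← map_mul, Units.mul_inv, map_one,
      mul_one]
  refine Ideal.Quotient.eq_zero_iff_mem.mp ?_
  rw [map_sub, ← Matrix.map_apply (f := mk), hM, Matrix.one_apply,
    Matrix.one_apply, apply_ite mk, map_one, map_zero, sub_self]

end FermatAgent.RT.Raise
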